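import Fermat.Agent.S25.Bridge.T3Defs
import Fermat.Agent.S25.Glue.H56_Iso

/-!
# S25, package BRIDGE, leaf T3-GLUE2 (helper11): gluing two sheaves of modules

`X` an arbitrary scheme, `W₀`, `W₁` two opens, `F₀`, `F₁ : X.Modules` and a compatible family of
linear isomorphisms `θ V : Γ(F₀, V) ≃ₗ Γ(F₁, V)` over the opens `V ≤ W₀ ⊓ W₁`.

* `Sec2 W` : the sections over `W` of the glued sheaf: pairs `(a, b) ∈ Γ(F₀, W) × Γ(F₁, W)` with
  `θ (a|_V) = b|_V` for all `V ≤ W`, `V ≤ W₀`, `V ≤ W₁`;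
* `glPresheaf`, `glPresheaf_isSheaf`, `glSheaf : X.Modules`;
* `pr0 : glSheaf ⟶ F₀`, `pr1 : glSheaf ⟶ F₁` : the projections;
* `pr0_bijective`, `pr1_bijective` : they are bijective on sections over `V ≤ W₀` resp. `V ≤ W₁`
  when `Γ(F_i, V) → Γ(F_i, V ⊓ W_i)` is bijective for all `V`;
* `stmt_GLUE2 : T3.Stmt_GLUE2`.

This file contains no unproved statement.
-/

set_option autoImplicit false

open CategoryTheory AlgebraicGeometry TopologicalSpace Opposite

universe u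

namespace Fermat.Agent.S25.Bridge.H11

open Fermat.Agent.S25.Glue.H56

variable {X : Scheme.{u}}

theorem resM_zero' (M : X.Modules) {U V : X.Opens} (h : V ≤ U) :
    resM M h (0 : Γ(M, U)) = 0 := by
  unfold resM
  exact map_zero _

theorem res_eq_resM (M : X.Modules) {U V : X.Opens} (h : V ≤ U) (t : Γ(M, U)) :
    Fermat.Agent.S25.Bridge.res M h t = resM M h t := rfl

theorem resO_eq_resO (X : Scheme.{u}) {U V : X.Opens} (h : V ≤ U) (a : Γ(X, U)) :
    Fermat.Agent.S25.Bridge.resO h a = Fermat.Agent.S25.Glue.H56.resO X h a := rfl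

section Construction

variable (W0 W1 : X.Opens) (F0 F1 : X.Modules)
  (θ : ∀ V : X.Opens, V ≤ W0 → V ≤ W1 → (Γ(F0, V) ≃ₗ[Γ(X, V)] Γ(F1, V)))

/-- The gluing condition on a pair of sections. -/
def IsPair (W : X.Opens) (p : Γ(F0, W) × Γ(F1, W)) : Prop :=
  ∀ (V : X.Opens) (hV : V ≤ W) (h0 : V ≤ W0) (h1 : V ≤ W1),
    θ V h0 h1 (resM F0 hV p.1) = resM F1 hV p.2

/-- The sections over `W` of the glued sheaf. -/
def Sec2 (W : X.Opens) : Submodule Γ(X, W) (Γ(F0, W) × Γ(F1, W)) where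
  carrier := {p | IsPair W0 W1 F0 F1 θ W p}
  add_mem' := by
    intro p q hp hq V hV h0 h1
    have h1' := hp V hV h0 h1
    have h2' := hq V hV h0 h1
    simp only [Prod.fst_add, Prod.snd_add, resM_add, map_add, h1', h2']
  zero_mem' := by
    intro V hV h0 h1
    simp only [Prod.fst_zero, Prod.snd_zero, resM_zero', map_zero]
  smul_mem' := by
    intro r p hp V hV h0 h1
    have h1' := hp V hV h0 h1
    simp only [Prod.smul_fst, Prod.smul_snd, resM_smul, map_smul, h1']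

variable {W0 W1 F0 F1 θ}

theorem mem_sec2 {W : X.Opens} {p : Γ(F0, W) × Γ(F1, W)} :
    p ∈ Sec2 W0 W1 F0 F1 θ W ↔ IsPair W0 W1 F0 F1 θ W p := Iff.rfl

/-- restriction of sections -/
noncomputable def secRes {W W' : X.Opens} (h : W' ≤ W) (p : Sec2 W0 W1 F0 F1 θ W) :
    Sec2 W0 W1 F0 F1 θ W' :=
  ⟨(resM F0 h p.1.1, resM F1 h p.1.2), by
    intro V hV h0 h1
    simp only [resM_resM]
    exact p.2 V (hV.trans h) h0 h1⟩

theorem secRes_fst {W W' : X.Opens} (h : W' ≤ W) (p : Sec2 W0 W1 F0 F1 θ W) :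
    (secRes h p).1.1 = resM F0 h p.1.1 := rfl

theorem secRes_snd {W W' : X.Opens} (h : W' ≤ W) (p : Sec2 W0 W1 F0 F1 θ W) :
    (secRes h p).1.2 = resM F1 h p.1.2 := rfl

theorem sec2_ext {W : X.Opens} {p q : Sec2 W0 W1 F0 F1 θ W} (h1 : p.1.1 = q.1.1)
    (h2 : p.1.2 = q.1.2) : p = q :=
  Subtype.ext (Prod.ext h1 h2)

theorem secRes_add {W W' : X.Opens} (h : W' ≤ W) (p q : Sec2 W0 W1 F0 F1 θ W) :
    secRes h (p + q) = secRes h p + secRes h q := by
  apply sec2_ext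
  · simp only [secRes_fst, Submodule.coe_add, Prod.fst_add, resM_add]
  · simp only [secRes_snd, Submodule.coe_add, Prod.snd_add, resM_add]

theorem secRes_smul {W W' : X.Opens} (h : W' ≤ W) (r : Γ(X, W)) (p : Sec2 W0 W1 F0 F1 θ W) :
    secRes h (r • p) = Fermat.Agent.S25.Glue.H56.resO X h r • secRes h p := by
  apply sec2_ext
  · simp only [secRes_fst, Submodule.coe_smul, Prod.smul_fst, resM_smul]
  · simp only [secRes_snd, Submodule.coe_smul, Prod.smul_snd, resM_smul]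

theorem secRes_id {W : X.Opens} (p : Sec2 W0 W1 F0 F1 θ W) : secRes (le_refl W) p = p := by
  apply sec2_ext
  · rw [secRes_fst, resM_id]
  · rw [secRes_snd, resM_id]

theorem secRes_secRes {W W' W'' : X.Opens} (h : W' ≤ W) (h' : W'' ≤ W')
    (p : Sec2 W0 W1 F0 F1 θ W) : secRes h' (secRes h p) = secRes (h'.trans h) p := by
  apply sec2_ext
  · simp only [secRes_fst, resM_resM]
  · simp only [secRes_snd, resM_resM]

variable (W0 W1 F0 F1 θ)

noncomputable instance instModuleSec2 (W : (Opens X)ᵒᵖ) :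
    Module (X.ringCatSheaf.obj.obj W) (Sec2 W0 W1 F0 F1 θ W.unop) :=
  inferInstanceAs (Module Γ(X, W.unop) (Sec2 W0 W1 F0 F1 θ W.unop))

/-- The presheaf of modules obtained by gluing. -/
noncomputable def glPresheaf : PresheafOfModules.{u} X.ringCatSheaf.obj where
  obj W := ModuleCat.of (X.ringCatSheaf.obj.obj W) (Sec2 W0 W1 F0 F1 θ W.unop)
  map {W W'} f := ModuleCat.ofHom
      (Y := (ModuleCat.restrictScalars (X.ringCatSheaf.obj.map f).hom).obj
        (ModuleCat.of (X.ringCatSheaf.obj.obj W') (Sec2 W0 W1 F0 F1 θ W'.unop)))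
    { toFun := fun a => secRes (leOfHom f.unop) a
      map_add' := fun a b => secRes_add (leOfHom f.unop) a b
      map_smul' := fun r a => secRes_smul (leOfHom f.unop) r a }
  map_id W := by
    ext a
    exact secRes_id a
  map_comp f g := by
    ext a
    exact (secRes_secRes (leOfHom f.unop) (leOfHom g.unop) a).symm

theorem glPresheaf_map_apply {W W' : X.Opens} (h : W' ≤ W) (a : Sec2 W0 W1 F0 F1 θ W) :
    ((glPresheaf W0 W1 F0 F1 θ).presheaf.map (homOfLE h).op a : Sec2 W0 W1 F0 F1 θ W') =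
      secRes h a := rfl

/-- The glued presheaf is a sheaf. -/
theorem glPresheaf_isSheaf
    (hθ : ∀ (V V' : X.Opens) (h0 : V ≤ W0) (h1 : V ≤ W1) (h : V' ≤ V) (t : Γ(F0, V)),
      θ V' (h.trans h0) (h.trans h1) (resM F0 h t) = resM F1 h (θ V h0 h1 t)) :
    TopCat.Presheaf.IsSheaf (glPresheaf W0 W1 F0 F1 θ).presheaf := by
  rw [TopCat.Presheaf.isSheaf_iff_isSheafUniqueGluing]
  intro κ W sf hsf
  change ∀ α, Sec2 W0 W1 F0 F1 θ (W α) at sf
  have hcompat : ∀ α β, secRes (inf_le_left : W α ⊓ W β ≤ W α) (sf α) =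
      secRes (inf_le_right : W α ⊓ W β ≤ W β) (sf β) :=
    fun α β => hsf α β
  have hglue0 : ∃! a : Γ(F0, iSup W), ∀ α, resM F0 (le_iSup W α) a = (sf α).1.1 := by
    refine TopCat.Sheaf.existsUnique_gluing' ⟨F0.presheaf, F0.isSheaf⟩ W (iSup W)
      (fun α => homOfLE (le_iSup W α)) le_rfl (fun α => (sf α).1.1) ?_
    intro α β
    exact congrArg (fun t : Sec2 W0 W1 F0 F1 θ (W α ⊓ W β) => t.1.1) (hcompat α β)
  have hglue1 : ∃! b : Γ(F1, iSup W), ∀ α, resM F1 (le_iSup W α) b = (sf α).1.2 := by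
    refine TopCat.Sheaf.existsUnique_gluing' ⟨F1.presheaf, F1.isSheaf⟩ W (iSup W)
      (fun α => homOfLE (le_iSup W α)) le_rfl (fun α => (sf α).1.2) ?_
    intro α β
    exact congrArg (fun t : Sec2 W0 W1 F0 F1 θ (W α ⊓ W β) => t.1.2) (hcompat α β)
  obtain ⟨a, ha, ha'⟩ := hglue0
  obtain ⟨b, hb, hb'⟩ := hglue1
  have hpair : IsPair W0 W1 F0 F1 θ (iSup W) (a, b) := by
    intro V hV h0 h1
    refine eq_of_resM_eq F1 W V hV _ _ fun α => ?_
    have e1 := hθ V (V ⊓ W α) h0 h1 inf_le_left (resM F0 hV a)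
    rw [← e1, resM_resM, resM_resM]
    have e2 := (sf α).2 (V ⊓ W α) inf_le_right (inf_le_left.trans h0) (inf_le_left.trans h1)
    rw [← ha α, ← hb α, resM_resM, resM_resM] at e2
    exact e2
  refine ⟨(⟨(a, b), hpair⟩ : Sec2 W0 W1 F0 F1 θ (iSup W)), ?_, ?_⟩
  · intro α
    exact sec2_ext (ha α) (hb α)
  · intro s hs
    change Sec2 W0 W1 F0 F1 θ (iSup W) at s
    have hs' : ∀ α, secRes (le_iSup W α) s = sf α := fun α => hs α
    apply sec2_ext
    · refine ha' s.1.1 fun α => ?_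
      exact congrArg (fun t : Sec2 W0 W1 F0 F1 θ (W α) => t.1.1) (hs' α)
    · refine hb' s.1.2 fun α => ?_
      exact congrArg (fun t : Sec2 W0 W1 F0 F1 θ (W α) => t.1.2) (hs' α)

variable (hθ : ∀ (V V' : X.Opens) (h0 : V ≤ W0) (h1 : V ≤ W1) (h : V' ≤ V) (t : Γ(F0, V)),
      θ V' (h.trans h0) (h.trans h1) (resM F0 h t) = resM F1 h (θ V h0 h1 t))

/-- The glued sheaf of modules. -/
noncomputable def glSheaf : X.Modules where
  val := glPresheaf W0 W1 F0 F1 θ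
  isSheaf := glPresheaf_isSheaf W0 W1 F0 F1 θ hθ

variable {W0 W1 F0 F1 θ}

/-- A compatible pair as a section of the glued sheaf. -/
noncomputable def toΓ2 {W : X.Opens} (p : Sec2 W0 W1 F0 F1 θ W) :
    Γ(glSheaf W0 W1 F0 F1 θ hθ, W) := p

/-- The pair of components of a section of the glued sheaf. -/
noncomputable def ofΓ2 {W : X.Opens} (t : Γ(glSheaf W0 W1 F0 F1 θ hθ, W)) :
    Sec2 W0 W1 F0 F1 θ W := t

theorem ofΓ2_toΓ2 {W : X.Opens} (p : Sec2 W0 W1 F0 F1 θ W) : ofΓ2 hθ (toΓ2 hθ p) = p := rfl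

theorem toΓ2_ofΓ2 {W : X.Opens} (t : Γ(glSheaf W0 W1 F0 F1 θ hθ, W)) :
    toΓ2 hθ (ofΓ2 hθ t) = t := rfl

theorem ofΓ2_injective {W : X.Opens} : Function.Injective (ofΓ2 hθ (W := W)) :=
  fun _ _ h => h

theorem ofΓ2_add {W : X.Opens} (t t' : Γ(glSheaf W0 W1 F0 F1 θ hθ, W)) :
    ofΓ2 hθ (t + t') = ofΓ2 hθ t + ofΓ2 hθ t' := rfl

theorem ofΓ2_smul {W : X.Opens} (r : Γ(X, W)) (t : Γ(glSheaf W0 W1 F0 F1 θ hθ, W)) :
    ofΓ2 hθ (r • t) = r • ofΓ2 hθ t := rfl

theorem ofΓ2_resM {W W' : X.Opens} (h : W' ≤ W) (t : Γ(glSheaf W0 W1 F0 F1 θ hθ, W)) :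
    ofΓ2 hθ (resM (glSheaf W0 W1 F0 F1 θ hθ) h t) = secRes h (ofΓ2 hθ t) := rfl

/-- The first projection, on abelian presheaves. -/
noncomputable def pr0Pre : (glSheaf W0 W1 F0 F1 θ hθ).presheaf ⟶ F0.presheaf where
  app W := AddCommGrpCat.ofHom (AddMonoidHom.mk'
    (fun t : Γ(glSheaf W0 W1 F0 F1 θ hθ, W.unop) => ((ofΓ2 hθ t).1.1 : Γ(F0, W.unop)))
    (fun _ _ => rfl))
  naturality := by
    intro W W' g
    ext t
    rfl

/-- The second projection, on abelian presheaves. -/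
noncomputable def pr1Pre : (glSheaf W0 W1 F0 F1 θ hθ).presheaf ⟶ F1.presheaf where
  app W := AddCommGrpCat.ofHom (AddMonoidHom.mk'
    (fun t : Γ(glSheaf W0 W1 F0 F1 θ hθ, W.unop) => ((ofΓ2 hθ t).1.2 : Γ(F1, W.unop)))
    (fun _ _ => rfl))
  naturality := by
    intro W W' g
    ext t
    rfl

/-- The first projection of the glued sheaf. -/
noncomputable def pr0 : glSheaf W0 W1 F0 F1 θ hθ ⟶ F0 :=
  ⟨PresheafOfModules.homMk (pr0Pre hθ) (fun _ _ _ => rfl)⟩

/-- The second projection of the glued sheaf. -/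
noncomputable def pr1 : glSheaf W0 W1 F0 F1 θ hθ ⟶ F1 :=
  ⟨PresheafOfModules.homMk (pr1Pre hθ) (fun _ _ _ => rfl)⟩

theorem pr0_app {W : X.Opens} (t : Γ(glSheaf W0 W1 F0 F1 θ hθ, W)) :
    (pr0 hθ).app W t = (ofΓ2 hθ t).1.1 := rfl

theorem pr1_app {W : X.Opens} (t : Γ(glSheaf W0 W1 F0 F1 θ hθ, W)) :
    (pr1 hθ).app W t = (ofΓ2 hθ t).1.2 := rfl

/-- The two components of a section correspond under `θ`. -/
theorem theta_pr0 (V : X.Opens) (h0 : V ≤ W0) (h1 : V ≤ W1)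
    (t : Γ(glSheaf W0 W1 F0 F1 θ hθ, V)) :
    θ V h0 h1 ((pr0 hθ).app V t) = (pr1 hθ).app V t := by
  rw [pr0_app, pr1_app]
  have := (ofΓ2 hθ t).2 V le_rfl h0 h1
  rw [resM_id, resM_id] at this
  exact this

theorem pr0_bijective
    (hb1 : ∀ V : X.Opens, Function.Bijective (resM F1 (inf_le_left : V ⊓ W1 ≤ V)))
    (V : X.Opens) (h0 : V ≤ W0) : Function.Bijective ((pr0 hθ).app V) := by
  constructor
  · intro t t' htt'
    rw [pr0_app, pr0_app] at htt'
    apply ofΓ2_injective hθ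
    refine sec2_ext htt' ?_
    apply (hb1 V).1
    have e1 := (ofΓ2 hθ t).2 (V ⊓ W1) inf_le_left (inf_le_left.trans h0) inf_le_right
    have e2 := (ofΓ2 hθ t').2 (V ⊓ W1) inf_le_left (inf_le_left.trans h0) inf_le_right
    rw [← e1, ← e2, htt']
  · intro a
    obtain ⟨b, hb⟩ := (hb1 V).2
      (θ (V ⊓ W1) (inf_le_left.trans h0) inf_le_right (resM F0 inf_le_left a))
    have hpair : IsPair W0 W1 F0 F1 θ V (a, b) := by
      intro V' hV' h0' h1'
      have hle : V' ≤ V ⊓ W1 := le_inf hV' h1'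
      have e1 := hθ (V ⊓ W1) V' (inf_le_left.trans h0) inf_le_right hle
        (resM F0 inf_le_left a)
      rw [resM_resM, hb.symm, resM_resM] at e1
      exact e1
    exact ⟨toΓ2 hθ ⟨(a, b), hpair⟩, rfl⟩

theorem pr1_bijective
    (hb0 : ∀ V : X.Opens, Function.Bijective (resM F0 (inf_le_left : V ⊓ W0 ≤ V)))
    (V : X.Opens) (h1 : V ≤ W1) : Function.Bijective ((pr1 hθ).app V) := by
  constructor
  · intro t t' htt'
    rw [pr1_app, pr1_app] at htt'
    apply ofΓ2_injective hθ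
    refine sec2_ext ?_ htt'
    apply (hb0 V).1
    apply (θ (V ⊓ W0) inf_le_right (inf_le_left.trans h1)).injective
    have e1 := (ofΓ2 hθ t).2 (V ⊓ W0) inf_le_left inf_le_right (inf_le_left.trans h1)
    have e2 := (ofΓ2 hθ t').2 (V ⊓ W0) inf_le_left inf_le_right (inf_le_left.trans h1)
    rw [e1, e2, htt']
  · intro b
    obtain ⟨a, ha⟩ := (hb0 V).2
      ((θ (V ⊓ W0) inf_le_right (inf_le_left.trans h1)).symm (resM F1 inf_le_left b))
    have hpair : IsPair W0 W1 F0 F1 θ V (a, b) := by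
      intro V' hV' h0' h1'
      have hle : V' ≤ V ⊓ W0 := le_inf hV' h0'
      have e1 := hθ (V ⊓ W0) V' inf_le_right (inf_le_left.trans h1) hle
        (resM F0 inf_le_left a)
      rw [resM_resM, ha, LinearEquiv.apply_symm_apply, resM_resM] at e1
      exact e1
    exact ⟨toΓ2 hθ ⟨(a, b), hpair⟩, rfl⟩

end Construction

/-- **T3-GLUE2**: gluing of two sheaves of modules along a compatible family of linear
isomorphisms. -/
theorem stmt_GLUE2 : Fermat.Agent.S25.Bridge.T3.Stmt_GLUE2.{u} := by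
  intro X W0 W1 _ F0 F1 hb0 hb1 θ hθ
  exact ⟨glSheaf W0 W1 F0 F1 θ hθ, pr0 hθ, pr1 hθ,
    fun V h0 => pr0_bijective hθ hb1 V h0,
    fun V h1 => pr1_bijective hθ hb0 V h1,
    fun V h0 h1 t => theta_pr0 hθ V h0 h1 t⟩

end Fermat.Agent.S25.Bridge.H11
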