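import Fermat.Agent.S25.Bridge.H18_T3
import Fermat.Agent.S25.Bridge.H11_Glue2

/-!
# S25, BRIDGE-T3, closed (helper18)

`stmt_T3 : Stmt_T3` (every triple is the triple of an invertible sheaf on `C × Spec R`) and
`stmt_T3ABS : T3.Stmt_T3ABS`, unconditional.
Inputs: TILDEINV (helper17), GLUE2 (helper11, helper10), the wiring T3ABS → T3 (helper24).
-/

set_option autoImplicit false

universe u

namespace Fermat.Agent.S25.Bridge.H18

/-- **T3ABS**, unconditional -/
theorem stmt_T3ABS : T3.Stmt_T3ABS.{u} :=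
  stmt_T3ABS_of_GLUE2 H11.stmt_GLUE2

/-- **BRIDGE-T3**, unconditional -/
theorem stmt_T3 : Stmt_T3.{u} :=
  stmt_T3_of_GLUE2 H11.stmt_GLUE2

end Fermat.Agent.S25.Bridge.H18
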