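import Mathlib
import Fermat.Prelude.Def_AlgebraicGeometry_RelativePicardFunctor

/-!
# S25, BRIDGE (helper24): invertible sheaves are quasi-coherent

`isQuasicoherent_of_isInvertible`: a sheaf of modules that is invertible in the sense of the
prelude (`Scheme.Modules.IsInvertible`) is locally free, hence quasi-coherent in the sense of
Mathlib.  This opens the door to Mathlib's `tilde` dictionary on affine charts.
-/

set_option autoImplicit false

universe u

open CategoryTheory AlgebraicGeometry TopologicalSpace Opposite Limits

namespace Fermat.Agent.S25.Bridge.H24

variable {X : Scheme.{u}}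

/-- from a trivialisation of the pull-back to `U` to a trivialisation of `L.over U` -/
noncomputable def overIsoUnit (L : X.Modules) (U : X.Opens)
    (e : (Scheme.Modules.pullback U.ι).obj L ≅ SheafOfModules.unit U.toScheme.ringCatSheaf) :
    L.over U ≅ SheafOfModules.unit (X.ringCatSheaf.over U) :=
  ((Scheme.Modules.overEquiv U).unitIso.app (L.over U)) ≪≫
    (Scheme.Modules.overEquiv U).inverse.mapIso
      ((Scheme.Modules.overFunctorEquiv U).app L ≪≫
        (Scheme.Modules.restrictFunctorIsoPullback U.ι).app L ≪≫ e) ≪≫
    TopologicalSpace.Opens.sheafOfModulesEquivOverInverseUnit U X.ringCatSheaf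

section

variable {C : Type u} [Category.{u} C] {J : GrothendieckTopology C}
    {R : Sheaf J RingCat.{u}} [HasWeakSheafify J AddCommGrpCat.{u}]
    [J.WEqualsLocallyBijective AddCommGrpCat.{u}] (M : SheafOfModules.{u} R)
    (e : M ≅ SheafOfModules.unit R)

/-- the free sheaf of modules on one generator is the unit -/
noncomputable def freeOneIso :
    SheafOfModules.free (R := R) PUnit.{u + 1} ≅ SheafOfModules.unit R :=
  coproductUniqueIso (fun _ : PUnit.{u + 1} => SheafOfModules.unit R)

/-- generating sections (one free generator) of a sheaf of modules isomorphic to the unit -/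
noncomputable def genOfIsoUnit : M.GeneratingSections :=
  (SheafOfModules.free.generatingSections (R := R) PUnit.{u + 1}).ofEpi
    (freeOneIso ≪≫ e.symm).hom

set_option backward.isDefEq.respectTransparency false in
instance genOfIsoUnit_isIso : IsIso (genOfIsoUnit M e).π := by
  unfold genOfIsoUnit
  rw [SheafOfModules.GeneratingSections.ofEpi_π]
  have h1 : IsIso (SheafOfModules.free.generatingSections (R := R) PUnit.{u + 1}).π :=
    inferInstance
  exact IsIso.comp_isIso

end

set_option backward.isDefEq.respectTransparency false in
/-- packaging local generators -/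
noncomputable def mkLocalGen (L : X.Modules) (U : X → X.Opens)
    (hcov : (Opens.grothendieckTopology X).CoversTop U)
    (g : ∀ x, (L.over (U x)).GeneratingSections) : SheafOfModules.LocalGeneratorsData.{u} L :=
  { I := X
    X := U
    coversTop := hcov
    generators := g }

set_option backward.isDefEq.respectTransparency false in
theorem isLocallyFree_of_localGen (L : X.Modules) (U : X → X.Opens)
    (hcov : (Opens.grothendieckTopology X).CoversTop U)
    (g : ∀ x, (L.over (U x)).GeneratingSections) (hg : ∀ x, IsIso (g x).π) :
    L.IsLocallyFree := by
  have : (mkLocalGen L U hcov g).IsLocallyFreeData := { isIso := hg }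
  exact (mkLocalGen L U hcov g).isLocallyFree

set_option backward.isDefEq.respectTransparency false in
/-- **QC**: an invertible sheaf of modules is locally free. -/
theorem isLocallyFree_of_isInvertible (L : X.Modules) (hL : Scheme.Modules.IsInvertible L) :
    L.IsLocallyFree := by
  choose U hxU e using hL.exists_trivialization
  have hcov : (Opens.grothendieckTopology X).CoversTop U := by
    rw [Opens.coversTop_iff]
    exact eq_top_iff.mpr fun x _ => Opens.mem_iSup.mpr ⟨x, hxU x⟩
  exact isLocallyFree_of_localGen L U hcov
    (fun x => genOfIsoUnit (L.over (U x)) (overIsoUnit L (U x) (e x).some))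
    (fun x => genOfIsoUnit_isIso _ _)

set_option backward.isDefEq.respectTransparency false in
/-- **QC**: an invertible sheaf of modules is quasi-coherent. -/
theorem isQuasicoherent_of_isInvertible (L : X.Modules) (hL : Scheme.Modules.IsInvertible L) :
    L.IsQuasicoherent :=
  haveI := isLocallyFree_of_isInvertible L hL
  inferInstance

end Fermat.Agent.S25.Bridge.H24
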