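import Fermat.Agent.S25.Bridge.Defs
import Fermat.Agent.S25.Bridge.H24_QCoh

/-!
# S25, BRIDGE-QCLOC (helper24)

`stmt_QCLOC : Stmt_QCLOC`: on an affine open `W` the sections of an invertible sheaf over `D(f)` are the
localisation at `f` of the sections over `W`.  Proof: the restriction of `L` to `Spec Γ(X, W)` is
quasi-coherent, hence localising (Mathlib), and sections of the restriction are sections of `L`.
-/

set_option autoImplicit false

universe u

open CategoryTheory AlgebraicGeometry TopologicalSpace Opposite Limits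

namespace Fermat.Agent.S25.Bridge.H24

variable {X : Scheme.{u}}

theorem res_smul (L : X.Modules) {U V : X.Opens} (h : V ≤ U) (r : Γ(X, U)) (s : Γ(L, U)) :
    res L h (r • s) = resO h r • res L h s :=
  Scheme.Modules.map_smul L (homOfLE h) r s

theorem res_res (L : X.Modules) {U V W : X.Opens} (h : V ≤ U) (h' : W ≤ V) (s : Γ(L, U)) :
    res L h' (res L h s) = res L (h'.trans h) s := by
  unfold res
  rw [← ConcreteCategory.comp_apply, ← L.presheaf.map_comp]
  rfl

theorem res_self (L : X.Modules) {U : X.Opens} (s : Γ(L, U)) : res L (le_refl U) s = s := by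
  unfold res
  have : (homOfLE (le_refl U)).op = 𝟙 (op U) := rfl
  rw [this, L.presheaf.map_id]
  rfl

theorem resO_resO {U V W : X.Opens} (h : V ≤ U) (h' : W ≤ V) (r : Γ(X, U)) :
    resO h' (resO h r) = resO (h'.trans h) r := by
  unfold resO
  rw [← ConcreteCategory.comp_apply, ← X.presheaf.map_comp]
  rfl

theorem resO_self {U : X.Opens} (r : Γ(X, U)) : resO (le_refl U) r = r := by
  unfold resO
  have : (homOfLE (le_refl U)).op = 𝟙 (op U) := rfl
  rw [this, X.presheaf.map_id]
  rfl

/-- restriction along an equality of opens is injective -/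
theorem res_injective_of_eq (L : X.Modules) {U V : X.Opens} (h : V = U) :
    Function.Injective (res L h.le) := by
  intro s t hst
  have := congrArg (res L h.ge) hst
  rwa [res_res, res_res, res_self, res_self] at this

set_option backward.isDefEq.respectTransparency false in
/-- the restriction of an invertible sheaf to an affine open is localising -/
theorem isLocalizing_restrict (L : X.Modules) (hL : Scheme.Modules.IsInvertible L)
    (W : X.Opens) (hW : IsAffineOpen W) :
    IsLocalizing (modulesSpecToSheaf.obj (L.restrict hW.fromSpec)) := by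
  have := isQuasicoherent_of_isInvertible L hL
  have : (L.restrict hW.fromSpec).IsQuasicoherent :=
    Scheme.Modules.isQuasicoherent_restrictFunctor hW.fromSpec L
  rw [← isIso_fromTildeΓ_iff_isLocalizing]
  infer_instance

theorem image_le (W : X.Opens) (hW : IsAffineOpen W) (U : (Spec Γ(X, W)).Opens) :
    hW.fromSpec ''ᵁ U ≤ W := by
  intro x hx
  obtain ⟨y, -, rfl⟩ := hx
  have : hW.fromSpec y ∈ hW.fromSpec.opensRange := ⟨y, rfl⟩
  rwa [hW.opensRange_fromSpec] at this

/-- the scalar `r : Γ(X, W)` acts on the sections of the restriction over `U` through its restriction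
to the image of `U` -/
theorem appIso_inv_eq (W : X.Opens) (hW : IsAffineOpen W) (U : (Spec Γ(X, W)).Opens)
    (r : Γ(X, W)) :
    (hW.fromSpec.appIso U).inv
        ((Spec Γ(X, W)).presheaf.map U.leTop.op ((Scheme.ΓSpecIso Γ(X, W)).inv r)) =
      resO (image_le W hW U) r := by
  apply (ConcreteCategory.bijective_of_isIso (hW.fromSpec.appIso U).hom).1
  rw [← ConcreteCategory.comp_apply, Iso.inv_hom_id, Scheme.Hom.appIso_hom']
  unfold resO
  change _ = (X.presheaf.map (homOfLE (image_le W hW U)).op ≫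
    hW.fromSpec.appLE (hW.fromSpec ''ᵁ U) U _) r
  rw [Scheme.Hom.map_appLE, Scheme.Hom.appLE, hW.fromSpec_app_self]
  simp only [Category.assoc, ← Functor.map_comp]
  rfl

/-- the `Γ(X, W)`-module structure on the sections of the restriction, in terms of `L` -/
theorem smul_restrict (L : X.Modules) (W : X.Opens) (hW : IsAffineOpen W)
    (U : (Spec Γ(X, W)).Opens) (r : Γ(X, W)) (y : Γ(L.restrict hW.fromSpec, U)) :
    (r • y : Γ(L.restrict hW.fromSpec, U)) =
      ((resO (image_le W hW U) r • (show Γ(L, hW.fromSpec ''ᵁ U) from y) :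
        Γ(L, hW.fromSpec ''ᵁ U))) := by
  rw [← appIso_inv_eq W hW U r]
  rfl

/-- surjectivity part of the localisation property, stated on `L` -/
theorem loc_surj (L : X.Modules) (W : X.Opens) (hW : IsAffineOpen W) (f : Γ(X, W))
    (D : (Spec Γ(X, W)).Opens) (hle : hW.fromSpec ''ᵁ D ≤ hW.fromSpec ''ᵁ ⊤)
    (hloc : IsLocalizedModule (Submonoid.powers f)
      ((modulesSpecToSheaf.obj (L.restrict hW.fromSpec)).obj.map D.leTop.op).hom)
    (m : Γ(L, hW.fromSpec ''ᵁ D)) :
    ∃ (n : ℕ) (x : Γ(L, hW.fromSpec ''ᵁ ⊤)),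
      resO (image_le W hW D) (f ^ n) • m = res L hle x := by
  obtain ⟨⟨x, c⟩, hx⟩ := IsLocalizedModule.surj (Submonoid.powers f)
    ((modulesSpecToSheaf.obj (L.restrict hW.fromSpec)).obj.map D.leTop.op).hom
    (show Γ(L.restrict hW.fromSpec, D) from m)
  obtain ⟨n, hn⟩ := c.2
  refine ⟨n, x, ?_⟩
  have hn' : f ^ n = (c : Γ(X, W)) := hn
  rw [hn']
  exact (smul_restrict L W hW D (c : Γ(X, W)) m).symm.trans hx

/-- kernel part of the localisation property, stated on `L` -/
theorem loc_ker (L : X.Modules) (W : X.Opens) (hW : IsAffineOpen W) (f : Γ(X, W))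
    (D : (Spec Γ(X, W)).Opens) (hle : hW.fromSpec ''ᵁ D ≤ hW.fromSpec ''ᵁ ⊤)
    (hloc : IsLocalizedModule (Submonoid.powers f)
      ((modulesSpecToSheaf.obj (L.restrict hW.fromSpec)).obj.map D.leTop.op).hom)
    (p : Γ(L, hW.fromSpec ''ᵁ ⊤)) (hp : res L hle p = 0) :
    ∃ n : ℕ, resO (image_le W hW ⊤) (f ^ n) • p = 0 := by
  have h0 : ((modulesSpecToSheaf.obj (L.restrict hW.fromSpec)).obj.map D.leTop.op).hom
      (show Γ(L.restrict hW.fromSpec, ⊤) from p) =
      ((modulesSpecToSheaf.obj (L.restrict hW.fromSpec)).obj.map D.leTop.op).hom 0 :=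
    hp.trans (map_zero _).symm
  obtain ⟨c, hc⟩ := IsLocalizedModule.exists_of_eq (S := Submonoid.powers f) h0
  obtain ⟨n, hn⟩ := c.2
  refine ⟨n, ?_⟩
  have hn' : f ^ n = (c : Γ(X, W)) := hn
  rw [hn']
  exact (smul_restrict L W hW ⊤ (c : Γ(X, W)) p).symm.trans (hc.trans (smul_zero _))

/-- the localisation statement for an open `D` of `Spec Γ(X, W)` over which the restriction of `L` is
the localisation at `f` -/
theorem qcloc_aux (L : X.Modules) (W : X.Opens) (hW : IsAffineOpen W) (f : Γ(X, W))
    (D : (Spec Γ(X, W)).Opens) (h_f : hW.fromSpec ''ᵁ D = X.basicOpen f)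
    (hloc : IsLocalizedModule (Submonoid.powers f)
      ((modulesSpecToSheaf.obj (L.restrict hW.fromSpec)).obj.map D.leTop.op).hom) :
    (∀ m : Γ(L, X.basicOpen f), ∃ (n : ℕ) (p : Γ(L, W)),
        (resO (X.basicOpen_le f) f) ^ n • m = res L (X.basicOpen_le f) p) ∧
      (∀ p : Γ(L, W), res L (X.basicOpen_le f) p = 0 → ∃ n : ℕ, f ^ n • p = 0) := by
  have h_top : hW.fromSpec ''ᵁ ⊤ = W :=
    hW.fromSpec.image_top_eq_opensRange.trans hW.opensRange_fromSpec
  have hle : hW.fromSpec ''ᵁ D ≤ hW.fromSpec ''ᵁ ⊤ :=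
    h_f.le.trans ((X.basicOpen_le f).trans h_top.ge)
  refine ⟨fun m => ?_, fun p hp => ?_⟩
  · obtain ⟨n, x, h2⟩ := loc_surj L W hW f D hle hloc (res L h_f.le m)
    refine ⟨n, res L h_top.ge x, ?_⟩
    have h3 := congrArg (res L h_f.ge) h2
    rw [res_smul, res_res, res_res, res_self, resO_resO, map_pow] at h3
    rw [res_res]
    exact h3
  · have hp' : res L hle (res L h_top.le p) = 0 := by
      rw [res_res]
      have : res L (h_f.le.trans (X.basicOpen_le f)) p =
          res L h_f.le (res L (X.basicOpen_le f) p) := (res_res L _ _ p).symm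
      rw [this, hp, map_zero]
    obtain ⟨n, h2⟩ := loc_ker L W hW f D hle hloc (res L h_top.le p) hp'
    refine ⟨n, ?_⟩
    apply res_injective_of_eq L h_top
    rw [res_smul, map_zero]
    exact h2

/-- **BRIDGE-QCLOC**. -/
theorem stmt_QCLOC : Stmt_QCLOC.{u} := by
  intro X L hL W hW f
  exact qcloc_aux L W hW f (PrimeSpectrum.basicOpen f) (hW.fromSpec_image_basicOpen f)
    (isLocalizing_restrict L hL W hW f)

end Fermat.Agent.S25.Bridge.H24
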