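import Fermat.Agent.S25.Bridge.H18_AffLoc
import Fermat.Agent.S25.Bridge.H24_QCLoc
import Fermat.Agent.S25.Glue.H18_Local

/-!
# S25, package BRIDGE, leaf GENAFF (helper18)

On an affine open `W`, a section which freely generates the module of sections over `W` of an
invertible sheaf generates the sheaf over `W`.
-/

set_option autoImplicit false

universe u

open CategoryTheory AlgebraicGeometry TopologicalSpace

namespace Fermat.Agent.S25.Bridge.H18

open Fermat.Agent.S25.Glue

/-- the local step: on a basic open `D(f)` with a generating section, the restriction of a free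
generator of the module of sections over `W` generates -/
theorem isGen_res_basicOpen {X : Scheme.{u}} (L : X.Modules)
    (hL : Scheme.Modules.IsInvertible L) (W : X.Opens) (hW : IsAffineOpen W) (s : Γ(L, W))
    (hs : Function.Surjective (fun a : Γ(X, W) => a • s)) (f : Γ(X, W))
    (sf : Γ(L, X.basicOpen f)) (hsf : IsGen L (X.basicOpen f) sf) :
    IsGen L (X.basicOpen f) (H56.resM L (X.basicOpen_le f) s) := by
  obtain ⟨n, p, hp⟩ := (H24.stmt_QCLOC L hL W hW f).1 sf
  obtain ⟨a, rfl⟩ := hs p
  set t := H56.resM L (X.basicOpen_le f) s with ht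
  set u := H56.coord hsf le_rfl t with hu
  have hut : u • sf = t := by
    have := H56.coord_smul_res hsf le_rfl t
    rwa [H56.resM_id] at this
  have hp' : (H56.resO X (X.basicOpen_le f) f) ^ n • sf =
      (H56.resO X (X.basicOpen_le f) a * u) • sf := by
    rw [mul_smul, hut]
    exact hp.trans (H56.resM_smul L (X.basicOpen_le f) a s)
  have hinj := (H56.isGen_iff.1 hsf (X.basicOpen f) le_rfl).1
  have hfu : (H56.resO X (X.basicOpen_le f) f) ^ n = H56.resO X (X.basicOpen_le f) a * u := by
    apply hinj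
    change _ • H56.resM L le_rfl sf = _ • H56.resM L le_rfl sf
    rw [H56.resM_id]
    exact hp'
  have hunit : IsUnit u := by
    have h1 : IsUnit ((H56.resO X (X.basicOpen_le f) f) ^ n) :=
      (RingedSpace.isUnit_res_basicOpen X.toRingedSpace f).pow n
    rw [hfu] at h1
    exact isUnit_of_mul_isUnit_right h1
  rw [← hut]
  exact H56.isGen_unit_smul hsf hunit

/-- **GENAFF** -/
theorem stmt_GENAFF : Stmt_GENAFF.{u} := by
  intro X L hL W hW s hs
  obtain ⟨S, hS, hgen⟩ := stmt_AFFLOC L hL W hW
  have hcov : W ≤ ⨆ f : (S : Set Γ(X, W)), X.basicOpen (f : Γ(X, W)) :=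
    (hW.self_le_iSup_basicOpen_iff).2 hS
  refine H18.isGen_of_cover L W s (fun f : (S : Set Γ(X, W)) => X.basicOpen (f : Γ(X, W))) hcov ?_
  intro f
  obtain ⟨sf, hsf⟩ := hgen f.1 f.2
  have h1 := isGen_res_basicOpen L hL W hW s hs.2 f.1 sf hsf
  have h2 := h1.mono (inf_le_right : W ⊓ X.basicOpen (f : Γ(X, W)) ≤ X.basicOpen (f : Γ(X, W)))
  have h3 : L.presheaf.map (homOfLE (inf_le_right :
      W ⊓ X.basicOpen (f : Γ(X, W)) ≤ X.basicOpen (f : Γ(X, W)))).op
        (H56.resM L (X.basicOpen_le (f : Γ(X, W))) s) =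
      H56.resM L (inf_le_left : W ⊓ X.basicOpen (f : Γ(X, W)) ≤ W) s :=
    H56.resM_resM L _ _ s
  rwa [h3] at h2

end Fermat.Agent.S25.Bridge.H18
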