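/-
helper24, S25 (Jacobian exists), package BRIDGE = "invertible sheaves on C × Spec R  ⟷  triples".
INTERFACE FILE: definitions + the statements `Stmt_*` of the leaves.  Plan: NOTES/plan/S25.md.

* `Realizes c ε 𝒞`  : the scheme `C` with its point `ε` realises the curve datum `𝒞`
                      (two affine opens `U₀`, `U₁` with `Γ(C, U_i) = B_i`, `U₀ ⊓ U₁ = D(x0) = D(z1)`, `ε ∈ U₁`).
* `XR c R`          : the prelude's `C × Spec R` (`pullback c (tR k R)`), `WR c R U` : the open `U × Spec R`.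
* `fstSec`, `sndSec`: the ring maps `Γ(C, U) → Γ(C × Spec R, U × Spec R)` and `R → Γ(C × Spec R, W)`.
* `IsTripleOf ρ R L T` : the triple `T` is the triple of sections of the sheaf `L` on the two charts.

Leaves: see the `Stmt_*` below (QCLOC, AFFINV, GENAFF, AFFHOM about arbitrary schemes; RING about `C × Spec R`;
T1 … T4, RIG = the dictionary).
-/
import Mathlib
import Fermat.Prelude.Def_AlgebraicGeometry_NeronModelPropertyBundleCarrier
import Fermat.Prelude.Def_AlgebraicGeometry_RelativePicardFunctor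
import Fermat.Agent.S25.LB.DefsB
import Fermat.Agent.S25.Curve.Defs
import Fermat.Agent.S25.Glue.Defs

set_option autoImplicit false

universe u

open CategoryTheory CategoryTheory.Limits AlgebraicGeometry AlgebraicGeometry.RelPicard NeronModelInfra
  TopologicalSpace TensorProduct

namespace Fermat.Agent.S25.Bridge

/-! ## Sections on arbitrary schemes -/

section General

variable {X : Scheme.{u}}

/-- restriction of functions -/
noncomputable def resO {U V : X.Opens} (h : V ≤ U) : Γ(X, U) →+* Γ(X, V) :=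
  (X.presheaf.map (homOfLE h).op).hom

/-- restriction of sections of a sheaf of modules -/
noncomputable def res (L : X.Modules) {U V : X.Opens} (h : V ≤ U) : Γ(L, U) →+ Γ(L, V) :=
  (L.presheaf.map (homOfLE h).op).hom

end General

/-- **QCLOC**: on an affine open `W`, the sections of an invertible sheaf over `D(f)` are the localisation
of the sections over `W` at `f` (Mathlib: `isQuasicoherent_of_isInvertible` (landed, `Bridge/H24_QCoh.lean`)
+ `Scheme.Modules.isIso_fromTildeΓ_of_isQuasicoherent` + `isLocalizing_tilde`, transported to `W`). -/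
def Stmt_QCLOC : Prop :=
  ∀ {X : Scheme.{u}} (L : X.Modules), Scheme.Modules.IsInvertible L →
    ∀ (W : X.Opens), IsAffineOpen W → ∀ f : Γ(X, W),
      (∀ m : Γ(L, X.basicOpen f), ∃ (n : ℕ) (p : Γ(L, W)),
        (resO (X.basicOpen_le f) f) ^ n • m = res L (X.basicOpen_le f) p) ∧
      (∀ p : Γ(L, W), res L (X.basicOpen_le f) p = 0 → ∃ n : ℕ, f ^ n • p = 0)

/-- **AFFINV**: the sections of an invertible sheaf over an affine open form an invertible module. -/
def Stmt_AFFINV : Prop :=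
  ∀ {X : Scheme.{u}} (L : X.Modules), Scheme.Modules.IsInvertible L →
    ∀ (W : X.Opens), IsAffineOpen W → Module.Invertible Γ(X, W) Γ(L, W)

/-- **GENAFF**: on an affine open `W`, a section which generates the module of sections over `W` freely
generates the (invertible) sheaf over `W`. -/
def Stmt_GENAFF : Prop :=
  ∀ {X : Scheme.{u}} (L : X.Modules), Scheme.Modules.IsInvertible L →
    ∀ (W : X.Opens), IsAffineOpen W → ∀ s : Γ(L, W),
      Function.Bijective (fun a : Γ(X, W) => a • s) → Glue.IsGen L W s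

/-- **AFFLOC**: an invertible sheaf has generating sections on finitely many basic opens `D(f)`, `f ∈ S`,
of any affine open `W`, with `S` generating the unit ideal. -/
def Stmt_AFFLOC : Prop :=
  ∀ {X : Scheme.{u}} (L : X.Modules), Scheme.Modules.IsInvertible L →
    ∀ (W : X.Opens), IsAffineOpen W →
      ∃ S : Finset Γ(X, W), Ideal.span (S : Set Γ(X, W)) = ⊤ ∧
        ∀ f ∈ S, ∃ s : Γ(L, X.basicOpen f), Glue.IsGen L (X.basicOpen f) s

/-- **AFFHOM**: on an affine open `W`, a linear isomorphism between the modules of sections of two invertible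
sheaves is induced by compatible linear isomorphisms on all smaller opens (= an isomorphism of the
restrictions to `W`). -/
def Stmt_AFFHOM : Prop :=
  ∀ {X : Scheme.{u}} (L L' : X.Modules), Scheme.Modules.IsInvertible L → Scheme.Modules.IsInvertible L' →
    ∀ (W : X.Opens), IsAffineOpen W → ∀ e : Γ(L, W) ≃ₗ[Γ(X, W)] Γ(L', W),
      ∃! E : ∀ V : X.Opens, V ≤ W → (Γ(L, V) ≃ₗ[Γ(X, V)] Γ(L', V)),
        (∀ p, E W le_rfl p = e p) ∧
        ∀ (V V' : X.Opens) (hV : V ≤ W) (hV' : V' ≤ V) (p : Γ(L, V)),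
          E V' (hV'.trans hV) (res L hV' p) = res L' hV' (E V hV p)

/-! ## The curve and its base changes -/

section Curve

variable {k : Type u} [Field k] {C : Scheme.{u}} (c : C ⟶ Spec (CommRingCat.of k))
  (ε : SchemeHomOver (𝟙 (Spec (CommRingCat.of k))) c)

/-- The scheme `C` with its point `ε` realises the curve datum `𝒞`. -/
structure Realizes (𝒞 : LB.CurveDatum k) where
  U₀ : C.Opens
  U₁ : C.Opens
  aff₀ : IsAffineOpen U₀
  aff₁ : IsAffineOpen U₁
  cover : U₀ ⊔ U₁ = ⊤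
  φ0 : 𝒞.B0 ≃+* Γ(C, U₀)
  φ1 : 𝒞.B1 ≃+* Γ(C, U₁)
  φ01 : 𝒞.B01 ≃+* Γ(C, U₀ ⊓ U₁)
  φ0_alg : ∀ a : k, φ0 (algebraMap k 𝒞.B0 a) = Curve.kSec c U₀ a
  φ1_alg : ∀ a : k, φ1 (algebraMap k 𝒞.B1 a) = Curve.kSec c U₁ a
  φ01_alg : ∀ a : k, φ01 (algebraMap k 𝒞.B01 a) = Curve.kSec c (U₀ ⊓ U₁) a
  φ_i0 : ∀ b : 𝒞.B0, φ01 (𝒞.i0 b) = Curve.res inf_le_left (φ0 b)
  φ_i1 : ∀ b : 𝒞.B1, φ01 (𝒞.i1 b) = Curve.res inf_le_right (φ1 b)
  basic₀ : C.basicOpen (φ0 𝒞.x0) = U₀ ⊓ U₁
  basic₁ : C.basicOpen (φ1 𝒞.z1) = U₀ ⊓ U₁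
  base_mem : ∀ z, ε.1 z ∈ U₁
  /-- `𝒞.e` is the evaluation at `ε`. -/
  base_e : ∀ b : 𝒞.B1,
    (Scheme.ΓSpecIso (CommRingCat.of k)).inv.hom (𝒞.e b) =
      (ε.1.appLE U₁ ⊤ (fun z _ => base_mem z)).hom (φ1 b)

/-- **LINK** (= helper71's CURVE-DATUM): a proper smooth integral curve with a point realises a good curve
datum (from `Curve.Stmt_BCOVER`: `B_i := Γ(C, U_i)`). -/
def Stmt_LINK : Prop :=
  ∀ (k : Type u) [Field k] [IsAlgClosed k] {C : Scheme.{u}} (c : C ⟶ Spec (CommRingCat.of k))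
    [IsProper c] [SmoothOfRelativeDimension 1 c] [IsIntegral C]
    (ε : SchemeHomOver (𝟙 (Spec (CommRingCat.of k))) c),
    ∃ 𝒞 : LB.CurveDatum k, 𝒞.IsGood ∧ Nonempty (Realizes c ε 𝒞)

variable (k) in
/-- the structure map of `Spec R` -/
noncomputable abbrev tR (R : Type u) [CommRing R] [Algebra k R] :
    Spec (CommRingCat.of R) ⟶ Spec (CommRingCat.of k) :=
  Spec.map (CommRingCat.ofHom (algebraMap k R))

/-- `C × Spec R` (the prelude's fibre product) -/
noncomputable abbrev XR (R : Type u) [CommRing R] [Algebra k R] : Scheme.{u} :=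
  pullback c (tR k R)

/-- the open `U × Spec R` of `C × Spec R` -/
noncomputable abbrev WR (R : Type u) [CommRing R] [Algebra k R] (U : C.Opens) : (XR c R).Opens :=
  (pullback.fst c (tR k R)) ⁻¹ᵁ U

/-- pull-back of functions from `C` -/
noncomputable def fstSec (R : Type u) [CommRing R] [Algebra k R] (U : C.Opens) :
    Γ(C, U) →+* Γ(XR c R, WR c R U) :=
  ((pullback.fst c (tR k R)).app U).hom

/-- pull-back of functions from `Spec R` -/
noncomputable def sndSec (R : Type u) [CommRing R] [Algebra k R] (W : (XR c R).Opens) :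
    R →+* Γ(XR c R, W) :=
  ((pullback.snd c (tR k R)).appLE ⊤ W le_top).hom.comp
    (Scheme.ΓSpecIso (CommRingCat.of R)).inv.hom

/-- **RING**: for an affine open `U` of `C`, `U × Spec R` is an affine open of `C × Spec R` with ring of
functions `R ⊗ Γ(C, U)`. -/
def Stmt_RING : Prop :=
  ∀ (k : Type u) [Field k] {C : Scheme.{u}} (c : C ⟶ Spec (CommRingCat.of k))
    (R : Type u) [CommRing R] [Algebra k R] (U : C.Opens), IsAffineOpen U →
    IsAffineOpen (WR c R U) ∧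
    letI : Algebra k Γ(C, U) := (Curve.kSec c U).toAlgebra
    ∃ ψ : (R ⊗[k] Γ(C, U)) ≃+* Γ(XR c R, WR c R U),
      ∀ (r : R) (b : Γ(C, U)), ψ (r ⊗ₜ[k] b) = sndSec c R (WR c R U) r * fstSec c R U b

variable {c ε}

/-- `T` is the triple of sections of the sheaf `L` on `C × Spec R`. -/
structure IsTripleOf {𝒞 : LB.CurveDatum k} (ρ : Realizes c ε 𝒞) (R : Type u) [CommRing R] [Algebra k R]
    (L : (XR c R).Modules) (T : LB.Triple 𝒞 R) : Prop where
  ex : ∃ (f0 : T.P0 ≃+ Γ(L, WR c R ρ.U₀)) (f1 : T.P1 ≃+ Γ(L, WR c R ρ.U₁))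
      (f01 : T.P01 ≃+ Γ(L, WR c R (ρ.U₀ ⊓ ρ.U₁))),
    (∀ (r : R) (b : 𝒞.B0) (p : T.P0), f0 ((r ⊗ₜ[k] b) • p) =
      (sndSec c R (WR c R ρ.U₀) r * fstSec c R ρ.U₀ (ρ.φ0 b)) • f0 p) ∧
    (∀ (r : R) (b : 𝒞.B1) (p : T.P1), f1 ((r ⊗ₜ[k] b) • p) =
      (sndSec c R (WR c R ρ.U₁) r * fstSec c R ρ.U₁ (ρ.φ1 b)) • f1 p) ∧
    (∀ (r : R) (b : 𝒞.B01) (p : T.P01), f01 ((r ⊗ₜ[k] b) • p) =
      (sndSec c R (WR c R (ρ.U₀ ⊓ ρ.U₁)) r * fstSec c R (ρ.U₀ ⊓ ρ.U₁) (ρ.φ01 b)) • f01 p) ∧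
    (∀ p : T.P0, f01 (T.r0 p) =
      res L (show WR c R (ρ.U₀ ⊓ ρ.U₁) ≤ WR c R ρ.U₀ from fun _ h => h.1) (f0 p)) ∧
    (∀ p : T.P1, f01 (T.r1 p) =
      res L (show WR c R (ρ.U₀ ⊓ ρ.U₁) ≤ WR c R ρ.U₁ from fun _ h => h.2) (f1 p))

variable (c) in
/-- the morphism `C × Spec R' ⟶ C × Spec R` of a ring map `R → R'` -/
noncomputable def bcMap (R R' : Type u) [CommRing R] [Algebra k R] [CommRing R'] [Algebra k R']
    [Algebra R R'] [IsScalarTower k R R'] : XR c R' ⟶ XR c R :=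
  baseChangeSnd c (⟨Spec.map (CommRingCat.ofHom (algebraMap R R')), by
    rw [← Spec.map_comp, ← CommRingCat.ofHom_comp, ← IsScalarTower.algebraMap_eq]⟩ :
      SchemeHomOver (tR k R') (tR k R))

end Curve

/-! ## The dictionary -/

/-- **T1**: the sections of an invertible sheaf on `C × Spec R` over the two charts form a triple.
(`P_i := Γ(L, U_i × Spec R)` with the module structure through RING; `inv_i` = AFFINV; `surj_i`, `ker_i` =
QCLOC for `f` = the image of `x0`, `z1`.) -/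
def Stmt_T1 : Prop :=
  ∀ (k : Type u) [Field k] {C : Scheme.{u}} (c : C ⟶ Spec (CommRingCat.of k))
    (ε : SchemeHomOver (𝟙 (Spec (CommRingCat.of k))) c) (𝒞 : LB.CurveDatum k), 𝒞.IsGood →
    ∀ (ρ : Realizes c ε 𝒞) (R : Type u) [CommRing R] [Algebra k R] (L : (XR c R).Modules),
      Scheme.Modules.IsInvertible L → ∃ T : LB.Triple 𝒞 R, IsTripleOf ρ R L T

/-- **T2**: two invertible sheaves on `C × Spec R` are isomorphic iff their triples are. -/
def Stmt_T2 : Prop :=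
  ∀ (k : Type u) [Field k] {C : Scheme.{u}} (c : C ⟶ Spec (CommRingCat.of k))
    (ε : SchemeHomOver (𝟙 (Spec (CommRingCat.of k))) c) (𝒞 : LB.CurveDatum k), 𝒞.IsGood →
    ∀ (ρ : Realizes c ε 𝒞) (R : Type u) [CommRing R] [Algebra k R] (L L' : (XR c R).Modules)
      (T T' : LB.Triple 𝒞 R),
      Scheme.Modules.IsInvertible L → Scheme.Modules.IsInvertible L' →
      IsTripleOf ρ R L T → IsTripleOf ρ R L' T' →
      (Nonempty (L ≅ L') ↔ Nonempty (LB.Triple.Iso T T'))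

/-- **T3**: every triple is the triple of an invertible sheaf. -/
def Stmt_T3 : Prop :=
  ∀ (k : Type u) [Field k] {C : Scheme.{u}} (c : C ⟶ Spec (CommRingCat.of k))
    (ε : SchemeHomOver (𝟙 (Spec (CommRingCat.of k))) c) (𝒞 : LB.CurveDatum k), 𝒞.IsGood →
    ∀ (ρ : Realizes c ε 𝒞) (R : Type u) [CommRing R] [Algebra k R] (T : LB.Triple 𝒞 R),
      ∃ L : (XR c R).Modules, Scheme.Modules.IsInvertible L ∧ IsTripleOf ρ R L T

/-- **T4**: the triple of a pull-back along `C × Spec R' ⟶ C × Spec R` is a base change of the triple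
(in the relational form of `LB.Stmt_BC`). -/
def Stmt_T4 : Prop :=
  ∀ (k : Type u) [Field k] {C : Scheme.{u}} (c : C ⟶ Spec (CommRingCat.of k))
    (ε : SchemeHomOver (𝟙 (Spec (CommRingCat.of k))) c) (𝒞 : LB.CurveDatum k), 𝒞.IsGood →
    ∀ (ρ : Realizes c ε 𝒞) (R R' : Type u) [CommRing R] [Algebra k R] [CommRing R'] [Algebra k R']
      [Algebra R R'] [IsScalarTower k R R'] (L : (XR c R).Modules) (T : LB.Triple 𝒞 R)
      (T' : LB.Triple 𝒞 R'),
      Scheme.Modules.IsInvertible L → IsTripleOf ρ R L T →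
      IsTripleOf ρ R' ((Scheme.Modules.pullback (bcMap c R R')).obj L) T' →
      ∃ (b0 : T.P0 →+ T'.P0) (b1 : T.P1 →+ T'.P1) (b01 : T.P01 →+ T'.P01)
        (E : P1.Data.Iso (T.toData.baseChange R') T'.toData),
        (∀ p, b01 (T.r0 p) = T'.r0 (b0 p)) ∧ (∀ p, b01 (T.r1 p) = T'.r1 (b1 p)) ∧
        (∀ (a : R') (p : T.P0), E.e0 (a ⊗ₜ[R] p) = algebraMap R' (R' ⊗[k] 𝒞.B0) a • b0 p) ∧
        (∀ (a : R') (p : T.P1), E.e1 (a ⊗ₜ[R] p) = algebraMap R' (R' ⊗[k] 𝒞.B1) a • b1 p) ∧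
        (∀ (a : R') (p : T.P01), E.e01 (a ⊗ₜ[R] p) = algebraMap R' (R' ⊗[k] 𝒞.B01) a • b01 p) ∧
        (∀ (a : R ⊗[k] 𝒞.B0) (p : T.P0),
          b0 (a • p) = Algebra.TensorProduct.map (Algebra.ofId R R') (AlgHom.id k 𝒞.B0) a • b0 p) ∧
        (∀ (a : R ⊗[k] 𝒞.B1) (p : T.P1),
          b1 (a • p) = Algebra.TensorProduct.map (Algebra.ofId R R') (AlgHom.id k 𝒞.B1) a • b1 p)

/-- **RIG**: the sheaf is trivial along the section `ε` iff its triple is rigid. -/
def Stmt_RIG : Prop :=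
  ∀ (k : Type u) [Field k] {C : Scheme.{u}} (c : C ⟶ Spec (CommRingCat.of k))
    (ε : SchemeHomOver (𝟙 (Spec (CommRingCat.of k))) c) (𝒞 : LB.CurveDatum k), 𝒞.IsGood →
    ∀ (ρ : Realizes c ε 𝒞) (R : Type u) [CommRing R] [Algebra k R] (L : (XR c R).Modules)
      (T : LB.Triple 𝒞 R),
      Scheme.Modules.IsInvertible L → IsTripleOf ρ R L T →
      (Nonempty ((Scheme.Modules.pullback (rigSection c (tR k R) ε)).obj L ≅
          SheafOfModules.unit (Spec (CommRingCat.of R)).ringCatSheaf) ↔ T.IsRigid)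

end Fermat.Agent.S25.Bridge
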