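/-
helper7, S25 (Jacobian exists), package BRIDGE, leaf **RING**:
for an affine open `U` of `C`, the open `U × Spec R` of `C × Spec R` is affine, with ring of functions
`R ⊗[k] Γ(C, U)` (`ψ (r ⊗ b) = sndSec r * fstSec b`).

Proof: `pullback.fst` is an affine morphism (base change of `Spec R ⟶ Spec k`); the square
`U × Spec R → U`, `→ Spec R`, over `Spec k` is a pullback of affine schemes, so its square of global sections
is a pushout of commutative rings (`isPushout_appTop_of_isPullback`), as is the tensor product.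
-/
import Fermat.Agent.S25.Bridge.Defs

set_option autoImplicit false
set_option linter.style.haveILetI false

universe u

open CategoryTheory CategoryTheory.Limits AlgebraicGeometry AlgebraicGeometry.RelPicard NeronModelInfra
  TopologicalSpace TensorProduct

namespace Fermat.Agent.S25.Bridge.H7

variable {k : Type u} [Field k] {C : Scheme.{u}} (c : C ⟶ Spec (CommRingCat.of k))
  (R : Type u) [CommRing R] [Algebra k R] (U : C.Opens)

theorem h7_ring_affine (hU : IsAffineOpen U) : IsAffineOpen (WR c R U) := by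
  haveI : IsAffineHom (pullback.fst c (tR k R)) := MorphismProperty.pullback_fst _ _ inferInstance
  exact hU.preimage (pullback.fst c (tR k R))

/-- the pullback square `U × Spec R` -/
theorem h7_ring_isPullback :
    IsPullback (pullback.fst c (tR k R) ∣_ U) ((WR c R U).ι ≫ pullback.snd c (tR k R))
      (U.ι ≫ c) (tR k R) := by
  have h1 := isPullback_morphismRestrict (pullback.fst c (tR k R)) U
  have h2 := IsPullback.of_hasPullback c (tR k R)
  exact h1.paste_vert h2

set_option backward.isDefEq.respectTransparency false in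
/-- global sections of `U.ι ≫ f` -/
theorem h7_ring_ι_comp_appTop {X Y : Scheme.{u}} (f : X ⟶ Y) (V : X.Opens) :
    (V.ι ≫ f).appTop ≫ V.topIso.hom = f.appLE ⊤ V le_top := by
  rw [Scheme.Hom.comp_appTop, Category.assoc, Scheme.Opens.ι_appTop, Scheme.Opens.topIso_hom,
    ← Functor.map_comp, Scheme.Hom.appTop, Scheme.Hom.app_eq_appLE, Scheme.Hom.appLE_map]

theorem h7_ring_sq1 :
    (U.ι ≫ c).appTop ≫ U.topIso.hom =
      (Scheme.ΓSpecIso (CommRingCat.of k)).hom ≫ CommRingCat.ofHom (Curve.kSec c U) := by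
  rw [h7_ring_ι_comp_appTop]
  simp [Curve.kSec]

theorem h7_ring_sq2 :
    (tR k R).appTop ≫ (Scheme.ΓSpecIso (CommRingCat.of R)).hom =
      (Scheme.ΓSpecIso (CommRingCat.of k)).hom ≫ CommRingCat.ofHom (algebraMap k R) := by
  simp [tR]

set_option backward.isDefEq.respectTransparency false in
theorem h7_ring_sq3 :
    (pullback.fst c (tR k R) ∣_ U).appTop ≫ (WR c R U).topIso.hom =
      U.topIso.hom ≫ CommRingCat.ofHom (fstSec c R U) := by
  simp only [fstSec, Scheme.Opens.topIso_hom, morphismRestrict_appTop, CommRingCat.ofHom_hom,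
    Category.assoc]
  simp only [Scheme.Hom.app_eq_appLE, Scheme.Hom.map_appLE]
  rw [← Functor.map_comp, Scheme.Hom.appLE_map]

theorem h7_ring_sq4 :
    ((WR c R U).ι ≫ pullback.snd c (tR k R)).appTop ≫ (WR c R U).topIso.hom =
      (Scheme.ΓSpecIso (CommRingCat.of R)).hom ≫ CommRingCat.ofHom (sndSec c R (WR c R U)) := by
  rw [h7_ring_ι_comp_appTop]
  simp [sndSec]

/-- the pushout square of rings of functions of `U × Spec R` -/
theorem h7_ring_isPushout (hU : IsAffineOpen U) :
    IsPushout (CommRingCat.ofHom (algebraMap k R)) (CommRingCat.ofHom (Curve.kSec c U))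
      (CommRingCat.ofHom (sndSec c R (WR c R U))) (CommRingCat.ofHom (fstSec c R U)) := by
  haveI : IsAffine U.toScheme := hU
  have h := isPushout_appTop_of_isPullback (h7_ring_isPullback c R U)
  exact (h.of_iso (Scheme.ΓSpecIso (CommRingCat.of k)) U.topIso (Scheme.ΓSpecIso (CommRingCat.of R))
    (WR c R U).topIso (h7_ring_sq1 c U) (h7_ring_sq2 R) (h7_ring_sq3 c R U) (h7_ring_sq4 c R U)).flip

theorem stmt_RING : Stmt_RING.{u} := by
  intro k _ C c R _ _ U hU
  refine ⟨h7_ring_affine c R U hU, ?_⟩
  letI : Algebra k Γ(C, U) := (Curve.kSec c U).toAlgebra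
  have hP := h7_ring_isPushout c R U hU
  have hT := CommRingCat.isPushout_tensorProduct k R Γ(C, U)
  let e := IsPushout.isoIsPushout _ _ hT hP
  refine ⟨e.commRingCatIsoToRingEquiv, fun r b => ?_⟩
  have h1 := IsPushout.inl_isoIsPushout_hom _ _ hT hP
  have h2 := IsPushout.inr_isoIsPushout_hom _ _ hT hP
  have h1' : e.hom.hom (r ⊗ₜ[k] (1 : Γ(C, U))) = sndSec c R (WR c R U) r := by
    have := congrArg (fun f => f.hom r) h1
    exact this
  have h2' : e.hom.hom ((1 : R) ⊗ₜ[k] b) = fstSec c R U b := by
    have := congrArg (fun f => f.hom b) h2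
    exact this
  have : (r ⊗ₜ[k] b : R ⊗[k] Γ(C, U)) = (r ⊗ₜ[k] 1) * (1 ⊗ₜ[k] b) := by
    simp
  change e.hom.hom (r ⊗ₜ[k] b) = _
  rw [this, map_mul, h1', h2']

end Fermat.Agent.S25.Bridge.H7
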