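import Fermat.Agent.S25.Bridge.H34_T4
import Fermat.Agent.S25.Bridge.H7_Ring

/-!
# S25, package BRIDGE, leaf T4 (helper34), unconditional

`stmt_T4 : Stmt_T4` = `stmt_T4_of` + helper7's `H7.stmt_RING`.
-/

set_option autoImplicit false

universe u

namespace Fermat.Agent.S25.Bridge.H34

/-- **BRIDGE-T4**: the triple of a pull-back along `C × Spec R' ⟶ C × Spec R` is a base change of
the triple. -/
theorem stmt_T4 : Stmt_T4.{u} := stmt_T4_of H7.stmt_RING

end Fermat.Agent.S25.Bridge.H34
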