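/-
helper54, S25 package BRIDGE, leaf AFFHOM: on an affine open `W`, a linear isomorphism between the
modules of sections over `W` of two quasi-coherent (e.g. invertible) sheaves of modules is induced by
a unique compatible family of linear isomorphisms on all opens `V ≤ W`.

Route: restrict to `Spec Γ(X, W)` along `hW.fromSpec`; there the global section functor is bijective
on morphisms out of a quasi-coherent sheaf (Mathlib: tilde-Gamma adjunction with invertible counit).
`Fam` = compatible families on the opens below `W`; `exists_hom_of_fam`, `famOfHom` = the dictionary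
between families and morphisms of the restrictions.
-/
import Fermat.Agent.S25.Bridge.Defs
import Fermat.Agent.S25.Bridge.H24_QCoh
import Fermat.Agent.S25.Glue.H56_Iso

set_option autoImplicit false

universe u

open CategoryTheory CategoryTheory.Limits AlgebraicGeometry TopologicalSpace Opposite

namespace Fermat.Agent.S25.Bridge.H54

open Fermat.Agent.S25.Glue Fermat.Agent.S25.Glue.H56

/-! ### Category theory: the right adjoint is bijective on maps out of an object with invertible counit -/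

section Adj

variable {C D : Type*} [Category C] [Category D] {F : C ⥤ D} {G : D ⥤ C} (adj : F ⊣ G)

theorem adj_map_eq (M M' : D) (φ : M ⟶ M') :
    G.map φ = adj.homEquiv (G.obj M) M' (adj.counit.app M ≫ φ) := by
  rw [Adjunction.homEquiv_apply, Functor.map_comp, ← Category.assoc,
    Adjunction.right_triangle_components, Category.id_comp]

theorem adj_map_injective (M M' : D) [IsIso (adj.counit.app M)] :
    Function.Injective (fun φ : M ⟶ M' => G.map φ) := by
  intro φ ψ h
  simp only [adj_map_eq adj] at h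
  have := (adj.homEquiv (G.obj M) M').injective h
  exact (cancel_epi _).mp this

theorem adj_map_surjective (M M' : D) [IsIso (adj.counit.app M)] :
    Function.Surjective (fun φ : M ⟶ M' => G.map φ) := by
  intro g
  refine ⟨inv (adj.counit.app M) ≫ (adj.homEquiv (G.obj M) M').symm g, ?_⟩
  simp only [adj_map_eq adj, IsIso.hom_inv_id_assoc, Equiv.apply_symm_apply]

end Adj

/-! ### On `Spec R` -/

section SpecLevel

variable {R : CommRingCat.{u}} {M M' : (Spec R).Modules}

/-- On `Spec R`, a morphism out of a quasi-coherent sheaf is determined by its global sections. -/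
theorem spec_hom_ext [M.IsQuasicoherent] (φ ψ : M ⟶ M')
    (h : ∀ x : Γ(M, ⊤), φ.app ⊤ x = ψ.app ⊤ x) : φ = ψ := by
  have : IsIso (tilde.adjunction.counit.app M) :=
    Scheme.Modules.isIso_fromTildeΓ_of_isQuasicoherent M
  apply adj_map_injective (tilde.adjunction (R := R)) M M'
  apply ModuleCat.hom_ext
  apply LinearMap.ext
  intro x
  exact h x

/-- On `Spec R`, every linear map between the global sections of a quasi-coherent sheaf and of
any sheaf of modules is induced by a morphism. -/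
theorem spec_exists_hom [M.IsQuasicoherent] (g : Γ(M, ⊤) →ₗ[Γ(Spec R, ⊤)] Γ(M', ⊤)) :
    ∃ φ : M ⟶ M', ∀ x : Γ(M, ⊤), φ.app ⊤ x = g x := by
  have : IsIso (tilde.adjunction.counit.app M) :=
    Scheme.Modules.isIso_fromTildeΓ_of_isQuasicoherent M
  obtain ⟨g₀, hg₀⟩ : ∃ g₀ : moduleSpecΓFunctor.obj M ⟶ moduleSpecΓFunctor.obj M',
      ∀ x : Γ(M, ⊤), g₀.hom x = g x :=
    ⟨(ModuleCat.ofHom (g.restrictScalars R) :), fun _ => rfl⟩
  obtain ⟨φ, hφ⟩ := adj_map_surjective (tilde.adjunction (R := R)) M M' g₀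
  refine ⟨φ, fun x => ?_⟩
  have := congrArg (fun k => k.hom x) hφ
  exact this.trans (hg₀ x)

end SpecLevel

/-! ### Compatible families of maps on the opens below `W` -/

section Fam

variable {X : Scheme.{u}} (L L' : X.Modules) (W : X.Opens)

/-- A compatible family of linear maps `Γ(L, V) → Γ(L', V)`, `V ≤ W`. -/
structure Fam where
  map : ∀ V : X.Opens, V ≤ W → Γ(L, V) → Γ(L', V)
  map_add : ∀ V h (m m' : Γ(L, V)), map V h (m + m') = map V h m + map V h m'
  map_smul : ∀ V h (a : Γ(X, V)) (m : Γ(L, V)), map V h (a • m) = a • map V h m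
  map_res : ∀ (V V' : X.Opens) (hV : V ≤ W) (hV' : V' ≤ V) (m : Γ(L, V)),
    map V' (hV'.trans hV) (resM L hV' m) = resM L' hV' (map V hV m)

variable {L L' W}

theorem Fam.ext' {F G : Fam L L' W} (h : ∀ V hV m, F.map V hV m = G.map V hV m) : F = G := by
  cases F; cases G
  congr
  funext V hV m
  exact h V hV m

end Fam

section Translate

variable {X Y : Scheme.{u}} (f : Y ⟶ X) [IsOpenImmersion f] (L L' : X.Modules) {W : X.Opens}

/-- sections of `L` over `f(U)` as sections of the restriction over `U` -/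
def toR (U : Y.Opens) (m : Γ(L, f ''ᵁ U)) : Γ(L.restrict f, U) := m

/-- sections of the restriction over `U` as sections of `L` over `f(U)` -/
def ofR (U : Y.Opens) (m : Γ(L.restrict f, U)) : Γ(L, f ''ᵁ U) := m

theorem toR_ofR (U : Y.Opens) (m : Γ(L.restrict f, U)) : toR f L U (ofR f L U m) = m := rfl

theorem ofR_toR (U : Y.Opens) (m : Γ(L, f ''ᵁ U)) : ofR f L U (toR f L U m) = m := rfl

theorem toR_add (U : Y.Opens) (m m' : Γ(L, f ''ᵁ U)) :
    toR f L U (m + m') = toR f L U m + toR f L U m' := rfl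

theorem ofR_add (U : Y.Opens) (m m' : Γ(L.restrict f, U)) :
    ofR f L U (m + m') = ofR f L U m + ofR f L U m' := rfl

theorem ofR_smul (U : Y.Opens) (b : Γ(Y, U)) (m : Γ(L.restrict f, U)) :
    ofR f L U (b • m) = (f.appIso U).inv b • ofR f L U m := rfl

theorem toR_smul (U : Y.Opens) (a : Γ(X, f ''ᵁ U)) (m : Γ(L, f ''ᵁ U)) :
    toR f L U (a • m) = (f.appIso U).hom a • toR f L U m := by
  apply_fun ofR f L U using (fun x y h => h)
  rw [ofR_smul, ofR_toR, ofR_toR, Iso.hom_inv_id_apply]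

theorem ofR_resM {U U' : Y.Opens} (h : U' ≤ U) (m : Γ(L.restrict f, U)) :
    ofR f L U' (resM (L.restrict f) h m) = resM L (f.image_mono h) (ofR f L U m) := rfl

theorem toR_resM {U U' : Y.Opens} (h : U' ≤ U) (m : Γ(L, f ''ᵁ U)) :
    toR f L U' (resM L (f.image_mono h) m) = resM (L.restrict f) h (toR f L U m) := rfl

variable {L L'}
variable (hW1 : ∀ U : Y.Opens, f ''ᵁ U ≤ W) (hW2 : ∀ V : X.Opens, V ≤ W → V ≤ f ''ᵁ f ⁻¹ᵁ V)

theorem image_preimage_le'' (V : X.Opens) : f ''ᵁ f ⁻¹ᵁ V ≤ V := by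
  rintro _ ⟨y, hy, rfl⟩
  exact hy

include hW1 in
/-- The morphism of the restrictions to `Y` of a compatible family. -/
theorem exists_hom_of_fam (F : Fam L L' W) :
    ∃ φ : L.restrict f ⟶ L'.restrict f, ∀ (U : Y.Opens) (m : Γ(L.restrict f, U)),
      φ.app U m = toR f L' U (F.map (f ''ᵁ U) (hW1 U) (ofR f L U m)) := by
  obtain ⟨φ, hφ, -⟩ := glue_hom (L.restrict f) (L'.restrict f) (fun _ : PUnit.{1} => (⊤ : Y.Opens))
    (fun _ => ⟨PUnit.unit, trivial⟩)
    (fun U _ m => toR f L' U (F.map (f ''ᵁ U) (hW1 U) (ofR f L U m)))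
    (fun U _ t t' => by rw [ofR_add, F.map_add, toR_add])
    (fun U _ r t => by rw [ofR_smul, F.map_smul, toR_smul, Iso.inv_hom_id_apply])
    (fun U U' _ _ hU t => by
      rw [ofR_resM, F.map_res (f ''ᵁ U) (f ''ᵁ U') (hW1 U) (f.image_mono hU), toR_resM])
  exact ⟨φ, fun U m => hφ U ⟨PUnit.unit, le_top⟩ m⟩

include hW2 in
/-- The compatible family of a morphism of the restrictions to `Y`. -/
noncomputable def famOfHom (φ : L.restrict f ⟶ L'.restrict f) : Fam L L' W where
  map V hV m := resM L' (hW2 V hV)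
    (ofR f L' _ (φ.app (f ⁻¹ᵁ V) (toR f L _ (resM L (image_preimage_le'' f V) m))))
  map_add V hV m m' := by
    rw [resM_add, toR_add, map_add, ofR_add, resM_add]
  map_smul V hV a m := by
    rw [resM_smul, toR_smul, Scheme.Modules.Hom.app_smul, ofR_smul, Iso.hom_inv_id_apply,
      resM_smul, resO_resO, resO_id]
  map_res V V' hV hV' m := by
    have hle : f ⁻¹ᵁ V' ≤ f ⁻¹ᵁ V := fun _ h => hV' h
    have h1 : resM L (image_preimage_le'' f V') (resM L hV' m) =
        resM L (f.image_mono hle) (resM L (image_preimage_le'' f V) m) := by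
      rw [resM_resM, resM_resM]
    rw [h1, toR_resM f L hle, hom_app_resM, ofR_resM f L' hle, resM_resM, resM_resM]

include hW1 hW2 in
/-- A compatible family is the family of its morphism. -/
theorem fam_eq_famOfHom (F : Fam L L' W) (φ : L.restrict f ⟶ L'.restrict f)
    (hφ : ∀ (U : Y.Opens) (m : Γ(L.restrict f, U)),
      φ.app U m = toR f L' U (F.map (f ''ᵁ U) (hW1 U) (ofR f L U m))) :
    F = famOfHom f hW2 φ := by
  apply Fam.ext'
  intro V hV m
  change _ = resM L' (hW2 V hV)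
    (ofR f L' _ (φ.app (f ⁻¹ᵁ V) (toR f L _ (resM L (image_preimage_le'' f V) m))))
  rw [hφ, ofR_toR, ofR_toR, F.map_res V _ hV (image_preimage_le'' f V), resM_resM, resM_id]

include hW2 in
theorem famOfHom_comp (φ : L.restrict f ⟶ L'.restrict f) (χ : L'.restrict f ⟶ L.restrict f)
    (V : X.Opens) (hV : V ≤ W) (m : Γ(L, V)) :
    (famOfHom f hW2 (φ ≫ χ)).map V hV m =
      (famOfHom f hW2 χ).map V hV ((famOfHom f hW2 φ).map V hV m) := by
  change resM L (hW2 V hV) (ofR f L _ ((φ ≫ χ).app (f ⁻¹ᵁ V)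
      (toR f L _ (resM L (image_preimage_le'' f V) m)))) =
    resM L (hW2 V hV) (ofR f L _ (χ.app (f ⁻¹ᵁ V) (toR f L' _ (resM L' (image_preimage_le'' f V)
      (resM L' (hW2 V hV) (ofR f L' _ (φ.app (f ⁻¹ᵁ V)
        (toR f L _ (resM L (image_preimage_le'' f V) m)))))))))
  rw [resM_resM, resM_id, toR_ofR]
  rfl

include hW2 in
theorem famOfHom_id (V : X.Opens) (hV : V ≤ W) (m : Γ(L, V)) :
    (famOfHom f hW2 (𝟙 (L.restrict f))).map V hV m = m := by
  change resM L (hW2 V hV) (ofR f L _ ((𝟙 (L.restrict f) : L.restrict f ⟶ L.restrict f).app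
    (f ⁻¹ᵁ V) (toR f L _ (resM L (image_preimage_le'' f V) m)))) = m
  rw [Scheme.Modules.Hom.id_app]
  change resM L (hW2 V hV) (ofR f L _ (toR f L _ (resM L (image_preimage_le'' f V) m))) = m
  rw [ofR_toR, resM_resM, resM_id]

end Translate

/-! ### The affine case -/

section Affine

variable {X : Scheme.{u}} {L L' : X.Modules} {W : X.Opens} (hW : IsAffineOpen W)

theorem fromSpec_hW1 (U : (Spec Γ(X, W)).Opens) : hW.fromSpec ''ᵁ U ≤ W := by
  have := hW.fromSpec.image_le_opensRange U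
  rwa [hW.opensRange_fromSpec] at this

theorem fromSpec_hW2 (V : X.Opens) (hV : V ≤ W) : V ≤ hW.fromSpec ''ᵁ hW.fromSpec ⁻¹ᵁ V := by
  rw [hW.fromSpec.image_preimage_eq_opensRange_inf, hW.opensRange_fromSpec]
  exact le_inf hV le_rfl

theorem fromSpec_top_le : W ≤ hW.fromSpec ''ᵁ ⊤ := by
  rw [hW.fromSpec.image_top_eq_opensRange, hW.opensRange_fromSpec]

include hW in
/-- Two compatible families on an affine open which agree on `W` are equal
(for a quasi-coherent source). -/
theorem fam_ext_affine [L.IsQuasicoherent] (F G : Fam L L' W)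
    (h : ∀ p : Γ(L, W), F.map W le_rfl p = G.map W le_rfl p) : F = G := by
  obtain ⟨φ, hφ⟩ := exists_hom_of_fam hW.fromSpec (fromSpec_hW1 hW) F
  obtain ⟨ψ, hψ⟩ := exists_hom_of_fam hW.fromSpec (fromSpec_hW1 hW) G
  have hφψ : φ = ψ := by
    apply spec_hom_ext
    intro x
    rw [hφ, hψ]
    congr 1
    have hx : ofR hW.fromSpec L ⊤ x = resM L (fromSpec_hW1 hW ⊤)
        (resM L (fromSpec_top_le hW) (ofR hW.fromSpec L ⊤ x)) := by
      rw [resM_resM, resM_id]
    rw [hx, F.map_res W _ le_rfl (fromSpec_hW1 hW ⊤), G.map_res W _ le_rfl (fromSpec_hW1 hW ⊤), h]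
  rw [fam_eq_famOfHom hW.fromSpec (fromSpec_hW1 hW) (fromSpec_hW2 hW) F φ hφ,
    fam_eq_famOfHom hW.fromSpec (fromSpec_hW1 hW) (fromSpec_hW2 hW) G ψ hψ, hφψ]

/-- the linear map on the global sections of the restrictions to `Spec Γ(X, W)` of a linear map on
the sections over `W` -/
noncomputable def topMap (g : Γ(L, W) →ₗ[Γ(X, W)] Γ(L', W)) :
    Γ(L.restrict hW.fromSpec, ⊤) →ₗ[Γ(Spec Γ(X, W), ⊤)] Γ(L'.restrict hW.fromSpec, ⊤) where
  toFun x := toR hW.fromSpec L' ⊤ (resM L' (fromSpec_hW1 hW ⊤)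
    (g (resM L (fromSpec_top_le hW) (ofR hW.fromSpec L ⊤ x))))
  map_add' x y := by
    rw [ofR_add, resM_add, map_add, resM_add, toR_add]
  map_smul' b x := by
    rw [ofR_smul, resM_smul, map_smul, resM_smul, toR_smul, resO_resO, resO_id,
      Iso.inv_hom_id_apply]
    rfl

theorem topMap_apply (g : Γ(L, W) →ₗ[Γ(X, W)] Γ(L', W)) (x : Γ(L.restrict hW.fromSpec, ⊤)) :
    topMap hW g x = toR hW.fromSpec L' ⊤ (resM L' (fromSpec_hW1 hW ⊤)
      (g (resM L (fromSpec_top_le hW) (ofR hW.fromSpec L ⊤ x)))) := rfl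

/-- the value over `W` of the family of a morphism with prescribed global sections -/
theorem famOfHom_top (g : Γ(L, W) →ₗ[Γ(X, W)] Γ(L', W))
    (φ : L.restrict hW.fromSpec ⟶ L'.restrict hW.fromSpec)
    (hφ : ∀ x, φ.app ⊤ x = topMap hW g x) (p : Γ(L, W)) :
    (famOfHom hW.fromSpec (fromSpec_hW2 hW) φ).map W le_rfl p = g p := by
  change resM L' (fromSpec_hW2 hW W le_rfl) (ofR hW.fromSpec L' _ (φ.app (hW.fromSpec ⁻¹ᵁ W)
    (toR hW.fromSpec L _ (resM L (image_preimage_le'' hW.fromSpec W) p)))) = g p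
  have hle : hW.fromSpec ⁻¹ᵁ W ≤ ⊤ := le_top
  have h1 : resM L (image_preimage_le'' hW.fromSpec W) p =
      resM L (hW.fromSpec.image_mono hle) (resM L (fromSpec_hW1 hW ⊤) p) := by
    rw [resM_resM]
  rw [h1, toR_resM hW.fromSpec L hle, hom_app_resM, hφ, topMap_apply,
    ofR_resM hW.fromSpec L' hle, ofR_toR, ofR_toR]
  simp only [resM_resM, resM_id]

end Affine

/-- **AFFHOM**, general form: for quasi-coherent sheaves of modules. -/
theorem affhom_of_isQuasicoherent {X : Scheme.{u}} (L L' : X.Modules) [L.IsQuasicoherent]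
    [L'.IsQuasicoherent] (W : X.Opens) (hW : IsAffineOpen W)
    (e : Γ(L, W) ≃ₗ[Γ(X, W)] Γ(L', W)) :
    ∃! E : ∀ V : X.Opens, V ≤ W → (Γ(L, V) ≃ₗ[Γ(X, V)] Γ(L', V)),
      (∀ p, E W le_rfl p = e p) ∧
      ∀ (V V' : X.Opens) (hV : V ≤ W) (hV' : V' ≤ V) (p : Γ(L, V)),
        E V' (hV'.trans hV) (res L hV' p) = res L' hV' (E V hV p) := by
  obtain ⟨φ, hφ⟩ := spec_exists_hom (topMap hW e.toLinearMap)
  obtain ⟨ψ, hψ⟩ := spec_exists_hom (topMap hW e.symm.toLinearMap)
  have hφψ : φ ≫ ψ = 𝟙 _ := by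
    apply spec_hom_ext
    intro x
    rw [Scheme.Modules.Hom.comp_app, Scheme.Modules.Hom.id_app]
    change ψ.app ⊤ (φ.app ⊤ x) = x
    rw [hφ, hψ, topMap_apply, topMap_apply, ofR_toR, resM_resM, resM_id]
    simp only [LinearEquiv.coe_coe, LinearEquiv.symm_apply_apply]
    rw [resM_resM, resM_id, toR_ofR]
  have hψφ : ψ ≫ φ = 𝟙 _ := by
    apply spec_hom_ext
    intro x
    rw [Scheme.Modules.Hom.comp_app, Scheme.Modules.Hom.id_app]
    change φ.app ⊤ (ψ.app ⊤ x) = x
    rw [hφ, hψ, topMap_apply, topMap_apply, ofR_toR, resM_resM, resM_id]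
    simp only [LinearEquiv.coe_coe, LinearEquiv.apply_symm_apply]
    rw [resM_resM, resM_id, toR_ofR]
  let Fφ := famOfHom hW.fromSpec (fromSpec_hW2 hW) φ
  let Fψ := famOfHom hW.fromSpec (fromSpec_hW2 hW) ψ
  have hl : ∀ V hV (m : Γ(L, V)), Fψ.map V hV (Fφ.map V hV m) = m := by
    intro V hV m
    rw [← famOfHom_comp, hφψ, famOfHom_id]
  have hr : ∀ V hV (m : Γ(L', V)), Fφ.map V hV (Fψ.map V hV m) = m := by
    intro V hV m
    rw [← famOfHom_comp, hψφ, famOfHom_id]
  let E : ∀ V : X.Opens, V ≤ W → (Γ(L, V) ≃ₗ[Γ(X, V)] Γ(L', V)) := fun V hV =>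
    { toFun := Fφ.map V hV
      map_add' := Fφ.map_add V hV
      map_smul' := Fφ.map_smul V hV
      invFun := Fψ.map V hV
      left_inv := hl V hV
      right_inv := hr V hV }
  have hE : ∀ V hV (m : Γ(L, V)), E V hV m = Fφ.map V hV m := fun _ _ _ => rfl
  refine ⟨E, ⟨?_, ?_⟩, ?_⟩
  · intro p
    rw [hE]
    exact famOfHom_top hW e.toLinearMap φ hφ p
  · intro V V' hV hV' p
    rw [hE, hE]
    exact Fφ.map_res V V' hV hV' p
  · rintro E' ⟨h1, h2⟩
    let F' : Fam L L' W :=
      { map := fun V hV m => E' V hV m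
        map_add := fun V hV m m' => map_add _ _ _
        map_smul := fun V hV a m => map_smul _ _ _
        map_res := fun V V' hV hV' m => h2 V V' hV hV' m }
    have hF : F' = Fφ := by
      apply fam_ext_affine hW
      intro p
      change E' W le_rfl p = _
      rw [h1]
      exact (famOfHom_top hW e.toLinearMap φ hφ p).symm
    funext V hV
    apply LinearEquiv.ext
    intro m
    rw [hE, ← hF]

/-- **AFFHOM**. -/
theorem stmt_AFFHOM : Stmt_AFFHOM.{u} := by
  intro X L L' hL hL' W hW e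
  have := H24.isQuasicoherent_of_isInvertible L hL
  have := H24.isQuasicoherent_of_isInvertible L' hL'
  exact affhom_of_isQuasicoherent L L' W hW e

end Fermat.Agent.S25.Bridge.H54
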