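import Fermat.Agent.S25.Bridge.H99_T2
import Fermat.Agent.S25.Bridge.H7_Ring

/-!
# S25, package BRIDGE, leaf T2 (helper99): closed form modulo AFFHOM

`stmt_T2_of_AFFHOM : Stmt_AFFHOM → Stmt_T2` (helper7's `stmt_RING` plugged in).
-/

set_option autoImplicit false

universe u

namespace Fermat.Agent.S25.Bridge.H99

/-- **BRIDGE-T2**, from AFFHOM only. -/
theorem stmt_T2_of_AFFHOM (hAFF : Stmt_AFFHOM.{u}) : Stmt_T2.{u} :=
  stmt_T2_of Fermat.Agent.S25.Bridge.H7.stmt_RING hAFF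

end Fermat.Agent.S25.Bridge.H99
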