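import Fermat.Agent.S25.Bridge.H24_T1Final
import Fermat.Agent.S25.Bridge.H99_T2Closed
import Fermat.Agent.S25.Bridge.H54_AffHom
import Fermat.Agent.S25.Bridge.H34_T4Close
import Fermat.Agent.S25.Bridge.H18_GenAff

/-!
# S25, package BRIDGE: the closed (unconditional) leaves in one place (helper24)

| leaf | theorem |
|---|---|
| QCLOC  | `H24.stmt_QCLOC`  |
| AFFLOC | `H18.stmt_AFFLOC` |
| GENAFF | `H18.stmt_GENAFF` |
| AFFINV | `H10.stmt_AFFINV` |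
| AFFHOM | `H54.stmt_AFFHOM` |
| RING   | `H7.stmt_RING`    |
| T1     | `H24.stmt_T1`     |
| T2     | `H24.closed_T2`   |
| T4     | `H34.stmt_T4`     |

Still conditional: LINK (`H7.stmt_LINK_of`, on `Curve.Stmt_BCOVER`), T3 (`H24.stmt_T3_of_ABS`, on
`T3.Stmt_T3ABS`), RIG.
-/

set_option autoImplicit false

universe u

namespace Fermat.Agent.S25.Bridge.H24

/-- **BRIDGE-T2**, unconditional. -/
theorem closed_T2 : Stmt_T2.{u} := H99.stmt_T2_of_AFFHOM H54.stmt_AFFHOM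

/-- **BRIDGE-T4**, unconditional (helper34). -/
theorem closed_T4 : Stmt_T4.{u} := H34.stmt_T4

/-- the closed leaves of BRIDGE -/
theorem closed_bridge :
    Stmt_QCLOC.{u} ∧ Stmt_AFFLOC.{u} ∧ Stmt_GENAFF.{u} ∧ Stmt_AFFINV.{u} ∧ Stmt_AFFHOM.{u} ∧
      Stmt_RING.{u} ∧ Stmt_T1.{u} ∧ Stmt_T2.{u} ∧ Stmt_T4.{u} :=
  ⟨stmt_QCLOC, H18.stmt_AFFLOC, H18.stmt_GENAFF, H10.stmt_AFFINV, H54.stmt_AFFHOM, H7.stmt_RING,
    stmt_T1, closed_T2, closed_T4⟩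

end Fermat.Agent.S25.Bridge.H24
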