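import Fermat.Agent.S25.Bridge.H41_RigGen
import Fermat.Agent.S25.Bridge.H7_Ring

/-!
# S25, package BRIDGE, leaf RIG (helper41)

`stmt_RIG : Stmt_RIG`: an invertible sheaf `L` on `C × Spec R` is trivial along the section `ε` iff its
triple is rigid.
-/

set_option autoImplicit false
set_option linter.style.haveILetI false
set_option linter.unusedSectionVars false
set_option linter.unusedVariables false

universe u

open CategoryTheory CategoryTheory.Limits AlgebraicGeometry AlgebraicGeometry.RelPicard NeronModelInfra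
  TopologicalSpace TensorProduct

namespace Fermat.Agent.S25.Bridge.H41

open Fermat.Agent.S25.Glue

/-- `appLE` of equal morphisms -/
theorem appLE_congr_hom {X Y : Scheme.{u}} {f g : X ⟶ Y} (h : f = g) (U : Y.Opens) (V : X.Opens)
    (e : V ≤ f ⁻¹ᵁ U) : f.appLE U V e = g.appLE U V (h ▸ e) := by
  subst h
  rfl

theorem id_appLE' {X : Scheme.{u}} (U V : X.Opens) (e : V ≤ (𝟙 X) ⁻¹ᵁ U) :
    (𝟙 X : X ⟶ X).appLE U V e = X.presheaf.map (homOfLE (show V ≤ U from e)).op := by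
  rw [Scheme.Hom.appLE, Scheme.Hom.id_app]
  exact Category.id_comp _

section Sec

variable {k : Type u} [Field k] {C : Scheme.{u}} (c : C ⟶ Spec (CommRingCat.of k))
  (ε : SchemeHomOver (𝟙 (Spec (CommRingCat.of k))) c)
  (R : Type u) [CommRing R] [Algebra k R]

theorem sec_fst : rigSection c (tR k R) ε ≫ pullback.fst c (tR k R) = tR k R ≫ ε.1 := by
  unfold rigSection
  exact pullback.lift_fst _ _ _

theorem sec_snd : rigSection c (tR k R) ε ≫ pullback.snd c (tR k R) = 𝟙 _ := by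
  unfold rigSection
  exact pullback.lift_snd _ _ _

/-- the canonical map `R → Γ(Spec R, V)` -/
noncomputable def iotaR (V : (Spec (CommRingCat.of R)).Opens) :
    R →+* Γ(Spec (CommRingCat.of R), V) :=
  ((Spec (CommRingCat.of R)).presheaf.map (homOfLE (le_top : V ≤ ⊤)).op).hom.comp
    (Scheme.ΓSpecIso (CommRingCat.of R)).inv.hom

theorem iotaR_bijective (V : (Spec (CommRingCat.of R)).Opens) (hV : V = ⊤) :
    Function.Bijective (iotaR R V) := by
  subst hV
  have h1 : Function.Bijective (Scheme.ΓSpecIso (CommRingCat.of R)).inv :=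
    ConcreteCategory.bijective_of_isIso _
  have e : (iotaR R ⊤ : R → Γ(Spec (CommRingCat.of R), ⊤)) =
      (Scheme.ΓSpecIso (CommRingCat.of R)).inv := by
    funext r
    exact H56.resO_id (Spec (CommRingCat.of R)) _
  rw [e]
  exact h1

theorem sec_app_sndSec (W : (XR c R).Opens) (r : R) :
    (rigSection c (tR k R) ε).app W (sndSec c R W r) =
      iotaR R (rigSection c (tR k R) ε ⁻¹ᵁ W) r := by
  have h : (pullback.snd c (tR k R)).appLE ⊤ W le_top ≫ (rigSection c (tR k R) ε).app W =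
      (Spec (CommRingCat.of R)).presheaf.map
        (homOfLE (le_top : rigSection c (tR k R) ε ⁻¹ᵁ W ≤ ⊤)).op :=
    (congrArg (fun q => (pullback.snd c (tR k R)).appLE ⊤ W le_top ≫ q)
      (Scheme.Hom.app_eq_appLE (rigSection c (tR k R) ε) (U := W))).trans
    ((Scheme.Hom.appLE_comp_appLE (rigSection c (tR k R) ε) (pullback.snd c (tR k R)) ⊤ W _
      le_top le_rfl).trans
    ((appLE_congr_hom (sec_snd c ε R) ⊤ _ _).trans (id_appLE' _ _ _)))
  exact ConcreteCategory.congr_hom h ((Scheme.ΓSpecIso (CommRingCat.of R)).inv.hom r)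

theorem sec_app_fstSec (U : C.Opens) (hU : ∀ z, ε.1 z ∈ U) (b : Γ(C, U)) (x : k)
    (hx : (Scheme.ΓSpecIso (CommRingCat.of k)).inv.hom x =
      (ε.1.appLE U ⊤ (fun z _ => hU z)).hom b) :
    (rigSection c (tR k R) ε).app (WR c R U) (fstSec c R U b) =
      iotaR R (rigSection c (tR k R) ε ⁻¹ᵁ (WR c R U)) (algebraMap k R x) := by
  have hle : rigSection c (tR k R) ε ⁻¹ᵁ (WR c R U) ≤ (tR k R) ⁻¹ᵁ ⊤ := fun _ _ => trivial
  have h : (pullback.fst c (tR k R)).app U ≫ (rigSection c (tR k R) ε).app (WR c R U) =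
      ε.1.appLE U ⊤ (fun z _ => hU z) ≫ (tR k R).appLE ⊤ _ hle :=
    (congrArg₂ (fun p q => p ≫ q)
      (Scheme.Hom.app_eq_appLE (pullback.fst c (tR k R)) (U := U))
      (Scheme.Hom.app_eq_appLE (rigSection c (tR k R) ε) (U := WR c R U))).trans
    ((Scheme.Hom.appLE_comp_appLE (rigSection c (tR k R) ε) (pullback.fst c (tR k R)) U _ _
      le_rfl le_rfl).trans
    ((appLE_congr_hom (sec_fst c ε R) U _ _).trans
      (Scheme.Hom.appLE_comp_appLE (tR k R) ε.1 U ⊤ _ (fun z _ => hU z) hle).symm))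
  have h1 : (rigSection c (tR k R) ε).app (WR c R U) (fstSec c R U b) =
      ((tR k R).appLE ⊤ _ hle) ((ε.1.appLE U ⊤ (fun z _ => hU z)).hom b) :=
    ConcreteCategory.congr_hom h b
  have h2 : (Scheme.ΓSpecIso (CommRingCat.of R)).inv.hom (algebraMap k R x) =
      (tR k R).appTop ((Scheme.ΓSpecIso (CommRingCat.of k)).inv.hom x) :=
    ConcreteCategory.congr_hom
      (Scheme.ΓSpecIso_inv_naturality (CommRingCat.ofHom (algebraMap k R))) x
  rw [h1, ← hx]
  unfold iotaR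
  rw [RingHom.comp_apply, h2]
  rfl

end Sec

section Psi

variable {k : Type u} [Field k] {C : Scheme.{u}} (c : C ⟶ Spec (CommRingCat.of k))
  (R : Type u) [CommRing R] [Algebra k R]

/-- the functions on `U × Spec R`, as a tensor product over a chart of the curve datum -/
theorem exists_Psi {B : Type u} [CommRing B] [Algebra k B] (U : C.Opens) (hU : IsAffineOpen U)
    (φ : B ≃+* Γ(C, U)) (hφ : ∀ a : k, φ (algebraMap k B a) = Curve.kSec c U a) :
    ∃ Ψ : (R ⊗[k] B) ≃+* Γ(XR c R, WR c R U),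
      ∀ (r : R) (b : B), Ψ (r ⊗ₜ[k] b) = sndSec c R (WR c R U) r * fstSec c R U (φ b) := by
  letI : Algebra k Γ(C, U) := (Curve.kSec c U).toAlgebra
  obtain ⟨-, ψ, hψ⟩ := H7.stmt_RING k c R U hU
  let φ' : B ≃ₐ[k] Γ(C, U) := AlgEquiv.ofRingEquiv (f := φ) hφ
  let T : (R ⊗[k] B) ≃ₐ[k] (R ⊗[k] Γ(C, U)) := Algebra.TensorProduct.congr AlgEquiv.refl φ'
  refine ⟨T.toRingEquiv.trans ψ, fun r b => ?_⟩
  change ψ (T (r ⊗ₜ[k] b)) = _
  rw [show T (r ⊗ₜ[k] b) = r ⊗ₜ[k] φ b from rfl]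
  exact hψ r (φ b)

end Psi

section Main

variable {k : Type u} [Field k] {C : Scheme.{u}} {c : C ⟶ Spec (CommRingCat.of k)}
  {ε : SchemeHomOver (𝟙 (Spec (CommRingCat.of k))) c} {𝒞 : LB.CurveDatum k}
  (ρ : Realizes c ε 𝒞) (R : Type u) [CommRing R] [Algebra k R]

include ρ in
theorem preimage_WR_eq_top : rigSection c (tR k R) ε ⁻¹ᵁ (WR c R ρ.U₁) = ⊤ := by
  apply le_antisymm le_top
  intro y _
  change (pullback.fst c (tR k R)) ((rigSection c (tR k R) ε) y) ∈ ρ.U₁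
  have : (pullback.fst c (tR k R)) ((rigSection c (tR k R) ε) y) = ε.1 ((tR k R) y) := by
    rw [← Scheme.Hom.comp_apply, sec_fst, Scheme.Hom.comp_apply]
  rw [this]
  exact ρ.base_mem _

theorem eR_tmul (r : R) (b : 𝒞.B1) : 𝒞.eR R (r ⊗ₜ[k] b) = r * algebraMap k R (𝒞.e b) := by
  unfold LB.CurveDatum.eR
  rw [Algebra.TensorProduct.lift_tmul]
  rfl

theorem sec_app_Psi (Ψ : (R ⊗[k] 𝒞.B1) ≃+* Γ(XR c R, WR c R ρ.U₁))
    (hΨ : ∀ (r : R) (b : 𝒞.B1),
      Ψ (r ⊗ₜ[k] b) = sndSec c R (WR c R ρ.U₁) r * fstSec c R ρ.U₁ (ρ.φ1 b))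
    (a : R ⊗[k] 𝒞.B1) :
    (rigSection c (tR k R) ε).app (WR c R ρ.U₁) (Ψ a) =
      iotaR R (rigSection c (tR k R) ε ⁻¹ᵁ (WR c R ρ.U₁)) (𝒞.eR R a) := by
  induction a using TensorProduct.induction_on with
  | zero => rw [map_zero, map_zero, map_zero, map_zero]
  | tmul r b =>
    rw [hΨ, map_mul, sec_app_sndSec,
      sec_app_fstSec c ε R ρ.U₁ ρ.base_mem (ρ.φ1 b) (𝒞.e b) (ρ.base_e b), ← map_mul, eR_tmul]
  | add x y hx hy => rw [map_add, map_add, hx, hy, map_add, map_add]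

/-- **BRIDGE-RIG** -/
theorem stmt_RIG : Stmt_RIG.{u} := by
  intro k _ C c ε 𝒞 h𝒞 ρ R _ _ L T hL hT
  obtain ⟨f0, f1, f01, s0, s1, s01, hr0, hr1⟩ := hT.ex
  obtain ⟨Ψ, hΨ⟩ := exists_Psi c R ρ.U₁ ρ.aff₁ ρ.φ1 ρ.φ1_alg
  have hW : IsAffineOpen (WR c R ρ.U₁) := H7.h7_ring_affine c R ρ.U₁ ρ.aff₁
  have hVtop : rigSection c (tR k R) ε ⁻¹ᵁ (WR c R ρ.U₁) = ⊤ := preimage_WR_eq_top ρ R
  have hV : IsAffineOpen (rigSection c (tR k R) ε ⁻¹ᵁ (WR c R ρ.U₁)) := by
    rw [hVtop]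
    exact isAffineOpen_top _
  have hι := iotaR_bijective R _ hVtop
  have hcomp := sec_app_Psi ρ R Ψ hΨ
  -- semilinearity
  have hf1 : ∀ (a : R ⊗[k] 𝒞.B1) (p : T.P1), f1 (a • p) = Ψ a • f1 p := by
    intro a p
    induction a using TensorProduct.induction_on with
    | zero => rw [zero_smul, map_zero, map_zero, zero_smul]
    | tmul r b => rw [s1, hΨ]
    | add x y hx hy => rw [add_smul, map_add, hx, hy, map_add, add_smul]
  have hf1' : ∀ (a : R ⊗[k] 𝒞.B1) (n : Γ(L, WR c R ρ.U₁)),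
      f1.symm (Ψ a • n) = a • f1.symm n := by
    intro a n
    apply f1.injective
    rw [f1.apply_symm_apply, hf1, f1.apply_symm_apply]
  have hsurj : Function.Surjective ((rigSection c (tR k R) ε).app (WR c R ρ.U₁)) := by
    intro y
    obtain ⟨r, rfl⟩ := hι.2 y
    refine ⟨Ψ (r ⊗ₜ[k] 1), ?_⟩
    rw [hcomp, eR_tmul, map_one, map_one, mul_one]
  -- the pull-back kills `f1 (I_e P1)`
  have hkill : ∀ x : T.P1,
      x ∈ (RingHom.ker (𝒞.eR R).toRingHom • (⊤ : Submodule (R ⊗[k] 𝒞.B1) T.P1)) →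
      pullSec (rigSection c (tR k R) ε) L (WR c R ρ.U₁) (f1 x) = 0 := by
    intro x hx
    refine Submodule.smul_induction_on hx ?_ ?_
    · intro i hi p _
      have hi' : 𝒞.eR R i = 0 := hi
      rw [hf1, pullSec_smul, hcomp, hi', map_zero, zero_smul]
    · intro x y hx hy
      rw [map_add, pullSec_add, hx, hy, add_zero]
  have hback : ∀ y : Γ(L, WR c R ρ.U₁),
      y ∈ RingHom.ker ((rigSection c (tR k R) ε).app (WR c R ρ.U₁)).hom •
        (⊤ : Submodule Γ(XR c R, WR c R ρ.U₁) Γ(L, WR c R ρ.U₁)) →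
      f1.symm y ∈ (RingHom.ker (𝒞.eR R).toRingHom • (⊤ : Submodule (R ⊗[k] 𝒞.B1) T.P1)) := by
    intro y hy
    refine Submodule.smul_induction_on hy ?_ ?_
    · intro i hi n _
      obtain ⟨a, rfl⟩ := Ψ.surjective i
      have ha : 𝒞.eR R a = 0 := by
        apply hι.1
        rw [← hcomp, map_zero]
        exact hi
      rw [hf1']
      exact Submodule.smul_mem_smul ha Submodule.mem_top
    · intro x y hx hy
      rw [map_add]
      exact Submodule.add_mem _ hx hy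
  constructor
  · rintro ⟨e⟩
    obtain ⟨t₀, ht₀⟩ := exists_isGen_of_iso_unit _ e
    have ht₀' := ht₀.mono (le_top : rigSection c (tR k R) ε ⁻¹ᵁ (WR c R ρ.U₁) ≤ ⊤)
    obtain ⟨n₀, hn₀⟩ := pullSec_surjective (rigSection c (tR k R) ε) L hL _ hW hV hsurj
      (((Scheme.Modules.pullback (rigSection c (tR k R) ε)).obj L).presheaf.map
        (homOfLE (le_top : rigSection c (tR k R) ε ⁻¹ᵁ (WR c R ρ.U₁) ≤ ⊤)).op t₀)
    refine ⟨f1.symm n₀, fun q => ?_⟩
    obtain ⟨cq, hcq⟩ := ((H56.isGen_iff.1 ht₀') _ le_rfl).2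
      (pullSec (rigSection c (tR k R) ε) L (WR c R ρ.U₁) (f1 q))
    rw [H56.resM_id] at hcq
    obtain ⟨x, rfl⟩ := hsurj cq
    obtain ⟨a, rfl⟩ := Ψ.surjective x
    refine ⟨a, ?_⟩
    have h0 : pullSec (rigSection c (tR k R) ε) L (WR c R ρ.U₁) (f1 q - Ψ a • n₀) = 0 := by
      rw [pullSec_sub, pullSec_smul, hn₀]
      exact sub_eq_zero.2 hcq.symm
    have h1 := mem_ker_smul_of_pullSec_eq_zero (rigSection c (tR k R) ε) L hL _ hW hV _ h0
    have h2 := hback _ h1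
    rwa [map_sub, f1.symm_apply_apply, hf1'] at h2
  · rintro ⟨p₀, hp₀⟩
    have hgen : Function.Surjective
        (fun a : Γ(Spec (CommRingCat.of R), rigSection c (tR k R) ε ⁻¹ᵁ (WR c R ρ.U₁)) =>
          a • pullSec (rigSection c (tR k R) ε) L (WR c R ρ.U₁) (f1 p₀)) := by
      intro m
      obtain ⟨n, rfl⟩ := pullSec_surjective (rigSection c (tR k R) ε) L hL _ hW hV hsurj m
      obtain ⟨a, ha⟩ := hp₀ (f1.symm n)
      refine ⟨(rigSection c (tR k R) ε).app (WR c R ρ.U₁) (Ψ a), ?_⟩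
      have := hkill _ ha
      rw [map_sub, f1.apply_symm_apply, hf1, pullSec_sub, pullSec_smul, sub_eq_zero] at this
      exact this.symm
    have h1 := isGen_of_surjective _ (hL.pullback (rigSection c (tR k R) ε)) _ hV _ hgen
    have h2 := h1.mono hVtop.ge
    exact nonempty_iso_unit_of_isGen _ _ h2

end Main

end Fermat.Agent.S25.Bridge.H41
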