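import Fermat.Agent.S25.Bridge.Defs
import Fermat.Agent.S25.Bridge.H24_QCLoc
import Fermat.Agent.S25.Bridge.H7_Ring

/-!
# S25, BRIDGE-T1 (helper24)

`stmt_T1_of : Stmt_RING → Stmt_AFFINV → Stmt_T1`: the sections of an invertible sheaf on `C × Spec R` over
the two charts form a triple.

* `ChartRing ρ R`  : the three ring isomorphisms `R ⊗[k] B_i ≃+* Γ(C × Spec R, U_i × Spec R)` (from RING).
* `tripleOf`       : the triple of sections.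
-/

set_option autoImplicit false
set_option linter.style.haveILetI false

universe u

open CategoryTheory CategoryTheory.Limits AlgebraicGeometry AlgebraicGeometry.RelPicard NeronModelInfra
  TopologicalSpace TensorProduct

namespace Fermat.Agent.S25.Bridge.H24

/-! ## Transport of invertibility along a ring isomorphism -/

theorem invertible_compHom {A B : Type u} [CommRing A] [CommRing B] (e : A ≃+* B)
    (M : Type u) [AddCommGroup M] [Module B M] [Module.Invertible B M] :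
    @Module.Invertible A M _ _ (Module.compHom M e.toRingHom) := by
  letI : Algebra B A := e.symm.toRingHom.toAlgebra
  letI : Module A M := Module.compHom M e.toRingHom
  haveI : IsScalarTower B A M := ⟨fun b a m => by
    change e (e.symm b * a) • m = b • (e a • m)
    rw [map_mul, e.apply_symm_apply, mul_smul]⟩
  haveI : IsLocalization (⊥ : Submonoid B) B :=
    IsLocalization.self (fun x hx => by
      rw [Submonoid.mem_bot] at hx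
      subst hx
      exact isUnit_one)
  haveI : IsLocalization (⊥ : Submonoid B) A :=
    IsLocalization.isLocalization_of_algEquiv ⊥
      (AlgEquiv.ofRingEquiv (f := e.symm) (fun b => rfl) : B ≃ₐ[B] A)
  haveI : IsLocalizedModule (⊥ : Submonoid B) (LinearMap.id : M →ₗ[B] M) :=
    isLocalizedModule_id ⊥ M A
  exact Module.Invertible.of_isLocalization (⊥ : Submonoid B) (LinearMap.id : M →ₗ[B] M)

/-- two ring homomorphisms on a tensor product which agree on pure tensors are equal -/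
theorem ringHom_ext_tmul {k R B A : Type*} [CommSemiring k] [CommSemiring R] [Algebra k R]
    [CommSemiring B] [Algebra k B] [Semiring A] (f g : R ⊗[k] B →+* A)
    (h : ∀ r b, f (r ⊗ₜ[k] b) = g (r ⊗ₜ[k] b)) : f = g :=
  RingHom.ext fun x => x.induction_on (by simp) h (fun x y hx hy => by simp [hx, hy])

/-! ## Naturality of `fstSec` and `sndSec` -/

section

variable {k : Type u} [Field k] {C : Scheme.{u}} (c : C ⟶ Spec (CommRingCat.of k))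
  (R : Type u) [CommRing R] [Algebra k R]

theorem WR_mono {U V : C.Opens} (h : V ≤ U) : WR c R V ≤ WR c R U := fun _ hx => h hx

theorem resO_fstSec {U V : C.Opens} (h : V ≤ U) (b : Γ(C, U)) :
    resO (WR_mono c R h) (fstSec c R U b) = fstSec c R V (Curve.res h b) := by
  unfold resO fstSec Curve.res
  rw [← ConcreteCategory.comp_apply, ← ConcreteCategory.comp_apply]
  congr 2
  exact ((pullback.fst c (tR k R)).naturality (homOfLE h).op).symm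

theorem resO_sndSec {W W' : (XR c R).Opens} (h : W' ≤ W) (r : R) :
    resO h (sndSec c R W r) = sndSec c R W' r := by
  have h1 := Scheme.Hom.appLE_map (pullback.snd c (tR k R)) (U := ⊤) (V := W)
    (show W ≤ (pullback.snd c (tR k R)) ⁻¹ᵁ ⊤ from le_top) (homOfLE h).op
  exact congrArg (fun φ => φ.hom ((Scheme.ΓSpecIso (CommRingCat.of R)).inv.hom r)) h1

theorem basicOpen_fstSec (U : C.Opens) (b : Γ(C, U)) :
    (XR c R).basicOpen (fstSec c R U b) = (pullback.fst c (tR k R)) ⁻¹ᵁ (C.basicOpen b) :=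
  (Scheme.preimage_basicOpen (pullback.fst c (tR k R)) b).symm

end

/-! ## The rings of the three charts of `C × Spec R` -/

section Chart

variable {k : Type u} [Field k] {C : Scheme.{u}} {c : C ⟶ Spec (CommRingCat.of k)}
  {ε : SchemeHomOver (𝟙 (Spec (CommRingCat.of k))) c} {𝒞 : LB.CurveDatum k}

theorem realizes_aff01 (ρ : Realizes c ε 𝒞) : IsAffineOpen (ρ.U₀ ⊓ ρ.U₁) := by
  rw [← ρ.basic₀]
  exact ρ.aff₀.basicOpen _

/-- the ring isomorphism `R ⊗[k] B ≃+* Γ(C × Spec R, U × Spec R)` of RING, for a `k`-algebra `B` identified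
with `Γ(C, U)` -/
theorem exists_theta (hRING : Stmt_RING.{u}) (R : Type u) [CommRing R] [Algebra k R]
    (U : C.Opens) (hU : IsAffineOpen U)
    (B : Type u) [CommRing B] [Algebra k B] (φ : B ≃+* Γ(C, U))
    (hφ : ∀ a : k, φ (algebraMap k B a) = Curve.kSec c U a) :
    IsAffineOpen (WR c R U) ∧ ∃ Θ : (R ⊗[k] B) ≃+* Γ(XR c R, WR c R U),
      ∀ (r : R) (b : B), Θ (r ⊗ₜ[k] b) = sndSec c R (WR c R U) r * fstSec c R U (φ b) := by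
  obtain ⟨haff, ψ, hψ⟩ := hRING k c R U hU
  refine ⟨haff, ?_⟩
  letI : Algebra k Γ(C, U) := (Curve.kSec c U).toAlgebra
  let φa : B ≃ₐ[k] Γ(C, U) := AlgEquiv.ofRingEquiv (f := φ) hφ
  refine ⟨(Algebra.TensorProduct.congr (AlgEquiv.refl (R := R) (A₁ := R)) φa).toRingEquiv.trans ψ,
    ?_⟩
  intro r b
  exact hψ r (φ b)

/-- the three ring isomorphisms `R ⊗[k] B_i ≃+* Γ(C × Spec R, U_i × Spec R)` -/
structure ChartRing (ρ : Realizes c ε 𝒞) (R : Type u) [CommRing R] [Algebra k R] where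
  Θ0 : (R ⊗[k] 𝒞.B0) ≃+* Γ(XR c R, WR c R ρ.U₀)
  Θ1 : (R ⊗[k] 𝒞.B1) ≃+* Γ(XR c R, WR c R ρ.U₁)
  Θ01 : (R ⊗[k] 𝒞.B01) ≃+* Γ(XR c R, WR c R (ρ.U₀ ⊓ ρ.U₁))
  aff0 : IsAffineOpen (WR c R ρ.U₀)
  aff1 : IsAffineOpen (WR c R ρ.U₁)
  aff01 : IsAffineOpen (WR c R (ρ.U₀ ⊓ ρ.U₁))
  h0 : ∀ (r : R) (b : 𝒞.B0),
    Θ0 (r ⊗ₜ[k] b) = sndSec c R (WR c R ρ.U₀) r * fstSec c R ρ.U₀ (ρ.φ0 b)
  h1 : ∀ (r : R) (b : 𝒞.B1),
    Θ1 (r ⊗ₜ[k] b) = sndSec c R (WR c R ρ.U₁) r * fstSec c R ρ.U₁ (ρ.φ1 b)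
  h01 : ∀ (r : R) (b : 𝒞.B01),
    Θ01 (r ⊗ₜ[k] b) =
      sndSec c R (WR c R (ρ.U₀ ⊓ ρ.U₁)) r * fstSec c R (ρ.U₀ ⊓ ρ.U₁) (ρ.φ01 b)

theorem exists_chartRing (hRING : Stmt_RING.{u}) (ρ : Realizes c ε 𝒞)
    (R : Type u) [CommRing R] [Algebra k R] : Nonempty (ChartRing ρ R) := by
  obtain ⟨a0, Θ0, h0⟩ := exists_theta hRING R ρ.U₀ ρ.aff₀ 𝒞.B0 ρ.φ0 ρ.φ0_alg
  obtain ⟨a1, Θ1, h1⟩ := exists_theta hRING R ρ.U₁ ρ.aff₁ 𝒞.B1 ρ.φ1 ρ.φ1_alg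
  obtain ⟨a01, Θ01, h01⟩ := exists_theta hRING R (ρ.U₀ ⊓ ρ.U₁) (realizes_aff01 ρ) 𝒞.B01 ρ.φ01 ρ.φ01_alg
  exact ⟨⟨Θ0, Θ1, Θ01, a0, a1, a01, h0, h1, h01⟩⟩

variable {ρ : Realizes c ε 𝒞} {R : Type u} [CommRing R] [Algebra k R]

theorem ChartRing.resO_Θ0 (Θ : ChartRing ρ R) (a : R ⊗[k] 𝒞.B0) :
    resO (WR_mono c R (inf_le_left : ρ.U₀ ⊓ ρ.U₁ ≤ ρ.U₀)) (Θ.Θ0 a) = Θ.Θ01 (𝒞.ι0 R a) := by
  have : (resO (WR_mono c R (inf_le_left : ρ.U₀ ⊓ ρ.U₁ ≤ ρ.U₀))).comp Θ.Θ0.toRingHom =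
      Θ.Θ01.toRingHom.comp (𝒞.ι0 R) := by
    apply ringHom_ext_tmul
    intro r b
    change resO _ (Θ.Θ0 (r ⊗ₜ[k] b)) = Θ.Θ01 (r ⊗ₜ[k] 𝒞.i0 b)
    rw [Θ.h0, Θ.h01, map_mul, resO_sndSec, resO_fstSec, ρ.φ_i0]
  exact congrArg (fun f => f a) this

theorem ChartRing.resO_Θ1 (Θ : ChartRing ρ R) (a : R ⊗[k] 𝒞.B1) :
    resO (WR_mono c R (inf_le_right : ρ.U₀ ⊓ ρ.U₁ ≤ ρ.U₁)) (Θ.Θ1 a) = Θ.Θ01 (𝒞.ι1 R a) := by
  have : (resO (WR_mono c R (inf_le_right : ρ.U₀ ⊓ ρ.U₁ ≤ ρ.U₁))).comp Θ.Θ1.toRingHom =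
      Θ.Θ01.toRingHom.comp (𝒞.ι1 R) := by
    apply ringHom_ext_tmul
    intro r b
    change resO _ (Θ.Θ1 (r ⊗ₜ[k] b)) = Θ.Θ01 (r ⊗ₜ[k] 𝒞.i1 b)
    rw [Θ.h1, Θ.h01, map_mul, resO_sndSec, resO_fstSec, ρ.φ_i1]
  exact congrArg (fun f => f a) this

theorem sndSec_one (W : (XR c R).Opens) : sndSec c R W 1 = 1 := map_one _

theorem ChartRing.Θ0_x (Θ : ChartRing ρ R) :
    Θ.Θ0 ((1 : R) ⊗ₜ[k] 𝒞.x0) = fstSec c R ρ.U₀ (ρ.φ0 𝒞.x0) := by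
  rw [Θ.h0, sndSec_one, one_mul]

theorem ChartRing.Θ1_z (Θ : ChartRing ρ R) :
    Θ.Θ1 ((1 : R) ⊗ₜ[k] 𝒞.z1) = fstSec c R ρ.U₁ (ρ.φ1 𝒞.z1) := by
  rw [Θ.h1, sndSec_one, one_mul]

theorem basicOpen_x (ρ : Realizes c ε 𝒞) (R : Type u) [CommRing R] [Algebra k R] :
    (XR c R).basicOpen (fstSec c R ρ.U₀ (ρ.φ0 𝒞.x0)) = WR c R (ρ.U₀ ⊓ ρ.U₁) := by
  rw [basicOpen_fstSec, ρ.basic₀]

theorem basicOpen_z (ρ : Realizes c ε 𝒞) (R : Type u) [CommRing R] [Algebra k R] :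
    (XR c R).basicOpen (fstSec c R ρ.U₁ (ρ.φ1 𝒞.z1)) = WR c R (ρ.U₀ ⊓ ρ.U₁) := by
  rw [basicOpen_fstSec, ρ.basic₁]

end Chart

/-! ## QCLOC for an open which is equal to a basic open -/

section Sec

variable {X : Scheme.{u}}

theorem sec_surj (L : X.Modules) (hL : Scheme.Modules.IsInvertible L) (W W' : X.Opens)
    (hW : IsAffineOpen W) (f : Γ(X, W)) (hW' : X.basicOpen f = W') (hle : W' ≤ W)
    (m : Γ(L, W')) : ∃ (n : ℕ) (p : Γ(L, W)), (resO hle f) ^ n • m = res L hle p := by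
  subst hW'
  exact (stmt_QCLOC L hL W hW f).1 m

theorem sec_ker (L : X.Modules) (hL : Scheme.Modules.IsInvertible L) (W W' : X.Opens)
    (hW : IsAffineOpen W) (f : Γ(X, W)) (hW' : X.basicOpen f = W') (hle : W' ≤ W)
    (p : Γ(L, W)) (hp : res L hle p = 0) : ∃ n : ℕ, f ^ n • p = 0 := by
  subst hW'
  exact (stmt_QCLOC L hL W hW f).2 p hp

end Sec

/-! ## The triple of sections -/

section Triple

variable {k : Type u} [Field k] {C : Scheme.{u}} {c : C ⟶ Spec (CommRingCat.of k)}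
  {ε : SchemeHomOver (𝟙 (Spec (CommRingCat.of k))) c} {𝒞 : LB.CurveDatum k}
  {ρ : Realizes c ε 𝒞} {R : Type u} [CommRing R] [Algebra k R]

/-- the triple of sections of an invertible sheaf on `C × Spec R` -/
noncomputable def tripleOf (hINV : Stmt_AFFINV.{u}) (Θ : ChartRing ρ R) (L : (XR c R).Modules)
    (hL : Scheme.Modules.IsInvertible L) : LB.Triple 𝒞 R :=
  letI m0 : Module (R ⊗[k] 𝒞.B0) Γ(L, WR c R ρ.U₀) := Module.compHom _ Θ.Θ0.toRingHom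
  letI m1 : Module (R ⊗[k] 𝒞.B1) Γ(L, WR c R ρ.U₁) := Module.compHom _ Θ.Θ1.toRingHom
  letI m01 : Module (R ⊗[k] 𝒞.B01) Γ(L, WR c R (ρ.U₀ ⊓ ρ.U₁)) :=
    Module.compHom _ Θ.Θ01.toRingHom
  { P0 := Γ(L, WR c R ρ.U₀)
    P1 := Γ(L, WR c R ρ.U₁)
    P01 := Γ(L, WR c R (ρ.U₀ ⊓ ρ.U₁))
    r0 :=
      { toFun := res L (WR_mono c R (inf_le_left : ρ.U₀ ⊓ ρ.U₁ ≤ ρ.U₀))
        map_add' := map_add _
        map_smul' := fun a p => by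
          change res L (WR_mono c R (inf_le_left : ρ.U₀ ⊓ ρ.U₁ ≤ ρ.U₀)) (Θ.Θ0 a • p) =
            Θ.Θ01 (𝒞.ι0 R a) • res L (WR_mono c R (inf_le_left : ρ.U₀ ⊓ ρ.U₁ ≤ ρ.U₀)) p
          rw [res_smul, Θ.resO_Θ0] }
    r1 :=
      { toFun := res L (WR_mono c R (inf_le_right : ρ.U₀ ⊓ ρ.U₁ ≤ ρ.U₁))
        map_add' := map_add _
        map_smul' := fun a p => by
          change res L (WR_mono c R (inf_le_right : ρ.U₀ ⊓ ρ.U₁ ≤ ρ.U₁)) (Θ.Θ1 a • p) =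
            Θ.Θ01 (𝒞.ι1 R a) • res L (WR_mono c R (inf_le_right : ρ.U₀ ⊓ ρ.U₁ ≤ ρ.U₁)) p
          rw [res_smul, Θ.resO_Θ1] }
    inv0 := by
      haveI := hINV L hL (WR c R ρ.U₀) Θ.aff0
      exact invertible_compHom Θ.Θ0 _
    inv1 := by
      haveI := hINV L hL (WR c R ρ.U₁) Θ.aff1
      exact invertible_compHom Θ.Θ1 _
    surj0 := fun m => by
      obtain ⟨n, p, h⟩ := sec_surj L hL (WR c R ρ.U₀) (WR c R (ρ.U₀ ⊓ ρ.U₁)) Θ.aff0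
        (fstSec c R ρ.U₀ (ρ.φ0 𝒞.x0)) (basicOpen_x ρ R) (WR_mono c R inf_le_left) m
      refine ⟨n, p, ?_⟩
      change Θ.Θ01 (((1 : R) ⊗ₜ[k] 𝒞.i0 𝒞.x0) ^ n) • m =
        res L (WR_mono c R (inf_le_left : ρ.U₀ ⊓ ρ.U₁ ≤ ρ.U₀)) p
      rw [← h, map_pow, ← Θ.Θ0_x, Θ.resO_Θ0]
      rfl
    ker0 := fun p hp => by
      obtain ⟨n, h⟩ := sec_ker L hL (WR c R ρ.U₀) (WR c R (ρ.U₀ ⊓ ρ.U₁)) Θ.aff0
        (fstSec c R ρ.U₀ (ρ.φ0 𝒞.x0)) (basicOpen_x ρ R) (WR_mono c R inf_le_left) p hp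
      refine ⟨n, ?_⟩
      change Θ.Θ0 (((1 : R) ⊗ₜ[k] 𝒞.x0) ^ n) • p = 0
      rw [map_pow, Θ.Θ0_x]
      exact h
    surj1 := fun m => by
      obtain ⟨n, p, h⟩ := sec_surj L hL (WR c R ρ.U₁) (WR c R (ρ.U₀ ⊓ ρ.U₁)) Θ.aff1
        (fstSec c R ρ.U₁ (ρ.φ1 𝒞.z1)) (basicOpen_z ρ R) (WR_mono c R inf_le_right) m
      refine ⟨n, p, ?_⟩
      change Θ.Θ01 (((1 : R) ⊗ₜ[k] 𝒞.i1 𝒞.z1) ^ n) • m =
        res L (WR_mono c R (inf_le_right : ρ.U₀ ⊓ ρ.U₁ ≤ ρ.U₁)) p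
      rw [← h, map_pow, ← Θ.Θ1_z, Θ.resO_Θ1]
      rfl
    ker1 := fun p hp => by
      obtain ⟨n, h⟩ := sec_ker L hL (WR c R ρ.U₁) (WR c R (ρ.U₀ ⊓ ρ.U₁)) Θ.aff1
        (fstSec c R ρ.U₁ (ρ.φ1 𝒞.z1)) (basicOpen_z ρ R) (WR_mono c R inf_le_right) p hp
      refine ⟨n, ?_⟩
      change Θ.Θ1 (((1 : R) ⊗ₜ[k] 𝒞.z1) ^ n) • p = 0
      rw [map_pow, Θ.Θ1_z]
      exact h }

theorem isTripleOf_tripleOf (hINV : Stmt_AFFINV.{u}) (Θ : ChartRing ρ R) (L : (XR c R).Modules)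
    (hL : Scheme.Modules.IsInvertible L) : IsTripleOf ρ R L (tripleOf hINV Θ L hL) := by
  refine ⟨⟨AddEquiv.refl _, AddEquiv.refl _, AddEquiv.refl _, ?_, ?_, ?_, ?_, ?_⟩⟩
  · intro r b p
    change (Θ.Θ0 (r ⊗ₜ[k] b) • (show Γ(L, WR c R ρ.U₀) from p) : Γ(L, WR c R ρ.U₀)) = _
    rw [Θ.h0]
    rfl
  · intro r b p
    change (Θ.Θ1 (r ⊗ₜ[k] b) • (show Γ(L, WR c R ρ.U₁) from p) : Γ(L, WR c R ρ.U₁)) = _
    rw [Θ.h1]
    rfl
  · intro r b p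
    change (Θ.Θ01 (r ⊗ₜ[k] b) • (show Γ(L, WR c R (ρ.U₀ ⊓ ρ.U₁)) from p) :
      Γ(L, WR c R (ρ.U₀ ⊓ ρ.U₁))) = _
    rw [Θ.h01]
    rfl
  · intro p
    rfl
  · intro p
    rfl

/-- **BRIDGE-T1**, from RING and AFFINV. -/
theorem stmt_T1_of (hRING : Stmt_RING.{u}) (hINV : Stmt_AFFINV.{u}) : Stmt_T1.{u} := by
  intro k _ C c ε 𝒞 _ ρ R _ _ L hL
  obtain ⟨Θ⟩ := exists_chartRing hRING ρ R
  exact ⟨tripleOf hINV Θ L hL, isTripleOf_tripleOf hINV Θ L hL⟩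

/-- the chart rings exist (RING is landed: `Bridge.H7.stmt_RING`) -/
theorem nonempty_chartRing (ρ : Realizes c ε 𝒞) (R : Type u) [CommRing R] [Algebra k R] :
    Nonempty (ChartRing ρ R) :=
  exists_chartRing H7.stmt_RING ρ R

/-- **BRIDGE-T1**, from AFFINV alone. -/
theorem stmt_T1_of_AFFINV (hINV : Stmt_AFFINV.{u}) : Stmt_T1.{u} :=
  stmt_T1_of H7.stmt_RING hINV

end Triple

end Fermat.Agent.S25.Bridge.H24
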