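import Fermat.Agent.S25.Bridge.H99_T2Abs

/-!
# S25, package BRIDGE, leaf T2 (helper99): `L ≅ L'` iff the triples are isomorphic

* `sig` : the map `(r, b) ↦ sndSec r * fstSec (φ b)`, `sig_mul`, `sig_one`, `sig_gen` (from RING:
  these elements generate the functions on `U × Spec R` additively);
* `tripleIso_of_iso` : **(⟹)**, unconditional;
* `iso_of_tripleIso` : **(⟸)**, from `Stmt_RING` and `Stmt_AFFHOM`;
* `stmt_T2_of : Stmt_RING → Stmt_AFFHOM → Stmt_T2`.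
-/

set_option autoImplicit false
set_option linter.unusedSectionVars false
set_option linter.unusedVariables false
set_option linter.style.haveILetI false

universe u

open CategoryTheory CategoryTheory.Limits AlgebraicGeometry AlgebraicGeometry.RelPicard
  NeronModelInfra TopologicalSpace TensorProduct

namespace Fermat.Agent.S25.Bridge.H99

section Curve

variable {k : Type u} [Field k] {C : Scheme.{u}} (c : C ⟶ Spec (CommRingCat.of k))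
  (R : Type u) [CommRing R] [Algebra k R]

/-- `(r, b) ↦ sndSec r * fstSec (φ b)`. -/
noncomputable abbrev sig {B : Type u} [CommRing B] (U : C.Opens) (φ : B ≃+* Γ(C, U)) (r : R)
    (b : B) : Γ(XR c R, WR c R U) :=
  sndSec c R (WR c R U) r * fstSec c R U (φ b)

theorem sig_mul {B : Type u} [CommRing B] (U : C.Opens) (φ : B ≃+* Γ(C, U)) (r r' : R)
    (b b' : B) : sig c R U φ r b * sig c R U φ r' b' = sig c R U φ (r * r') (b * b') := by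
  unfold sig
  rw [map_mul, map_mul, map_mul]
  ring

theorem sig_one {B : Type u} [CommRing B] (U : C.Opens) (φ : B ≃+* Γ(C, U)) :
    sig c R U φ 1 1 = 1 := by
  unfold sig
  rw [map_one, map_one, map_one, one_mul]

/-- The elements `sndSec r * fstSec b` generate the functions on `U × Spec R` additively. -/
theorem sig_gen (hRING : Stmt_RING.{u}) {B : Type u} [CommRing B] (U : C.Opens)
    (hU : IsAffineOpen U) (φ : B ≃+* Γ(C, U)) (s : Γ(XR c R, WR c R U)) :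
    s ∈ AddSubmonoid.closure
      (Set.range fun rb : R × B => sig c R U φ rb.1 rb.2) := by
  letI : Algebra k Γ(C, U) := (Curve.kSec c U).toAlgebra
  obtain ⟨-, ψ, hψ⟩ := hRING k c R U hU
  have key : ∀ t : R ⊗[k] Γ(C, U), ψ t ∈ AddSubmonoid.closure
      (Set.range fun rb : R × B => sig c R U φ rb.1 rb.2) := by
    intro t
    induction t using TensorProduct.induction_on with
    | zero =>
      rw [map_zero]
      exact AddSubmonoid.zero_mem _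
    | tmul r b =>
      rw [hψ]
      refine AddSubmonoid.subset_closure ⟨(r, φ.symm b), ?_⟩
      change sndSec c R (WR c R U) r * fstSec c R U (φ (φ.symm b)) = _
      rw [φ.apply_symm_apply]
    | add x y hx hy =>
      rw [map_add]
      exact AddSubmonoid.add_mem _ hx hy
  have := key (ψ.symm s)
  rwa [ψ.apply_symm_apply] at this

end Curve

section Dict

variable {k : Type u} [Field k] {C : Scheme.{u}} {c : C ⟶ Spec (CommRingCat.of k)}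
  {ε : SchemeHomOver (𝟙 (Spec (CommRingCat.of k))) c} {𝒞 : LB.CurveDatum k}
  (ρ : Realizes c ε 𝒞) (R : Type u) [CommRing R] [Algebra k R]
  {L L' : (XR c R).Modules} {T T' : LB.Triple 𝒞 R}

/-- **(⟹)** isomorphic sheaves have isomorphic triples. -/
theorem tripleIso_of_iso (hT : IsTripleOf ρ R L T) (hT' : IsTripleOf ρ R L' T') (e : L ≅ L') :
    Nonempty (LB.Triple.Iso T T') := by
  obtain ⟨f0, f1, f01, s0, s1, s01, hr0, hr1⟩ := hT.ex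
  obtain ⟨f0', f1', f01', s0', s1', s01', hr0', hr1'⟩ := hT'.ex
  refine ⟨{
    e0 := transferEquiv (sig c R ρ.U₀ ρ.φ0) f0 f0' s0 s0'
      (appEquiv e (WR c R ρ.U₀))
    e1 := transferEquiv (sig c R ρ.U₁ ρ.φ1) f1 f1' s1 s1'
      (appEquiv e (WR c R ρ.U₁))
    e01 := transferEquiv (sig c R (ρ.U₀ ⊓ ρ.U₁) ρ.φ01) f01 f01' s01 s01'
      (appEquiv e (WR c R (ρ.U₀ ⊓ ρ.U₁)))
    comm0 := ?_
    comm1 := ?_ }⟩
  · intro p
    rw [transferEquiv_apply, transferEquiv_apply]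
    apply f01'.injective
    rw [f01'.apply_symm_apply, hr0, appEquiv_res, hr0', f0'.apply_symm_apply]
  · intro p
    rw [transferEquiv_apply, transferEquiv_apply]
    apply f01'.injective
    rw [f01'.apply_symm_apply, hr1, appEquiv_res, hr1', f1'.apply_symm_apply]

/-- `x0` is a unit on the overlap: the unit of `(1 ⊗ i0 x0)^n`. -/
theorem sig_x0_unit (n : ℕ) :
    sig c R (ρ.U₀ ⊓ ρ.U₁) ρ.φ01 1 ((𝒞.i1 𝒞.z1) ^ n)
      * sig c R (ρ.U₀ ⊓ ρ.U₁) ρ.φ01 1 ((𝒞.i0 𝒞.x0) ^ n) = 1 := by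
  rw [sig_mul, one_mul, ← mul_pow, mul_comm, 𝒞.hxz, one_pow, sig_one]

/-- `z1` is a unit on the overlap. -/
theorem sig_z1_unit (n : ℕ) :
    sig c R (ρ.U₀ ⊓ ρ.U₁) ρ.φ01 1 ((𝒞.i0 𝒞.x0) ^ n)
      * sig c R (ρ.U₀ ⊓ ρ.U₁) ρ.φ01 1 ((𝒞.i1 𝒞.z1) ^ n) = 1 := by
  rw [sig_mul, one_mul, ← mul_pow, 𝒞.hxz, one_pow, sig_one]

include ρ in
theorem isAffineOpen_inf : IsAffineOpen (ρ.U₀ ⊓ ρ.U₁) := by
  rw [← ρ.basic₀]
  exact ρ.aff₀.basicOpen _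

include ρ in
theorem cover_WR (x : XR c R) : x ∈ WR c R ρ.U₀ ∨ x ∈ WR c R ρ.U₁ := by
  have h : (pullback.fst c (tR k R)) x ∈ ρ.U₀ ⊔ ρ.U₁ := by
    rw [ρ.cover]
    exact Opens.mem_top _
  exact h

theorem WR_inf_le_left : WR c R (ρ.U₀ ⊓ ρ.U₁) ≤ WR c R ρ.U₀ := fun _ h => h.1

theorem WR_inf_le_right : WR c R (ρ.U₀ ⊓ ρ.U₁) ≤ WR c R ρ.U₁ := fun _ h => h.2

theorem le_WR_inf {V : (XR c R).Opens} (h0 : V ≤ WR c R ρ.U₀) (h1 : V ≤ WR c R ρ.U₁) :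
    V ≤ WR c R (ρ.U₀ ⊓ ρ.U₁) := fun _ hx => ⟨h0 hx, h1 hx⟩

/-- A linear map on the overlap which agrees with `G` on the restrictions of the sections over
the first chart agrees with `G`. -/
theorem eq_on_overlap_of_eq_on_res0 (hT : IsTripleOf ρ R L T)
    (f0 : T.P0 ≃+ Γ(L, WR c R ρ.U₀)) (f01 : T.P01 ≃+ Γ(L, WR c R (ρ.U₀ ⊓ ρ.U₁)))
    (s01 : ∀ (r : R) (b : 𝒞.B01) (p : T.P01), f01 ((r ⊗ₜ[k] b) • p) =
      sig c R (ρ.U₀ ⊓ ρ.U₁) ρ.φ01 r b • f01 p)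
    (hr0 : ∀ p : T.P0, f01 (T.r0 p) = res L (WR_inf_le_left ρ R) (f0 p))
    (E G : Γ(L, WR c R (ρ.U₀ ⊓ ρ.U₁)) →ₗ[Γ(XR c R, WR c R (ρ.U₀ ⊓ ρ.U₁))]
      Γ(L', WR c R (ρ.U₀ ⊓ ρ.U₁)))
    (h : ∀ p : T.P0, E (res L (WR_inf_le_left ρ R) (f0 p))
      = G (res L (WR_inf_le_left ρ R) (f0 p)))
    (m : Γ(L, WR c R (ρ.U₀ ⊓ ρ.U₁))) : E m = G m := by
  obtain ⟨n, p, hp⟩ := T.surj0 (f01.symm m)
  have e1 : ((1 : R) ⊗ₜ[k] 𝒞.i0 𝒞.x0 : R ⊗[k] 𝒞.B01) ^ n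
      = (1 : R) ⊗ₜ[k] ((𝒞.i0 𝒞.x0) ^ n) := by
    rw [Algebra.TensorProduct.tmul_pow, one_pow]
  have e2 : sig c R (ρ.U₀ ⊓ ρ.U₁) ρ.φ01 1 ((𝒞.i0 𝒞.x0) ^ n) • m
      = res L (WR_inf_le_left ρ R) (f0 p) := by
    rw [← hr0, ← hp, e1, s01, f01.apply_symm_apply]
  have e3 := h p
  rw [← e2, map_smul, map_smul] at e3
  have e4 := congrArg (fun y => sig c R (ρ.U₀ ⊓ ρ.U₁) ρ.φ01 1 ((𝒞.i1 𝒞.z1) ^ n) • y) e3
  simp only [smul_smul, sig_x0_unit ρ R n, one_smul] at e4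
  exact e4

/-- The same for the second chart. -/
theorem eq_on_overlap_of_eq_on_res1 (hT : IsTripleOf ρ R L T)
    (f1 : T.P1 ≃+ Γ(L, WR c R ρ.U₁)) (f01 : T.P01 ≃+ Γ(L, WR c R (ρ.U₀ ⊓ ρ.U₁)))
    (s01 : ∀ (r : R) (b : 𝒞.B01) (p : T.P01), f01 ((r ⊗ₜ[k] b) • p) =
      sig c R (ρ.U₀ ⊓ ρ.U₁) ρ.φ01 r b • f01 p)
    (hr1 : ∀ p : T.P1, f01 (T.r1 p) = res L (WR_inf_le_right ρ R) (f1 p))
    (E G : Γ(L, WR c R (ρ.U₀ ⊓ ρ.U₁)) →ₗ[Γ(XR c R, WR c R (ρ.U₀ ⊓ ρ.U₁))]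
      Γ(L', WR c R (ρ.U₀ ⊓ ρ.U₁)))
    (h : ∀ p : T.P1, E (res L (WR_inf_le_right ρ R) (f1 p))
      = G (res L (WR_inf_le_right ρ R) (f1 p)))
    (m : Γ(L, WR c R (ρ.U₀ ⊓ ρ.U₁))) : E m = G m := by
  obtain ⟨n, p, hp⟩ := T.surj1 (f01.symm m)
  have e1 : ((1 : R) ⊗ₜ[k] 𝒞.i1 𝒞.z1 : R ⊗[k] 𝒞.B01) ^ n
      = (1 : R) ⊗ₜ[k] ((𝒞.i1 𝒞.z1) ^ n) := by
    rw [Algebra.TensorProduct.tmul_pow, one_pow]
  have e2 : sig c R (ρ.U₀ ⊓ ρ.U₁) ρ.φ01 1 ((𝒞.i1 𝒞.z1) ^ n) • m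
      = res L (WR_inf_le_right ρ R) (f1 p) := by
    rw [← hr1, ← hp, e1, s01, f01.apply_symm_apply]
  have e3 := h p
  rw [← e2, map_smul, map_smul] at e3
  have e4 := congrArg (fun y => sig c R (ρ.U₀ ⊓ ρ.U₁) ρ.φ01 1 ((𝒞.i0 𝒞.x0) ^ n) • y) e3
  simp only [smul_smul, sig_z1_unit ρ R n, one_smul] at e4
  exact e4

/-- **(⟸)** sheaves with isomorphic triples are isomorphic. -/
theorem iso_of_tripleIso (hRING : Stmt_RING.{u}) (hAFF : Stmt_AFFHOM.{u})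
    (hL : Scheme.Modules.IsInvertible L) (hL' : Scheme.Modules.IsInvertible L')
    (hT : IsTripleOf ρ R L T) (hT' : IsTripleOf ρ R L' T') (I : LB.Triple.Iso T T') :
    Nonempty (L ≅ L') := by
  obtain ⟨f0, f1, f01, s0, s1, s01, hr0, hr1⟩ := hT.ex
  obtain ⟨f0', f1', f01', s0', s1', s01', hr0', hr1'⟩ := hT'.ex
  have hA0 : IsAffineOpen (WR c R ρ.U₀) := (hRING k c R ρ.U₀ ρ.aff₀).1
  have hA1 : IsAffineOpen (WR c R ρ.U₁) := (hRING k c R ρ.U₁ ρ.aff₁).1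
  have hA01 : IsAffineOpen (WR c R (ρ.U₀ ⊓ ρ.U₁)) :=
    (hRING k c R (ρ.U₀ ⊓ ρ.U₁) (isAffineOpen_inf ρ)).1
  -- the three linear isomorphisms on sections
  let g0 : Γ(L, WR c R ρ.U₀) ≃ₗ[Γ(XR c R, WR c R ρ.U₀)] Γ(L', WR c R ρ.U₀) :=
    transferBack (sig c R ρ.U₀ ρ.φ0) f0 f0' s0 s0' (sig_gen c R hRING ρ.U₀ ρ.aff₀ ρ.φ0) I.e0
  let g1 : Γ(L, WR c R ρ.U₁) ≃ₗ[Γ(XR c R, WR c R ρ.U₁)] Γ(L', WR c R ρ.U₁) :=
    transferBack (sig c R ρ.U₁ ρ.φ1) f1 f1' s1 s1' (sig_gen c R hRING ρ.U₁ ρ.aff₁ ρ.φ1) I.e1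
  let g01 : Γ(L, WR c R (ρ.U₀ ⊓ ρ.U₁)) ≃ₗ[Γ(XR c R, WR c R (ρ.U₀ ⊓ ρ.U₁))]
      Γ(L', WR c R (ρ.U₀ ⊓ ρ.U₁)) :=
    transferBack (sig c R (ρ.U₀ ⊓ ρ.U₁) ρ.φ01) f01 f01' s01 s01'
      (sig_gen c R hRING (ρ.U₀ ⊓ ρ.U₁) (isAffineOpen_inf ρ) ρ.φ01) I.e01
  have hg0 : ∀ p : T.P0, g0 (f0 p) = f0' (I.e0 p) := by
    intro p
    change f0' (I.e0 (f0.symm (f0 p))) = _
    rw [f0.symm_apply_apply]
  have hg1 : ∀ p : T.P1, g1 (f1 p) = f1' (I.e1 p) := by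
    intro p
    change f1' (I.e1 (f1.symm (f1 p))) = _
    rw [f1.symm_apply_apply]
  have hg01 : ∀ p : T.P01, g01 (f01 p) = f01' (I.e01 p) := by
    intro p
    change f01' (I.e01 (f01.symm (f01 p))) = _
    rw [f01.symm_apply_apply]
  -- the families
  obtain ⟨E0, ⟨hE0e, hE0c⟩, -⟩ := hAFF L L' hL hL' (WR c R ρ.U₀) hA0 g0
  obtain ⟨E1, ⟨hE1e, hE1c⟩, -⟩ := hAFF L L' hL hL' (WR c R ρ.U₁) hA1 g1
  obtain ⟨E01, -, huniq⟩ := hAFF L L' hL hL' (WR c R (ρ.U₀ ⊓ ρ.U₁)) hA01 g01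
  -- both families restrict to `g01` on the overlap
  have k0 : ∀ m, E0 (WR c R (ρ.U₀ ⊓ ρ.U₁)) (WR_inf_le_left ρ R) m = g01 m := by
    intro m
    refine eq_on_overlap_of_eq_on_res0 ρ R hT f0 f01 s01 hr0
      (E0 (WR c R (ρ.U₀ ⊓ ρ.U₁)) (WR_inf_le_left ρ R)).toLinearMap g01.toLinearMap ?_ m
    intro p
    change E0 (WR c R (ρ.U₀ ⊓ ρ.U₁)) (WR_inf_le_left ρ R) (res L (WR_inf_le_left ρ R) (f0 p))
      = g01 (res L (WR_inf_le_left ρ R) (f0 p))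
    rw [hE0c (WR c R ρ.U₀) (WR c R (ρ.U₀ ⊓ ρ.U₁)) le_rfl (WR_inf_le_left ρ R), hE0e, hg0,
      ← hr0, hg01, I.comm0, hr0']
  have k1 : ∀ m, E1 (WR c R (ρ.U₀ ⊓ ρ.U₁)) (WR_inf_le_right ρ R) m = g01 m := by
    intro m
    refine eq_on_overlap_of_eq_on_res1 ρ R hT f1 f01 s01 hr1
      (E1 (WR c R (ρ.U₀ ⊓ ρ.U₁)) (WR_inf_le_right ρ R)).toLinearMap g01.toLinearMap ?_ m
    intro p
    change E1 (WR c R (ρ.U₀ ⊓ ρ.U₁)) (WR_inf_le_right ρ R) (res L (WR_inf_le_right ρ R) (f1 p))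
      = g01 (res L (WR_inf_le_right ρ R) (f1 p))
    rw [hE1c (WR c R ρ.U₁) (WR c R (ρ.U₀ ⊓ ρ.U₁)) le_rfl (WR_inf_le_right ρ R), hE1e, hg1,
      ← hr1, hg01, I.comm1, hr1']
  have u0 : (fun (V : (XR c R).Opens) (hV : V ≤ WR c R (ρ.U₀ ⊓ ρ.U₁)) =>
      E0 V (hV.trans (WR_inf_le_left ρ R))) = E01 :=
    huniq _ ⟨k0, fun V V' hV hV' p => hE0c V V' (hV.trans (WR_inf_le_left ρ R)) hV' p⟩
  have u1 : (fun (V : (XR c R).Opens) (hV : V ≤ WR c R (ρ.U₀ ⊓ ρ.U₁)) =>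
      E1 V (hV.trans (WR_inf_le_right ρ R))) = E01 :=
    huniq _ ⟨k1, fun V V' hV hV' p => hE1c V V' (hV.trans (WR_inf_le_right ρ R)) hV' p⟩
  refine nonempty_iso_of_two L L' (WR c R ρ.U₀) (WR c R ρ.U₁) (cover_WR ρ R) E0 E1 hE0c hE1c ?_
  intro V h0 h1 p
  have h01 := le_WR_inf ρ R h0 h1
  have a0 := congrFun (congrFun u0 V) h01
  have a1 := congrFun (congrFun u1 V) h01
  have a2 : E0 V h0 = E1 V h1 := a0.trans a1.symm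
  rw [a2]

/-- **BRIDGE-T2**, from RING and AFFHOM. -/
theorem stmt_T2_of (hRING : Stmt_RING.{u}) (hAFF : Stmt_AFFHOM.{u}) : Stmt_T2.{u} := by
  intro k _ C c ε 𝒞 _ ρ R _ _ L L' T T' hL hL' hT hT'
  constructor
  · rintro ⟨e⟩
    exact tripleIso_of_iso ρ R hT hT' e
  · rintro ⟨I⟩
    exact iso_of_tripleIso ρ R hRING hAFF hL hL' hT hT' I

end Dict

end Fermat.Agent.S25.Bridge.H99
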