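import Fermat.Agent.S25.Bridge.Defs
import Fermat.Agent.S25.Glue.H18_BGen

/-!
# S25, package BRIDGE, leaf AFFLOC (helper18)

An invertible sheaf has generating sections on finitely many basic opens `D(f)`, `f ∈ S`, of
any affine open `W`, with `S` generating the unit ideal.
-/

set_option autoImplicit false

universe u

open CategoryTheory AlgebraicGeometry TopologicalSpace

namespace Fermat.Agent.S25.Bridge.H18

open Fermat.Agent.S25.Glue

/-- pointwise form: around every point of an affine open there is a basic open with a generating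
section -/
theorem exists_basicOpen_isGen {X : Scheme.{u}} (L : X.Modules)
    (hL : Scheme.Modules.IsInvertible L) (W : X.Opens) (hW : IsAffineOpen W) (x : X)
    (hx : x ∈ W) :
    ∃ f : Γ(X, W), x ∈ X.basicOpen f ∧ ∃ s : Γ(L, X.basicOpen f), IsGen L (X.basicOpen f) s := by
  obtain ⟨U, hxU, s, hs⟩ := (stmt_BGEN X L).1 hL x
  obtain ⟨f, hf, hxf⟩ := hW.exists_basicOpen_le (V := U) ⟨x, hxU⟩ hx
  exact ⟨f, hxf, _, hs.mono hf⟩

/-- **AFFLOC** -/
theorem stmt_AFFLOC : Stmt_AFFLOC.{u} := by
  intro X L hL W hW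
  classical
  let T : Set Γ(X, W) := {f | ∃ s : Γ(L, X.basicOpen f), IsGen L (X.basicOpen f) s}
  have hT : Ideal.span T = ⊤ := by
    rw [← hW.self_le_iSup_basicOpen_iff]
    intro x hx
    obtain ⟨f, hxf, hf⟩ := exists_basicOpen_isGen L hL W hW x hx
    rw [Opens.mem_iSup]
    exact ⟨⟨f, hf⟩, hxf⟩
  obtain ⟨S, hST, hS⟩ := (Ideal.span_eq_top_iff_finite T).1 hT
  exact ⟨S, hS, fun f hf => hST hf⟩

end Fermat.Agent.S25.Bridge.H18
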