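import Fermat.Agent.S25.Bridge.Defs
import Fermat.Agent.S25.Bridge.H18_AffLoc
import Fermat.Agent.S25.Bridge.H24_QCLoc
import Fermat.Agent.S25.B.H34_InvAffine

/-!
# S25, BRIDGE-AFFINV (helper10)

`stmt_AFFINV : Stmt_AFFINV`: the sections of an invertible sheaf over an affine open `W` form an invertible
module over `Γ(X, W)`.

Proof: by AFFLOC (helper18) there are finitely many `f` generating the unit ideal of `Γ(X, W)` with generating
sections of `L` on `D(f)`; by QCLOC (helper24) `Γ(L, D(f))` is the localisation of `Γ(L, W)` at `f`; by the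
generating section it is isomorphic to `Γ(X, D(f))`, the localisation of `Γ(X, W)` at `f`.  Then INV-LOC
(helper34, `invertible_of_localizationSpan_equiv`) applies.
-/

set_option autoImplicit false
set_option linter.style.haveILetI false

universe u

open CategoryTheory AlgebraicGeometry TopologicalSpace Opposite

namespace Fermat.Agent.S25.Bridge.H10

variable {X : Scheme.{u}}

/-- `Γ(L, V)` as a module over `Γ(X, U)` for `V ≤ U`, through the restriction of functions. -/
@[reducible] noncomputable def modRes (L : X.Modules) {U V : X.Opens} (h : V ≤ U) :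
    Module Γ(X, U) Γ(L, V) :=
  Module.compHom Γ(L, V) (resO h)

theorem modRes_smul (L : X.Modules) {U V : X.Opens} (h : V ≤ U) (r : Γ(X, U)) (n : Γ(L, V)) :
    letI := modRes L h
    r • n = resO h r • n := rfl

/-- the restriction map as a `Γ(X, U)`-linear map -/
noncomputable def resLin (L : X.Modules) {U V : X.Opens} (h : V ≤ U) :
    letI := modRes L h
    Γ(L, U) →ₗ[Γ(X, U)] Γ(L, V) :=
  letI := modRes L h
  { toFun := res L h
    map_add' := fun a b => map_add (res L h) a b
    map_smul' := fun r s => H24.res_smul L h r s }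

theorem resLin_apply (L : X.Modules) {U V : X.Opens} (h : V ≤ U) (s : Γ(L, U)) :
    resLin L h s = res L h s := rfl

/-- the map `a ↦ a • t` on `D(f)`, linear over `Γ(X, W)` -/
noncomputable def genLin (L : X.Modules) {W : X.Opens} (f : Γ(X, W)) (t : Γ(L, X.basicOpen f)) :
    letI := modRes L (X.basicOpen_le f)
    Γ(X, X.basicOpen f) →ₗ[Γ(X, W)] Γ(L, X.basicOpen f) :=
  letI := modRes L (X.basicOpen_le f)
  { toFun := fun a => a • t
    map_add' := fun a b => add_smul a b t
    map_smul' := fun r a => by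
      change (algebraMap Γ(X, W) Γ(X, X.basicOpen f) r * a) • t = resO (X.basicOpen_le f) r • (a • t)
      rw [mul_smul]
      rfl }

theorem genLin_bijective (L : X.Modules) {W : X.Opens} (f : Γ(X, W)) (t : Γ(L, X.basicOpen f))
    (ht : Glue.IsGen L (X.basicOpen f) t) : Function.Bijective (genLin L f t) := by
  have h := ht (X.basicOpen f) le_rfl
  have e : L.presheaf.map (homOfLE (le_refl (X.basicOpen f))).op t = t := H24.res_self L t
  rw [e] at h
  exact h

theorem isUnit_resO_basicOpen {W : X.Opens} (f : Γ(X, W)) :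
    IsUnit (resO (X.basicOpen_le f) f) :=
  X.toRingedSpace.isUnit_res_basicOpen f

theorem isLocalizedModule_resLin (L : X.Modules) (hL : Scheme.Modules.IsInvertible L)
    (W : X.Opens) (hW : IsAffineOpen W) (f : Γ(X, W)) :
    letI := modRes L (X.basicOpen_le f)
    IsLocalizedModule (.powers f) (resLin L (X.basicOpen_le f)) := by
  letI := modRes L (X.basicOpen_le f)
  obtain ⟨hsurj, hker⟩ := H24.stmt_QCLOC L hL W hW f
  refine ⟨?_, ?_, ?_⟩
  · rintro ⟨x, n, rfl⟩
    rw [Module.End.isUnit_iff]
    have hu : IsUnit (resO (X.basicOpen_le f) (f ^ n)) := by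
      rw [map_pow]; exact (isUnit_resO_basicOpen f).pow n
    obtain ⟨u, hu⟩ := hu
    constructor
    · intro a b hab
      have hab' : resO (X.basicOpen_le f) (f ^ n) • a = resO (X.basicOpen_le f) (f ^ n) • b := hab
      rw [← hu] at hab'
      have := congrArg (fun z => (↑u⁻¹ : Γ(X, X.basicOpen f)) • z) hab'
      simpa [smul_smul] using this
    · intro b
      refine ⟨(↑u⁻¹ : Γ(X, X.basicOpen f)) • b, ?_⟩
      change resO (X.basicOpen_le f) (f ^ n) • ((↑u⁻¹ : Γ(X, X.basicOpen f)) • b) = b
      rw [← hu, smul_smul, Units.mul_inv, one_smul]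
  · intro y
    obtain ⟨n, p, hp⟩ := hsurj y
    refine ⟨⟨p, ⟨f ^ n, n, rfl⟩⟩, ?_⟩
    change resO (X.basicOpen_le f) (f ^ n) • y = res L (X.basicOpen_le f) p
    rw [map_pow]; exact hp
  · intro x₁ x₂ h
    have h0 : res L (X.basicOpen_le f) (x₁ - x₂) = 0 := by
      rw [map_sub]
      exact sub_eq_zero.mpr h
    obtain ⟨n, hn⟩ := hker _ h0
    refine ⟨⟨f ^ n, n, rfl⟩, ?_⟩
    change f ^ n • x₁ = f ^ n • x₂
    rw [smul_sub] at hn
    exact sub_eq_zero.mp hn

/-- **BRIDGE-AFFINV**. -/
theorem stmt_AFFINV : Stmt_AFFINV.{u} := by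
  intro X L hL W hW
  obtain ⟨S, hS, hgen⟩ := H18.stmt_AFFLOC L hL W hW
  refine B.H34.invertible_of_localizationSpan_equiv (S : Set Γ(X, W)) hS (fun r => ?_)
  obtain ⟨t, ht⟩ := hgen r.1 r.2
  letI := modRes L (X.basicOpen_le r.1)
  exact ⟨Γ(L, X.basicOpen r.1), inferInstance, modRes L (X.basicOpen_le r.1),
    resLin L (X.basicOpen_le r.1), Γ(X, X.basicOpen r.1), inferInstance, inferInstance,
    isLocalizedModule_resLin L hL W hW r.1, hW.isLocalization_basicOpen r.1,
    ⟨(LinearEquiv.ofBijective (genLin L r.1 t) (genLin_bijective L r.1 t ht)).symm⟩⟩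

end Fermat.Agent.S25.Bridge.H10
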