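import Fermat.Agent.S25.Bridge.T3Defs
import Fermat.Agent.S25.Bridge.H24_QCLoc

/-!
# S25, BRIDGE, leaf T3-GLUE2 (helper10): gluing two sheaves of modules along an isomorphism on the overlap

`X = W₀ ∪ W₁`, `F₀`, `F₁` sheaves of modules with `Γ(F_i, V) = Γ(F_i, V ⊓ W_i)`, and `θ` a compatible
family of linear isomorphisms `Γ(F₀, V) ≃ Γ(F₁, V)` for `V ≤ W₀ ⊓ W₁`.

* `Sec V` : the sections over `V` of the glued sheaf: pairs `(a, b) ∈ Γ(F₀, V) × Γ(F₁, V)` with
  `θ (a|) = b|` on `V ⊓ W₀ ⊓ W₁`;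
* `glPresheaf`, `glPresheaf_isSheaf`, `glSheaf : X.Modules`;
* `pr0 : glSheaf ⟶ F₀`, `pr1 : glSheaf ⟶ F₁`;
* `stmt_GLUE2 : T3.Stmt_GLUE2`.
-/

set_option autoImplicit false

universe u

open CategoryTheory AlgebraicGeometry TopologicalSpace Opposite

namespace Fermat.Agent.S25.Bridge.H10G

variable {X : Scheme.{u}}

theorem res_zero (L : X.Modules) {U V : X.Opens} (h : V ≤ U) : res L h (0 : Γ(L, U)) = 0 :=
  map_zero (res L h)

theorem res_add (L : X.Modules) {U V : X.Opens} (h : V ≤ U) (s t : Γ(L, U)) :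
    res L h (s + t) = res L h s + res L h t :=
  map_add (res L h) s t

/-- the part of `V` in the overlap -/
abbrev ov (W0 W1 V : X.Opens) : X.Opens := V ⊓ W0 ⊓ W1

theorem ov_le0 (W0 W1 V : X.Opens) : ov W0 W1 V ≤ W0 := inf_le_left.trans inf_le_right

theorem ov_le1 (W0 W1 V : X.Opens) : ov W0 W1 V ≤ W1 := inf_le_right

theorem ov_le (W0 W1 V : X.Opens) : ov W0 W1 V ≤ V := inf_le_left.trans inf_le_left

theorem ov_mono (W0 W1 : X.Opens) {V V' : X.Opens} (h : V' ≤ V) : ov W0 W1 V' ≤ ov W0 W1 V :=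
  inf_le_inf_right _ (inf_le_inf_right _ h)

/-- the gluing datum -/
structure Datum (X : Scheme.{u}) where
  W0 : X.Opens
  W1 : X.Opens
  F0 : X.Modules
  F1 : X.Modules
  θ : ∀ V : X.Opens, V ≤ W0 → V ≤ W1 → (Γ(F0, V) ≃ₗ[Γ(X, V)] Γ(F1, V))
  hθ : ∀ (V V' : X.Opens) (h0 : V ≤ W0) (h1 : V ≤ W1) (h : V' ≤ V) (t : Γ(F0, V)),
      θ V' (h.trans h0) (h.trans h1) (res F0 h t) = res F1 h (θ V h0 h1 t)

variable (D : Datum X)

/-- `θ` on the overlap part of `V` -/
noncomputable def Datum.θo (V : X.Opens) :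
    Γ(D.F0, ov D.W0 D.W1 V) ≃ₗ[Γ(X, ov D.W0 D.W1 V)] Γ(D.F1, ov D.W0 D.W1 V) :=
  D.θ (ov D.W0 D.W1 V) (ov_le0 _ _ _) (ov_le1 _ _ _)

theorem Datum.θo_res {V V' : X.Opens} (h : V' ≤ V) (t : Γ(D.F0, ov D.W0 D.W1 V)) :
    D.θo V' (res D.F0 (ov_mono D.W0 D.W1 h) t) = res D.F1 (ov_mono D.W0 D.W1 h) (D.θo V t) :=
  D.hθ _ _ _ _ _ t

/-- the condition on a pair of sections -/
def IsSec (V : X.Opens) (p : Γ(D.F0, V) × Γ(D.F1, V)) : Prop :=
  D.θo V (res D.F0 (ov_le D.W0 D.W1 V) p.1) = res D.F1 (ov_le D.W0 D.W1 V) p.2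

/-- the sections of the glued sheaf -/
def Sec (V : X.Opens) : Submodule Γ(X, V) (Γ(D.F0, V) × Γ(D.F1, V)) where
  carrier := {p | IsSec D V p}
  add_mem' := by
    intro p q hp hq
    change D.θo V (res D.F0 _ (p.1 + q.1)) = res D.F1 _ (p.2 + q.2)
    rw [res_add, res_add, map_add]
    exact congrArg₂ (· + ·) hp hq
  zero_mem' := by
    change D.θo V (res D.F0 _ 0) = res D.F1 _ 0
    rw [res_zero, res_zero, map_zero]
  smul_mem' := by
    intro r p hp
    change D.θo V (res D.F0 _ (r • p.1)) = res D.F1 _ (r • p.2)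
    rw [H24.res_smul, H24.res_smul, map_smul]
    exact congrArg _ hp

theorem mem_sec {V : X.Opens} {p : Γ(D.F0, V) × Γ(D.F1, V)} : p ∈ Sec D V ↔ IsSec D V p := Iff.rfl

/-- restriction of sections of the glued sheaf -/
noncomputable def secRes {V V' : X.Opens} (h : V' ≤ V) (s : Sec D V) : Sec D V' :=
  ⟨(res D.F0 h s.1.1, res D.F1 h s.1.2), by
    have hs : IsSec D V s.1 := s.2
    change D.θo V' (res D.F0 _ (res D.F0 h s.1.1)) = res D.F1 _ (res D.F1 h s.1.2)
    rw [H24.res_res, H24.res_res]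
    have e0 : res D.F0 ((ov_le D.W0 D.W1 V').trans h) s.1.1 =
        res D.F0 (ov_mono D.W0 D.W1 h) (res D.F0 (ov_le D.W0 D.W1 V) s.1.1) := by
      rw [H24.res_res]
    have e1 : res D.F1 ((ov_le D.W0 D.W1 V').trans h) s.1.2 =
        res D.F1 (ov_mono D.W0 D.W1 h) (res D.F1 (ov_le D.W0 D.W1 V) s.1.2) := by
      rw [H24.res_res]
    rw [e0, e1, D.θo_res h, hs]⟩

theorem secRes_fst {V V' : X.Opens} (h : V' ≤ V) (s : Sec D V) :
    (secRes D h s).1.1 = res D.F0 h s.1.1 := rfl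

theorem secRes_snd {V V' : X.Opens} (h : V' ≤ V) (s : Sec D V) :
    (secRes D h s).1.2 = res D.F1 h s.1.2 := rfl

theorem sec_ext {V : X.Opens} {s t : Sec D V} (h0 : s.1.1 = t.1.1) (h1 : s.1.2 = t.1.2) : s = t :=
  Subtype.ext (Prod.ext h0 h1)

theorem secRes_add {V V' : X.Opens} (h : V' ≤ V) (s t : Sec D V) :
    secRes D h (s + t) = secRes D h s + secRes D h t :=
  sec_ext D (res_add _ _ _ _) (res_add _ _ _ _)

theorem secRes_smul {V V' : X.Opens} (h : V' ≤ V) (r : Γ(X, V)) (s : Sec D V) :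
    secRes D h (r • s) = resO h r • secRes D h s :=
  sec_ext D (H24.res_smul _ _ _ _) (H24.res_smul _ _ _ _)

theorem secRes_id {V : X.Opens} (s : Sec D V) : secRes D (le_refl V) s = s :=
  sec_ext D (H24.res_self _ _) (H24.res_self _ _)

theorem secRes_secRes {V V' V'' : X.Opens} (h : V' ≤ V) (h' : V'' ≤ V') (s : Sec D V) :
    secRes D h' (secRes D h s) = secRes D (h'.trans h) s :=
  sec_ext D (H24.res_res _ _ _ _) (H24.res_res _ _ _ _)

noncomputable instance instModuleSec (V : (Opens X)ᵒᵖ) :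
    Module (X.ringCatSheaf.obj.obj V) (Sec D V.unop) :=
  inferInstanceAs (Module Γ(X, V.unop) (Sec D V.unop))

/-- The presheaf of modules of the glued sheaf. -/
noncomputable def glPresheaf : PresheafOfModules.{u} X.ringCatSheaf.obj where
  obj V := ModuleCat.of (X.ringCatSheaf.obj.obj V) (Sec D V.unop)
  map {V V'} f := ModuleCat.ofHom
      (Y := (ModuleCat.restrictScalars (X.ringCatSheaf.obj.map f).hom).obj
        (ModuleCat.of (X.ringCatSheaf.obj.obj V') (Sec D V'.unop)))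
    { toFun := fun a => secRes D (leOfHom f.unop) a
      map_add' := fun a b => secRes_add D (leOfHom f.unop) a b
      map_smul' := fun r a => secRes_smul D (leOfHom f.unop) r a }
  map_id V := by
    ext a
    exact secRes_id D a
  map_comp f g := by
    ext a
    exact (secRes_secRes D (leOfHom f.unop) (leOfHom g.unop) a).symm

theorem glPresheaf_map_apply {V V' : X.Opens} (h : V' ≤ V) (a : Sec D V) :
    ((glPresheaf D).presheaf.map (homOfLE h).op a : Sec D V') = secRes D h a := rfl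

theorem ov_iSup_le {κ : Type*} (W : κ → X.Opens) :
    ov D.W0 D.W1 (iSup W) ≤ ⨆ α, ov D.W0 D.W1 (W α) := by
  rintro x ⟨⟨hx, hx0⟩, hx1⟩
  obtain ⟨α, hα⟩ := Opens.mem_iSup.mp hx
  exact Opens.mem_iSup.mpr ⟨α, ⟨hα, hx0⟩, hx1⟩

/-- Sections of a sheaf of modules are determined locally. -/
theorem eq_of_res_eq (M : X.Modules) {κ : Type*} (V : κ → X.Opens) (U : X.Opens)
    (hV : ∀ k, V k ≤ U) (hU : U ≤ ⨆ k, V k) (t t' : Γ(M, U))
    (h : ∀ k, res M (hV k) t = res M (hV k) t') : t = t' :=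
  TopCat.Sheaf.eq_of_locally_eq' ⟨M.presheaf, M.isSheaf⟩ V U (fun k => homOfLE (hV k)) hU t t' h

/-- The presheaf of compatible pairs is a sheaf. -/
theorem glPresheaf_isSheaf : TopCat.Presheaf.IsSheaf (glPresheaf D).presheaf := by
  rw [TopCat.Presheaf.isSheaf_iff_isSheafUniqueGluing]
  intro κ W sf hsf
  change ∀ α, Sec D (W α) at sf
  have hcompat : ∀ α β, secRes D inf_le_left (sf α) = secRes D inf_le_right (sf β) :=
    fun α β => hsf α β
  have hglue0 : ∃! a : Γ(D.F0, iSup W), ∀ α, res D.F0 (le_iSup W α) a = (sf α).1.1 := by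
    refine TopCat.Sheaf.existsUnique_gluing' ⟨D.F0.presheaf, D.F0.isSheaf⟩ W (iSup W)
      (fun α => homOfLE (le_iSup W α)) le_rfl (fun α => (sf α).1.1) ?_
    intro α β
    exact congrArg (fun t : Sec D (W α ⊓ W β) => t.1.1) (hcompat α β)
  have hglue1 : ∃! b : Γ(D.F1, iSup W), ∀ α, res D.F1 (le_iSup W α) b = (sf α).1.2 := by
    refine TopCat.Sheaf.existsUnique_gluing' ⟨D.F1.presheaf, D.F1.isSheaf⟩ W (iSup W)
      (fun α => homOfLE (le_iSup W α)) le_rfl (fun α => (sf α).1.2) ?_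
    intro α β
    exact congrArg (fun t : Sec D (W α ⊓ W β) => t.1.2) (hcompat α β)
  obtain ⟨a, ha, ha'⟩ := hglue0
  obtain ⟨b, hb, hb'⟩ := hglue1
  have hsec : IsSec D (iSup W) (a, b) := by
    refine eq_of_res_eq D.F1 (fun α => ov D.W0 D.W1 (W α)) _
      (fun α => ov_mono D.W0 D.W1 (le_iSup W α)) (ov_iSup_le D W) _ _ ?_
    intro α
    have h1 : IsSec D (W α) (sf α).1 := (sf α).2
    unfold IsSec at h1
    rw [← ha α, ← hb α] at h1
    rw [← D.θo_res (le_iSup W α)]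
    simp only [H24.res_res] at h1 ⊢
    exact h1
  refine ⟨(⟨(a, b), hsec⟩ : Sec D (iSup W)), ?_, ?_⟩
  · intro α
    exact sec_ext D (ha α) (hb α)
  · intro s hs
    change Sec D (iSup W) at s
    refine sec_ext D ?_ ?_
    · refine ha' s.1.1 fun α => ?_
      exact congrArg (fun t : Sec D (W α) => t.1.1) (hs α)
    · refine hb' s.1.2 fun α => ?_
      exact congrArg (fun t : Sec D (W α) => t.1.2) (hs α)

/-- The glued sheaf of modules. -/
noncomputable def glSheaf : X.Modules where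
  val := glPresheaf D
  isSheaf := glPresheaf_isSheaf D

/-- a section of the glued sheaf as a compatible pair -/
noncomputable def ofΓ {V : X.Opens} (t : Γ(glSheaf D, V)) : Sec D V := t

/-- a compatible pair as a section of the glued sheaf -/
noncomputable def toΓ {V : X.Opens} (s : Sec D V) : Γ(glSheaf D, V) := s

theorem toΓ_ofΓ {V : X.Opens} (t : Γ(glSheaf D, V)) : toΓ D (ofΓ D t) = t := rfl

theorem ofΓ_toΓ {V : X.Opens} (s : Sec D V) : ofΓ D (toΓ D s) = s := rfl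

/-- the first projection, on presheaves of abelian groups -/
noncomputable def pr0Pre : (glSheaf D).presheaf ⟶ D.F0.presheaf where
  app V := AddCommGrpCat.ofHom
    (AddMonoidHom.mk' (fun s : Sec D V.unop => (s.1.1 : Γ(D.F0, V.unop))) (fun _ _ => rfl))
  naturality := by
    intro V V' f
    ext s
    rfl

/-- the second projection, on presheaves of abelian groups -/
noncomputable def pr1Pre : (glSheaf D).presheaf ⟶ D.F1.presheaf where
  app V := AddCommGrpCat.ofHom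
    (AddMonoidHom.mk' (fun s : Sec D V.unop => (s.1.2 : Γ(D.F1, V.unop))) (fun _ _ => rfl))
  naturality := by
    intro V V' f
    ext s
    rfl

/-- the first projection -/
noncomputable def pr0 : glSheaf D ⟶ D.F0 :=
  ⟨PresheafOfModules.homMk (pr0Pre D) (fun _ _ _ => rfl)⟩

/-- the second projection -/
noncomputable def pr1 : glSheaf D ⟶ D.F1 :=
  ⟨PresheafOfModules.homMk (pr1Pre D) (fun _ _ _ => rfl)⟩

theorem pr0_app {V : X.Opens} (t : Γ(glSheaf D, V)) : (pr0 D).app V t = (ofΓ D t).1.1 := rfl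

theorem pr1_app {V : X.Opens} (t : Γ(glSheaf D, V)) : (pr1 D).app V t = (ofΓ D t).1.2 := rfl

theorem isSec_iff {V : X.Opens} (a : Γ(D.F0, V)) (b : Γ(D.F1, V)) :
    IsSec D V (a, b) ↔
      D.θo V (res D.F0 (ov_le D.W0 D.W1 V) a) = res D.F1 (ov_le D.W0 D.W1 V) b := Iff.rfl

theorem le_ov {V : X.Opens} (h0 : V ≤ D.W0) (h1 : V ≤ D.W1) : V ≤ ov D.W0 D.W1 V :=
  le_inf (le_inf le_rfl h0) h1

theorem inf1_le_ov {V : X.Opens} (h0 : V ≤ D.W0) : V ⊓ D.W1 ≤ ov D.W0 D.W1 V :=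
  le_inf (le_inf inf_le_left (inf_le_left.trans h0)) inf_le_right

theorem inf0_le_ov {V : X.Opens} (h1 : V ≤ D.W1) : V ⊓ D.W0 ≤ ov D.W0 D.W1 V :=
  le_inf (le_inf inf_le_left inf_le_right) (inf_le_left.trans h1)

theorem ov_le_inf1 (V : X.Opens) : ov D.W0 D.W1 V ≤ V ⊓ D.W1 :=
  le_inf (ov_le D.W0 D.W1 V) (ov_le1 D.W0 D.W1 V)

theorem ov_le_inf0 (V : X.Opens) : ov D.W0 D.W1 V ≤ V ⊓ D.W0 :=
  le_inf (ov_le D.W0 D.W1 V) (ov_le0 D.W0 D.W1 V)

/-- compatibility of the two components of a section over an open of the overlap -/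
theorem θ_fst_eq_snd {V : X.Opens} (h0 : V ≤ D.W0) (h1 : V ≤ D.W1) (s : Sec D V) :
    D.θ V h0 h1 s.1.1 = s.1.2 := by
  have hs : IsSec D V s.1 := s.2
  unfold IsSec Datum.θo at hs
  have h := congrArg (res D.F1 (le_ov D h0 h1)) hs
  rw [← D.hθ (ov D.W0 D.W1 V) V (ov_le0 _ _ _) (ov_le1 _ _ _) (le_ov D h0 h1),
    H24.res_res, H24.res_res, H24.res_self, H24.res_self] at h
  exact h

section Bij

variable (hF0 : ∀ V : X.Opens, Function.Bijective (res D.F0 (inf_le_left : V ⊓ D.W0 ≤ V)))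
  (hF1 : ∀ V : X.Opens, Function.Bijective (res D.F1 (inf_le_left : V ⊓ D.W1 ≤ V)))

include hF1 in
theorem fst_injective {V : X.Opens} (h0 : V ≤ D.W0) {s t : Sec D V} (h : s.1.1 = t.1.1) :
    s = t := by
  refine sec_ext D h ((hF1 V).1 ?_)
  have hs : IsSec D V s.1 := s.2
  have ht : IsSec D V t.1 := t.2
  unfold IsSec at hs ht
  rw [h, ht] at hs
  have := congrArg (res D.F1 (inf1_le_ov D h0)) hs
  rw [H24.res_res, H24.res_res] at this
  exact this.symm

include hF0 in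
theorem snd_injective {V : X.Opens} (h1 : V ≤ D.W1) {s t : Sec D V} (h : s.1.2 = t.1.2) :
    s = t := by
  refine sec_ext D ((hF0 V).1 ?_) h
  have hs : IsSec D V s.1 := s.2
  have ht : IsSec D V t.1 := t.2
  unfold IsSec at hs ht
  rw [h, ← ht] at hs
  have hs' := (D.θo V).injective hs
  have := congrArg (res D.F0 (inf0_le_ov D h1)) hs'
  rw [H24.res_res, H24.res_res] at this
  exact this

include hF1 in
theorem fst_surjective {V : X.Opens} (h0 : V ≤ D.W0) (a : Γ(D.F0, V)) :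
    ∃ s : Sec D V, s.1.1 = a := by
  obtain ⟨b, hb⟩ := (hF1 V).2
    (res D.F1 (inf1_le_ov D h0) (D.θo V (res D.F0 (ov_le D.W0 D.W1 V) a)))
  refine ⟨⟨(a, b), ?_⟩, rfl⟩
  rw [mem_sec, isSec_iff]
  have := congrArg (res D.F1 (ov_le_inf1 D V)) hb
  rw [H24.res_res, H24.res_res, H24.res_self] at this
  exact this.symm

include hF0 in
theorem snd_surjective {V : X.Opens} (h1 : V ≤ D.W1) (b : Γ(D.F1, V)) :
    ∃ s : Sec D V, s.1.2 = b := by
  obtain ⟨a, ha⟩ := (hF0 V).2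
    (res D.F0 (inf0_le_ov D h1) ((D.θo V).symm (res D.F1 (ov_le D.W0 D.W1 V) b)))
  refine ⟨⟨(a, b), ?_⟩, rfl⟩
  rw [mem_sec, isSec_iff]
  have := congrArg (res D.F0 (ov_le_inf0 D V)) ha
  rw [H24.res_res, H24.res_res, H24.res_self] at this
  rw [this, LinearEquiv.apply_symm_apply]

include hF1 in
theorem pr0_bijective {V : X.Opens} (h0 : V ≤ D.W0) : Function.Bijective ((pr0 D).app V) := by
  refine ⟨fun s t h => ?_, fun a => ?_⟩
  · exact fst_injective D hF1 h0 (s := ofΓ D s) (t := ofΓ D t) h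
  · obtain ⟨s, hs⟩ := fst_surjective D hF1 h0 a
    exact ⟨toΓ D s, hs⟩

include hF0 in
theorem pr1_bijective {V : X.Opens} (h1 : V ≤ D.W1) : Function.Bijective ((pr1 D).app V) := by
  refine ⟨fun s t h => ?_, fun b => ?_⟩
  · exact snd_injective D hF0 h1 (s := ofΓ D s) (t := ofΓ D t) h
  · obtain ⟨s, hs⟩ := snd_surjective D hF0 h1 b
    exact ⟨toΓ D s, hs⟩

end Bij

/-- **GLUE2**: two sheaves of modules on `X = W₀ ∪ W₁` glue along a compatible family of linear
isomorphisms over the opens of the overlap. -/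
theorem stmt_GLUE2 : T3.Stmt_GLUE2.{u} := by
  intro X W0 W1 _ F0 F1 hF0 hF1 θ hθ
  let D : Datum X := ⟨W0, W1, F0, F1, θ, hθ⟩
  refine ⟨glSheaf D, pr0 D, pr1 D, fun V h0 => pr0_bijective D hF1 h0,
    fun V h1 => pr1_bijective D hF0 h1, fun V h0 h1 t => ?_⟩
  exact θ_fst_eq_snd D h0 h1 (ofΓ D t)

end Fermat.Agent.S25.Bridge.H10G
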