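import Fermat.Agent.S25.Bridge.T3Defs
import Fermat.Agent.S25.B.H34_TildePB

/-!
# S25, package BRIDGE, leaf T3-TILDEINV (helper17)

The sheaf `P^~` of an invertible module `P` on `Spec B` is an invertible sheaf.

Route: `P` is Zariski-locally free of rank one (`Module.Invertible.exists_finset_free_localization`);
for `r` with `B_r ⊗ P ≃ B_r` the pull-back of `P^~` to `Spec B_r` is `(B_r ⊗ P)^~ ≅ B_r^~ = O`
(helper34's `tildePullbackIso`), and `Spec B_r ≅ D(r)` as opens of `Spec B`.
-/

set_option autoImplicit false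

universe u

open CategoryTheory AlgebraicGeometry TopologicalSpace TensorProduct

namespace Fermat.Agent.S25.Bridge.H17

/-- An invertible module is free of rank one on a principal open neighbourhood of every prime. -/
theorem exists_linearEquiv_away (R : Type u) [CommRing R] (M : Type u) [AddCommGroup M]
    [Module R M] [Module.Invertible R M] (x : PrimeSpectrum R) :
    ∃ r : R, r ∉ x.asIdeal ∧
      Nonempty (Localization.Away r ⊗[R] M ≃ₗ[Localization.Away r] Localization.Away r) := by
  obtain ⟨s, hs, hfree⟩ := Module.Invertible.exists_finset_free_localization R M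
  have hex : ∃ r ∈ s, r ∉ x.asIdeal := by
    by_contra h
    have hle : Ideal.span (s : Set R) ≤ x.asIdeal :=
      Ideal.span_le.2 (fun r hr => by_contra (fun hn => h ⟨r, hr, hn⟩))
    rw [hs] at hle
    exact x.2.ne_top (top_le_iff.1 hle)
  obtain ⟨r, hr, hrx⟩ := hex
  refine ⟨r, hrx, ?_⟩
  have := hfree r hr
  have e1 : Localization.Away r ⊗[R] M ≃ₗ[Localization.Away r] LocalizedModule.Away r M :=
    (IsLocalizedModule.isBaseChange (Submonoid.powers r) (Localization.Away r)
      (LocalizedModule.mkLinearMap (Submonoid.powers r) M)).equiv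
  obtain ⟨e2⟩ := (Module.Invertible.free_iff_linearEquiv (R := Localization.Away r)
    (M := LocalizedModule.Away r M)).1 inferInstance
  exact ⟨e1.trans e2⟩

/-- A linear equivalence `S ⊗ M ≃ S` gives an isomorphism `extendScalars M ≅ S` in `ModuleCat S`. -/
theorem nonempty_iso_extendScalars (R S : Type u) [CommRing R] [CommRing S] (f : R →+* S)
    (M : ModuleCat.{u} R) (alg : Algebra R S) (halg : algebraMap R S = f)
    (e : S ⊗[R] M ≃ₗ[S] S) :
    Nonempty ((ModuleCat.extendScalars f).obj M ≅ ModuleCat.of S S) := by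
  have h : alg = f.toAlgebra := Algebra.algebra_ext _ _ (fun r => by rw [halg]; rfl)
  subst h
  exact ⟨LinearEquiv.toModuleIso e⟩

/-- **T3-TILDEINV**: the sheaf of an invertible module on `Spec B` is an invertible sheaf. -/
theorem stmt_TILDEINV : T3.Stmt_TILDEINV.{u} := by
  intro B P hP
  refine ⟨fun x => ?_⟩
  obtain ⟨r, hrx, ⟨e⟩⟩ := exists_linearEquiv_away B P x
  let φ : B ⟶ CommRingCat.of (Localization.Away r) :=
    CommRingCat.ofHom (algebraMap B (Localization.Away r))
  obtain ⟨eM⟩ := nonempty_iso_extendScalars B (Localization.Away r) φ.hom P inferInstance rfl e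
  let U : (Spec B).Opens := (Spec.map φ).opensRange
  have hxU : x ∈ U := by
    show x ∈ (Spec.map φ).opensRange
    rw [Scheme.Hom.opensRange_localizationAway]
    exact hrx
  refine ⟨U, hxU, ⟨?_⟩⟩
  have hrange : Set.range U.ι = Set.range (Spec.map φ) := by
    rw [Scheme.Opens.range_ι]; rfl
  let ι : U.toScheme ≅ Spec (CommRingCat.of (Localization.Away r)) :=
    IsOpenImmersion.isoOfRangeEq U.ι (Spec.map φ) hrange
  have hfac : ι.hom ≫ Spec.map φ = U.ι := IsOpenImmersion.isoOfRangeEq_hom_fac _ _ _
  exact (Scheme.Modules.pullbackCongr hfac.symm).app (tilde P) ≪≫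
    ((Scheme.Modules.pullbackComp ι.hom (Spec.map φ)).app (tilde P)).symm ≪≫
    (Scheme.Modules.pullback ι.hom).mapIso
      (Fermat.Agent.S25.B.H34.tildePullbackIso φ P ≪≫ (tilde.functor _).mapIso eM ≪≫ tildeSelf) ≪≫
    Scheme.Modules.pullbackUnitIso ι.hom

end Fermat.Agent.S25.Bridge.H17

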