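/-
helper18, S25 package BRIDGE, leaf T3 ("every triple is the triple of an invertible sheaf"):
INTERFACE of the sub-leaves.

Route.  On `X = C × Spec R` with the affine charts `W₀`, `W₁` (`W₀ ⊓ W₁ = D(f₀) = D(f₁)`):
* `F_i := (j_i)_* (P_i)^~`  (`j_i : Spec Γ(X, W_i) ⟶ X`), a sheaf of modules on `X` with
  `Γ(F_i, V) = Γ(F_i, V ⊓ W_i)`, invertible over `W_i` (TILDEINV);
* over `W₀ ⊓ W₁` both are the sheaf of the module `P₀₁`, which gives a compatible family of linear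
  isomorphisms `θ_V : Γ(F₀, V) ≃ Γ(F₁, V)`, `V ≤ W₀ ⊓ W₁`;
* GLUE2 glues `F₀` and `F₁` along `θ`.

Sub-leaves: `Stmt_TILDEINV`, `Stmt_GLUE2`, `Stmt_T3ABS` (abstract form of T3 on any scheme with two affine
charts), and the wiring `Stmt_T3ABS → Stmt_T3` (transport of the module structures along the chart rings).
-/
import Fermat.Agent.S25.Bridge.Defs

set_option autoImplicit false

universe u

open CategoryTheory AlgebraicGeometry TopologicalSpace

namespace Fermat.Agent.S25.Bridge.T3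

/-- **TILDEINV**: the sheaf of an invertible module on `Spec B` is an invertible sheaf. -/
def Stmt_TILDEINV : Prop :=
  ∀ (B : CommRingCat.{u}) (P : ModuleCat.{u} B), Module.Invertible B P →
    Scheme.Modules.IsInvertible (tilde P)

/-- **GLUE2**: two sheaves of modules `F₀`, `F₁` on `X = W₀ ∪ W₁` with `Γ(F_i, V) = Γ(F_i, V ⊓ W_i)`
and a compatible family of linear isomorphisms over the opens `V ≤ W₀ ⊓ W₁` glue to a sheaf of modules
`L` with morphisms `π_i : L ⟶ F_i` which are bijective on sections over the opens `V ≤ W_i`. -/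
def Stmt_GLUE2 : Prop :=
  ∀ (X : Scheme.{u}) (W0 W1 : X.Opens) (_ : ∀ x : X, x ∈ W0 ∨ x ∈ W1) (F0 F1 : X.Modules)
    (_ : ∀ V : X.Opens, Function.Bijective (res F0 (inf_le_left : V ⊓ W0 ≤ V)))
    (_ : ∀ V : X.Opens, Function.Bijective (res F1 (inf_le_left : V ⊓ W1 ≤ V)))
    (θ : ∀ V : X.Opens, V ≤ W0 → V ≤ W1 → (Γ(F0, V) ≃ₗ[Γ(X, V)] Γ(F1, V)))
    (_ : ∀ (V V' : X.Opens) (h0 : V ≤ W0) (h1 : V ≤ W1) (h : V' ≤ V) (t : Γ(F0, V)),
      θ V' (h.trans h0) (h.trans h1) (res F0 h t) = res F1 h (θ V h0 h1 t)),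
    ∃ (L : X.Modules) (π0 : L ⟶ F0) (π1 : L ⟶ F1),
      (∀ V : X.Opens, V ≤ W0 → Function.Bijective (π0.app V)) ∧
      (∀ V : X.Opens, V ≤ W1 → Function.Bijective (π1.app V)) ∧
      (∀ (V : X.Opens) (h0 : V ≤ W0) (h1 : V ≤ W1) (t : Γ(L, V)),
        θ V h0 h1 (π0.app V t) = π1.app V t)

/-- **T3ABS**: T3 on an arbitrary scheme with two affine charts `W₀`, `W₁` whose intersection `W₀₁` is
a basic open of both: invertible modules `P_i` over `Γ(X, W_i)` and a module `P₀₁` over `Γ(X, W₀₁)`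
which is the localisation of both are the modules of sections of an invertible sheaf. -/
def Stmt_T3ABS : Prop :=
  ∀ (X : Scheme.{u}) (W0 W1 W01 : X.Opens), IsAffineOpen W0 → IsAffineOpen W1 →
    (∀ x : X, x ∈ W0 ∨ x ∈ W1) → ∀ (hle0 : W01 ≤ W0) (hle1 : W01 ≤ W1), W0 ⊓ W1 ≤ W01 →
    ∀ (f0 : Γ(X, W0)) (f1 : Γ(X, W1)), X.basicOpen f0 = W01 → X.basicOpen f1 = W01 →
    ∀ (P0 P1 P01 : Type u) [AddCommGroup P0] [AddCommGroup P1] [AddCommGroup P01]
      [Module Γ(X, W0) P0] [Module Γ(X, W1) P1] [Module Γ(X, W01) P01],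
      Module.Invertible Γ(X, W0) P0 → Module.Invertible Γ(X, W1) P1 →
    ∀ (r0 : P0 →+ P01) (r1 : P1 →+ P01),
      (∀ (a : Γ(X, W0)) (p : P0), r0 (a • p) = resO hle0 a • r0 p) →
      (∀ (a : Γ(X, W1)) (p : P1), r1 (a • p) = resO hle1 a • r1 p) →
      (∀ m : P01, ∃ (n : ℕ) (p : P0), (resO hle0 f0) ^ n • m = r0 p) →
      (∀ p : P0, r0 p = 0 → ∃ n : ℕ, f0 ^ n • p = 0) →
      (∀ m : P01, ∃ (n : ℕ) (p : P1), (resO hle1 f1) ^ n • m = r1 p) →
      (∀ p : P1, r1 p = 0 → ∃ n : ℕ, f1 ^ n • p = 0) →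
      ∃ L : X.Modules, Scheme.Modules.IsInvertible L ∧
        ∃ (g0 : P0 ≃+ Γ(L, W0)) (g1 : P1 ≃+ Γ(L, W1)) (g01 : P01 ≃+ Γ(L, W01)),
          (∀ (a : Γ(X, W0)) (p : P0), g0 (a • p) = a • g0 p) ∧
          (∀ (a : Γ(X, W1)) (p : P1), g1 (a • p) = a • g1 p) ∧
          (∀ (a : Γ(X, W01)) (p : P01), g01 (a • p) = a • g01 p) ∧
          (∀ p : P0, g01 (r0 p) = res L hle0 (g0 p)) ∧
          (∀ p : P1, g01 (r1 p) = res L hle1 (g1 p))

end Fermat.Agent.S25.Bridge.T3
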