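import Fermat.Agent.S25.Bridge.H24_T1
import Fermat.Agent.S25.Bridge.T3Defs

/-!
# S25, BRIDGE-T3, the wiring `T3ABS → T3` (helper24)

`stmt_T3_of_ABS : T3.Stmt_T3ABS → Stmt_T3`: a triple over `R` is transported along the chart rings
`Θ_i : R ⊗[k] B_i ≃+* Γ(C × Spec R, U_i × Spec R)` to modules over the rings of sections of the charts,
to which the abstract form `T3ABS` (helper18, `Bridge/T3Defs.lean`) applies.
-/

set_option autoImplicit false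
set_option linter.style.haveILetI false

universe u

open CategoryTheory CategoryTheory.Limits AlgebraicGeometry AlgebraicGeometry.RelPicard NeronModelInfra
  TopologicalSpace TensorProduct

namespace Fermat.Agent.S25.Bridge.H24

section

variable {k : Type u} [Field k] {C : Scheme.{u}} {c : C ⟶ Spec (CommRingCat.of k)}
  {ε : SchemeHomOver (𝟙 (Spec (CommRingCat.of k))) c} {𝒞 : LB.CurveDatum k}
  {ρ : Realizes c ε 𝒞} {R : Type u} [CommRing R] [Algebra k R]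

theorem WR_cover (ρ : Realizes c ε 𝒞) (R : Type u) [CommRing R] [Algebra k R] (x : XR c R) :
    x ∈ WR c R ρ.U₀ ∨ x ∈ WR c R ρ.U₁ := by
  have h : (pullback.fst c (tR k R)) x ∈ ρ.U₀ ⊔ ρ.U₁ := by
    rw [ρ.cover]
    trivial
  exact h

theorem WR_inf_le (ρ : Realizes c ε 𝒞) (R : Type u) [CommRing R] [Algebra k R] :
    WR c R ρ.U₀ ⊓ WR c R ρ.U₁ ≤ WR c R (ρ.U₀ ⊓ ρ.U₁) := fun _ h => h

theorem ChartRing.symm_resO0 (Θ : ChartRing ρ R) (a : Γ(XR c R, WR c R ρ.U₀)) :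
    Θ.Θ01.symm (resO (WR_mono c R (inf_le_left : ρ.U₀ ⊓ ρ.U₁ ≤ ρ.U₀)) a) =
      𝒞.ι0 R (Θ.Θ0.symm a) := by
  rw [RingEquiv.symm_apply_eq, ← Θ.resO_Θ0, RingEquiv.apply_symm_apply]

theorem ChartRing.symm_resO1 (Θ : ChartRing ρ R) (a : Γ(XR c R, WR c R ρ.U₁)) :
    Θ.Θ01.symm (resO (WR_mono c R (inf_le_right : ρ.U₀ ⊓ ρ.U₁ ≤ ρ.U₁)) a) =
      𝒞.ι1 R (Θ.Θ1.symm a) := by
  rw [RingEquiv.symm_apply_eq, ← Θ.resO_Θ1, RingEquiv.apply_symm_apply]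

theorem ChartRing.symm_x (Θ : ChartRing ρ R) (n : ℕ) :
    Θ.Θ0.symm (fstSec c R ρ.U₀ (ρ.φ0 𝒞.x0) ^ n) = ((1 : R) ⊗ₜ[k] 𝒞.x0) ^ n := by
  rw [RingEquiv.symm_apply_eq, map_pow, Θ.Θ0_x]

theorem ChartRing.symm_z (Θ : ChartRing ρ R) (n : ℕ) :
    Θ.Θ1.symm (fstSec c R ρ.U₁ (ρ.φ1 𝒞.z1) ^ n) = ((1 : R) ⊗ₜ[k] 𝒞.z1) ^ n := by
  rw [RingEquiv.symm_apply_eq, map_pow, Θ.Θ1_z]

theorem ChartRing.symm_resO_x (Θ : ChartRing ρ R) (n : ℕ) :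
    Θ.Θ01.symm (resO (WR_mono c R (inf_le_left : ρ.U₀ ⊓ ρ.U₁ ≤ ρ.U₀))
        (fstSec c R ρ.U₀ (ρ.φ0 𝒞.x0)) ^ n) = ((1 : R) ⊗ₜ[k] 𝒞.i0 𝒞.x0) ^ n := by
  rw [RingEquiv.symm_apply_eq, map_pow, ← Θ.Θ0_x, Θ.resO_Θ0]
  rfl

theorem ChartRing.symm_resO_z (Θ : ChartRing ρ R) (n : ℕ) :
    Θ.Θ01.symm (resO (WR_mono c R (inf_le_right : ρ.U₀ ⊓ ρ.U₁ ≤ ρ.U₁))
        (fstSec c R ρ.U₁ (ρ.φ1 𝒞.z1)) ^ n) = ((1 : R) ⊗ₜ[k] 𝒞.i1 𝒞.z1) ^ n := by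
  rw [RingEquiv.symm_apply_eq, map_pow, ← Θ.Θ1_z, Θ.resO_Θ1]
  rfl

/-- T3 for one triple, from the abstract form and the chart rings -/
theorem t3_of_abs (hABS : T3.Stmt_T3ABS.{u}) (Θ : ChartRing ρ R) (T : LB.Triple 𝒞 R) :
    ∃ L : (XR c R).Modules, Scheme.Modules.IsInvertible L ∧ IsTripleOf ρ R L T := by
  letI m0 : Module Γ(XR c R, WR c R ρ.U₀) T.P0 := Module.compHom T.P0 Θ.Θ0.symm.toRingHom
  letI m1 : Module Γ(XR c R, WR c R ρ.U₁) T.P1 := Module.compHom T.P1 Θ.Θ1.symm.toRingHom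
  letI m01 : Module Γ(XR c R, WR c R (ρ.U₀ ⊓ ρ.U₁)) T.P01 :=
    Module.compHom T.P01 Θ.Θ01.symm.toRingHom
  have hs0 : ∀ (a : Γ(XR c R, WR c R ρ.U₀)) (p : T.P0), a • p = Θ.Θ0.symm a • p :=
    fun _ _ => rfl
  have hs1 : ∀ (a : Γ(XR c R, WR c R ρ.U₁)) (p : T.P1), a • p = Θ.Θ1.symm a • p :=
    fun _ _ => rfl
  have hs01 : ∀ (a : Γ(XR c R, WR c R (ρ.U₀ ⊓ ρ.U₁))) (p : T.P01), a • p = Θ.Θ01.symm a • p :=
    fun _ _ => rfl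
  have i0 : Module.Invertible Γ(XR c R, WR c R ρ.U₀) T.P0 :=
    haveI := T.inv0
    invertible_compHom Θ.Θ0.symm T.P0
  have i1 : Module.Invertible Γ(XR c R, WR c R ρ.U₁) T.P1 :=
    haveI := T.inv1
    invertible_compHom Θ.Θ1.symm T.P1
  obtain ⟨L, hL, g0, g1, g01, hg0, hg1, hg01, hr0, hr1⟩ :=
    hABS (XR c R) (WR c R ρ.U₀) (WR c R ρ.U₁) (WR c R (ρ.U₀ ⊓ ρ.U₁)) Θ.aff0 Θ.aff1
      (WR_cover ρ R) (WR_mono c R inf_le_left) (WR_mono c R inf_le_right) (WR_inf_le ρ R)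
      (fstSec c R ρ.U₀ (ρ.φ0 𝒞.x0)) (fstSec c R ρ.U₁ (ρ.φ1 𝒞.z1)) (basicOpen_x ρ R)
      (basicOpen_z ρ R) T.P0 T.P1 T.P01 i0 i1 T.r0.toAddMonoidHom T.r1.toAddMonoidHom
      (fun a p => by
        change T.r0 (Θ.Θ0.symm a • p) = Θ.Θ01.symm (resO _ a) • T.r0 p
        rw [T.r0.map_smulₛₗ, Θ.symm_resO0])
      (fun a p => by
        change T.r1 (Θ.Θ1.symm a • p) = Θ.Θ01.symm (resO _ a) • T.r1 p
        rw [T.r1.map_smulₛₗ, Θ.symm_resO1])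
      (fun m => by
        obtain ⟨n, p, h⟩ := T.surj0 m
        refine ⟨n, p, ?_⟩
        change Θ.Θ01.symm (resO _ _ ^ n) • m = T.r0 p
        rw [Θ.symm_resO_x]
        exact h)
      (fun p hp => by
        obtain ⟨n, h⟩ := T.ker0 p hp
        refine ⟨n, ?_⟩
        change Θ.Θ0.symm (_ ^ n) • p = 0
        rw [Θ.symm_x]
        exact h)
      (fun m => by
        obtain ⟨n, p, h⟩ := T.surj1 m
        refine ⟨n, p, ?_⟩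
        change Θ.Θ01.symm (resO _ _ ^ n) • m = T.r1 p
        rw [Θ.symm_resO_z]
        exact h)
      (fun p hp => by
        obtain ⟨n, h⟩ := T.ker1 p hp
        refine ⟨n, ?_⟩
        change Θ.Θ1.symm (_ ^ n) • p = 0
        rw [Θ.symm_z]
        exact h)
  refine ⟨L, hL, ⟨⟨g0, g1, g01, ?_, ?_, ?_, hr0, hr1⟩⟩⟩
  · intro r b p
    rw [← Θ.h0, ← hg0, hs0, RingEquiv.symm_apply_apply]
  · intro r b p
    rw [← Θ.h1, ← hg1, hs1, RingEquiv.symm_apply_apply]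
  · intro r b p
    rw [← Θ.h01, ← hg01, hs01, RingEquiv.symm_apply_apply]

/-- **BRIDGE-T3**, from the abstract form `T3ABS`. -/
theorem stmt_T3_of_ABS (hABS : T3.Stmt_T3ABS.{u}) : Stmt_T3.{u} := by
  intro k _ C c ε 𝒞 _ ρ R _ _ T
  obtain ⟨Θ⟩ := nonempty_chartRing ρ R
  exact t3_of_abs hABS Θ T

end

end Fermat.Agent.S25.Bridge.H24
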