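import Fermat.Agent.S25.Bridge.H18_T3Abs
import Fermat.Agent.S25.Bridge.H17_TildeInv
import Fermat.Agent.S25.Bridge.H24_T3Wire

/-!
# S25, BRIDGE-T3 from GLUE2 (helper18)

`stmt_T3ABS_of_GLUE2 : Stmt_GLUE2 → Stmt_T3ABS` and `stmt_T3_of_GLUE2 : Stmt_GLUE2 → Stmt_T3`
(TILDEINV: helper17, wiring T3ABS → T3: helper24).
-/

set_option autoImplicit false

universe u

namespace Fermat.Agent.S25.Bridge.H18

/-- **T3ABS** from GLUE2 -/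
theorem stmt_T3ABS_of_GLUE2 (hG : T3.Stmt_GLUE2.{u}) : T3.Stmt_T3ABS.{u} :=
  stmt_T3ABS_of H17.stmt_TILDEINV hG

/-- **BRIDGE-T3** from GLUE2 -/
theorem stmt_T3_of_GLUE2 (hG : T3.Stmt_GLUE2.{u}) : Stmt_T3.{u} :=
  H24.stmt_T3_of_ABS (stmt_T3ABS_of_GLUE2 hG)

end Fermat.Agent.S25.Bridge.H18
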