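import Mathlib

/-!
# S25, BRIDGE-T3: comparison of two localisations of a module (helper18)

`exists_locIso`: two semilinear maps `r : P → M`, `r' : P → M'` to modules over `A' = A[1/f]` which are
both localisations of `P` at `f` (in the explicit form used in the definition of triples) are
related by a unique `A'`-linear isomorphism `M ≃ M'`.
-/

set_option autoImplicit false
set_option linter.style.haveILetI false

universe u

namespace Fermat.Agent.S25.Bridge.H18

section

variable {A A' : Type u} [CommRing A] [CommRing A'] [Algebra A A'] (f : A)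
  {P M : Type u} [AddCommGroup P] [Module A P] [AddCommGroup M] [Module A' M]

/-- the explicit localisation conditions give `IsLocalizedModule` -/
theorem isLocalizedModule_of_explicit (hf : IsUnit (algebraMap A A' f))
    (r : P →+ M) (hr : ∀ (a : A) (p : P), r (a • p) = algebraMap A A' a • r p)
    (surj : ∀ m : M, ∃ (n : ℕ) (p : P), (algebraMap A A' f) ^ n • m = r p)
    (ker : ∀ p : P, r p = 0 → ∃ n : ℕ, f ^ n • p = 0) :
    letI : Module A M := Module.compHom M (algebraMap A A')
    IsLocalizedModule (Submonoid.powers f)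
      ({ toFun := r, map_add' := map_add r, map_smul' := hr } : P →ₗ[A] M) := by
  letI : Module A M := Module.compHom M (algebraMap A A')
  refine ⟨?_, ?_, ?_⟩
  · rintro ⟨_, n, rfl⟩
    rw [Module.End.isUnit_iff]
    obtain ⟨u, hu⟩ := (hf.pow n)
    constructor
    · intro x y hxy
      have h1 : (algebraMap A A' f) ^ n • x = (algebraMap A A' f) ^ n • y := by
        have : (algebraMap A A' (f ^ n)) • x = (algebraMap A A' (f ^ n)) • y := hxy
        rwa [map_pow] at this
      rw [← hu] at h1
      have h2 := congrArg (fun z => (↑u⁻¹ : A') • z) h1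
      simpa only [smul_smul, Units.inv_mul, one_smul] using h2
    · intro y
      refine ⟨(↑u⁻¹ : A') • y, ?_⟩
      change (algebraMap A A' (f ^ n)) • ((↑u⁻¹ : A') • y) = y
      rw [map_pow, ← hu, smul_smul, Units.mul_inv, one_smul]
  · intro m
    obtain ⟨n, p, h⟩ := surj m
    refine ⟨(p, ⟨f ^ n, n, rfl⟩), ?_⟩
    change (algebraMap A A' (f ^ n)) • m = r p
    rw [map_pow]
    exact h
  · intro x y hxy
    have h0 : r (x - y) = 0 := by
      rw [map_sub, sub_eq_zero]
      exact hxy
    obtain ⟨n, hn⟩ := ker _ h0
    refine ⟨⟨f ^ n, n, rfl⟩, ?_⟩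
    change f ^ n • x = f ^ n • y
    rw [smul_sub, sub_eq_zero] at hn
    exact hn

variable {M' : Type u} [AddCommGroup M'] [Module A' M']

/-- **comparison of two localisations** -/
theorem exists_locIso [IsLocalization.Away f A']
    (r : P →+ M) (r' : P →+ M')
    (hr : ∀ (a : A) (p : P), r (a • p) = algebraMap A A' a • r p)
    (hr' : ∀ (a : A) (p : P), r' (a • p) = algebraMap A A' a • r' p)
    (surj : ∀ m : M, ∃ (n : ℕ) (p : P), (algebraMap A A' f) ^ n • m = r p)
    (ker : ∀ p : P, r p = 0 → ∃ n : ℕ, f ^ n • p = 0)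
    (surj' : ∀ m : M', ∃ (n : ℕ) (p : P), (algebraMap A A' f) ^ n • m = r' p)
    (ker' : ∀ p : P, r' p = 0 → ∃ n : ℕ, f ^ n • p = 0) :
    ∃ l : M ≃+ M', (∀ p, l (r p) = r' p) ∧ ∀ (b : A') (m : M), l (b • m) = b • l m := by
  have hf : IsUnit (algebraMap A A' f) := IsLocalization.Away.algebraMap_isUnit f
  letI : Module A M := Module.compHom M (algebraMap A A')
  letI : Module A M' := Module.compHom M' (algebraMap A A')
  haveI : IsScalarTower A A' M := IsScalarTower.of_algebraMap_smul fun _ _ => rfl
  haveI : IsScalarTower A A' M' := IsScalarTower.of_algebraMap_smul fun _ _ => rfl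
  let rL : P →ₗ[A] M := { toFun := r, map_add' := map_add r, map_smul' := hr }
  let rL' : P →ₗ[A] M' := { toFun := r', map_add' := map_add r', map_smul' := hr' }
  haveI h1 : IsLocalizedModule (Submonoid.powers f) rL :=
    isLocalizedModule_of_explicit f hf r hr surj ker
  haveI h2 : IsLocalizedModule (Submonoid.powers f) rL' :=
    isLocalizedModule_of_explicit f hf r' hr' surj' ker'
  let e : M ≃ₗ[A] M' := IsLocalizedModule.linearEquiv (Submonoid.powers f) rL rL'
  refine ⟨e.toAddEquiv, fun p => ?_, fun b m => ?_⟩
  · exact IsLocalizedModule.linearEquiv_apply (Submonoid.powers f) rL rL' p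
  · exact (IsLocalization.linearMap_compatibleSMul (Submonoid.powers f) A' M M').map_smul
      e.toLinearMap b m

end

end Fermat.Agent.S25.Bridge.H18
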