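import Fermat.Agent.S25.Bridge.H18_T3Loc
import Fermat.Agent.S25.Bridge.H18_T3Alg

/-!
# S25, BRIDGE-T3: the abstract form `T3ABS` from `TILDEINV` and `GLUE2` (helper18)

`stmt_T3ABS_of : Stmt_TILDEINV → Stmt_GLUE2 → Stmt_T3ABS`.

The sheaves `F_i := locSheaf hW_i P_i` on `X`; over `W₀₁` both have the module of sections `P₀₁`
(`exists_locIso`), which gives the compatible family `θ` (`affhom_of_restrict`); `GLUE2` glues.
-/

set_option autoImplicit false
set_option linter.style.haveILetI false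

universe u

open CategoryTheory AlgebraicGeometry TopologicalSpace Opposite

namespace Fermat.Agent.S25.Bridge.H18

open Fermat.Agent.S25.Glue

variable {X : Scheme.{u}}

/-- the ring of a basic open is the localisation -/
theorem isLocalization_of_basicOpen_eq {W : X.Opens} (hW : IsAffineOpen W) (f : Γ(X, W))
    (W' : X.Opens) (hf : X.basicOpen f = W') (hle : W' ≤ W) :
    @IsLocalization.Away Γ(X, W) _ f Γ(X, W') _ (resO hle).toAlgebra := by
  subst hf
  exact hW.isLocalization_basicOpen f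

/-- the sections over a basic open `W' = D(f)` of the sheaf of `P` are "the" localisation of `P` -/
theorem exists_lam {W : X.Opens} (hW : IsAffineOpen W) (f : Γ(X, W))
    (W' : X.Opens) (hf : X.basicOpen f = W') (hle : W' ≤ W)
    (P P' : Type u) [AddCommGroup P] [Module Γ(X, W) P] [AddCommGroup P'] [Module Γ(X, W') P']
    (r : P →+ P') (hr : ∀ (a : Γ(X, W)) (p : P), r (a • p) = resO hle a • r p)
    (surj : ∀ m : P', ∃ (n : ℕ) (p : P), (resO hle f) ^ n • m = r p)
    (ker : ∀ p : P, r p = 0 → ∃ n : ℕ, f ^ n • p = 0) :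
    ∃ l : P' ≃+ Γ(locSheaf hW P, W'), (∀ p, l (r p) = kap hW P W' p) ∧
      ∀ (b : Γ(X, W')) (m : P'), l (b • m) = b • l m := by
  letI : Algebra Γ(X, W) Γ(X, W') := (resO hle).toAlgebra
  haveI : IsLocalization.Away f Γ(X, W') := isLocalization_of_basicOpen_eq hW f W' hf hle
  exact exists_locIso f r (kap hW P W') hr (kap_smul hW P hle) surj ker
    (kap_surj hW P f W' hf hle) (kap_ker hW P f W' hf)

/-- the additive equivalence of a morphism of sheaves of modules which is bijective on the sections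
over `V` -/
noncomputable def appAddEquiv {L F : X.Modules} (φ : L ⟶ F) (V : X.Opens)
    (h : Function.Bijective (φ.app V)) : Γ(L, V) ≃+ Γ(F, V) :=
  AddEquiv.ofBijective (φ.app V).hom h

theorem appAddEquiv_apply {L F : X.Modules} (φ : L ⟶ F) (V : X.Opens)
    (h : Function.Bijective (φ.app V)) (t : Γ(L, V)) : appAddEquiv φ V h t = φ.app V t := rfl

theorem appAddEquiv_symm_smul {L F : X.Modules} (φ : L ⟶ F) (V : X.Opens)
    (h : Function.Bijective (φ.app V)) (a : Γ(X, V)) (s : Γ(F, V)) :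
    (appAddEquiv φ V h).symm (a • s) = a • (appAddEquiv φ V h).symm s := by
  apply (appAddEquiv φ V h).injective
  rw [AddEquiv.apply_symm_apply, appAddEquiv_apply, Scheme.Modules.Hom.app_smul,
    ← appAddEquiv_apply φ V h, AddEquiv.apply_symm_apply]

theorem app_res {L F : X.Modules} (φ : L ⟶ F) {U V : X.Opens} (h : V ≤ U) (t : Γ(L, U)) :
    φ.app V (res L h t) = res F h (φ.app U t) :=
  H56.hom_app_resM φ h t

/-- **T3ABS** from TILDEINV and GLUE2 -/
theorem stmt_T3ABS_of (hT : T3.Stmt_TILDEINV.{u}) (hG : T3.Stmt_GLUE2.{u}) :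
    T3.Stmt_T3ABS.{u} := by
  intro X W0 W1 W01 hW0 hW1 hcov hle0 hle1 hinf f0 f1 hf0 hf1 P0 P1 P01 _ _ _ _ _ _ hP0 hP1
    r0 r1 hr0 hr1 surj0 ker0 surj1 ker1
  have hW01 : IsAffineOpen W01 := by
    rw [← hf0]
    exact hW0.basicOpen f0
  -- the comparison isomorphisms over `W01`
  obtain ⟨l0, hl0, hl0s⟩ := exists_lam hW0 f0 W01 hf0 hle0 P0 P01 r0 hr0 surj0 ker0
  obtain ⟨l1, hl1, hl1s⟩ := exists_lam hW1 f1 W01 hf1 hle1 P1 P01 r1 hr1 surj1 ker1
  let e : Γ(locSheaf hW0 P0, W01) ≃ₗ[Γ(X, W01)] Γ(locSheaf hW1 P1, W01) :=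
    { toFun := fun t => l1 (l0.symm t)
      invFun := fun t => l0 (l1.symm t)
      map_add' := fun s t => by rw [map_add, map_add]
      map_smul' := fun b t => by
        change l1 (l0.symm (b • t)) = b • l1 (l0.symm t)
        have : l0.symm (b • t) = b • l0.symm t := by
          apply l0.injective
          rw [AddEquiv.apply_symm_apply, hl0s, AddEquiv.apply_symm_apply]
        rw [this, hl1s]
      left_inv := fun t => by
        change l0 (l1.symm (l1 (l0.symm t))) = t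
        rw [AddEquiv.symm_apply_apply, AddEquiv.apply_symm_apply]
      right_inv := fun t => by
        change l1 (l0.symm (l0 (l1.symm t))) = t
        rw [AddEquiv.symm_apply_apply, AddEquiv.apply_symm_apply] }
  have he : ∀ m : P01, e (l0 m) = l1 m := fun m => by
    change l1 (l0.symm (l0 m)) = l1 m
    rw [AddEquiv.symm_apply_apply]
  -- quasi-coherence over `W01`
  haveI q0 : ((locSheaf hW0 P0).restrict hW01.fromSpec).IsQuasicoherent :=
    isQuasicoherent_restrict_of_gen _ hW01 fun x hx => by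
      obtain ⟨U, -, hxU, s, hs⟩ := exists_isGen_locSheaf hW0 P0 hT hP0 x (hle0 hx)
      exact ⟨U, hxU, s, hs⟩
  haveI q1 : ((locSheaf hW1 P1).restrict hW01.fromSpec).IsQuasicoherent :=
    isQuasicoherent_restrict_of_gen _ hW01 fun x hx => by
      obtain ⟨U, -, hxU, s, hs⟩ := exists_isGen_locSheaf hW1 P1 hT hP1 x (hle1 hx)
      exact ⟨U, hxU, s, hs⟩
  obtain ⟨E, hE1, hE2⟩ := affhom_of_restrict W01 hW01 e
  -- gluing
  obtain ⟨L, π0, π1, hπ0, hπ1, hθ⟩ := hG X W0 W1 hcov (locSheaf hW0 P0) (locSheaf hW1 P1)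
    (supp_bijective hW0 P0) (supp_bijective hW1 P1)
    (fun V h0 h1 => E V ((le_inf h0 h1).trans hinf))
    (fun V V' h0 h1 h t => hE2 V V' ((le_inf h0 h1).trans hinf) h t)
  have hinvL : Scheme.Modules.IsInvertible L := by
    rw [stmt_BGEN]
    intro x
    rcases hcov x with hx | hx
    · obtain ⟨U, hU, hxU, s, hs⟩ := exists_isGen_locSheaf hW0 P0 hT hP0 x hx
      obtain ⟨t, ht⟩ := (hπ0 U hU).2 s
      refine ⟨U, hxU, t, isGen_of_bijective_app π0 U (fun V hV => hπ0 V (hV.trans hU)) t ?_⟩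
      rw [ht]
      exact hs
    · obtain ⟨U, hU, hxU, s, hs⟩ := exists_isGen_locSheaf hW1 P1 hT hP1 x hx
      obtain ⟨t, ht⟩ := (hπ1 U hU).2 s
      refine ⟨U, hxU, t, isGen_of_bijective_app π1 U (fun V hV => hπ1 V (hV.trans hU)) t ?_⟩
      rw [ht]
      exact hs
  refine ⟨L, hinvL, ?_⟩
  let k0 : P0 ≃+ Γ(locSheaf hW0 P0, W0) :=
    AddEquiv.ofBijective (kap hW0 P0 W0) (kap_bijective hW0 P0 W0 le_rfl)
  let k1 : P1 ≃+ Γ(locSheaf hW1 P1, W1) :=
    AddEquiv.ofBijective (kap hW1 P1 W1) (kap_bijective hW1 P1 W1 le_rfl)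
  let a0 := appAddEquiv π0 W0 (hπ0 W0 le_rfl)
  let a1 := appAddEquiv π1 W1 (hπ1 W1 le_rfl)
  let a01 := appAddEquiv π0 W01 (hπ0 W01 hle0)
  refine ⟨k0.trans a0.symm, k1.trans a1.symm, l0.trans a01.symm, ?_, ?_, ?_, ?_, ?_⟩
  · intro a p
    change a0.symm (kap hW0 P0 W0 (a • p)) = a • a0.symm (kap hW0 P0 W0 p)
    rw [kap_smul hW0 P0 le_rfl, H24.resO_self, appAddEquiv_symm_smul]
  · intro a p
    change a1.symm (kap hW1 P1 W1 (a • p)) = a • a1.symm (kap hW1 P1 W1 p)
    rw [kap_smul hW1 P1 le_rfl, H24.resO_self, appAddEquiv_symm_smul]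
  · intro b m
    change a01.symm (l0 (b • m)) = b • a01.symm (l0 m)
    rw [hl0s, appAddEquiv_symm_smul]
  · intro p
    change a01.symm (l0 (r0 p)) = res L hle0 (a0.symm (kap hW0 P0 W0 p))
    apply a01.injective
    rw [AddEquiv.apply_symm_apply, hl0, appAddEquiv_apply, app_res, ← appAddEquiv_apply π0 W0
      (hπ0 W0 le_rfl), AddEquiv.apply_symm_apply, kap_res]
  · intro p
    change a01.symm (l0 (r1 p)) = res L hle1 (a1.symm (kap hW1 P1 W1 p))
    apply (hπ1 W01 hle1).1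
    rw [app_res, ← appAddEquiv_apply π1 W1 (hπ1 W1 le_rfl), AddEquiv.apply_symm_apply, kap_res,
      ← hθ W01 hle0 hle1, ← appAddEquiv_apply π0 W01 (hπ0 W01 hle0), AddEquiv.apply_symm_apply]
    change E W01 _ (l0 (r1 p)) = _
    rw [hE1, he, hl1]

end Fermat.Agent.S25.Bridge.H18
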