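import Fermat.Agent.S25.Bridge.T3Defs
import Fermat.Agent.S25.Glue.H18_Local
import Fermat.Agent.S25.Glue.H18_BGen
import Fermat.Agent.S25.Bridge.H24_QCLoc
import Fermat.Agent.S25.Bridge.H54_AffHom

/-!
# S25, BRIDGE-T3: the sheaf of a module over the ring of an affine open (helper18)

For an affine open `W` of a scheme `X` and a module `P` over `Γ(X, W)`:
`locSheaf hW P := (hW.fromSpec)_* (P^~)`, a sheaf of modules on `X` with `Γ(locSheaf, W) = P`,
whose sections over a basic open `D(f) ≤ W` are the localisation of `P` at `f`, with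
`Γ(locSheaf, V) = Γ(locSheaf, V ⊓ W)`, and with local generating sections over `W` if `P` is invertible.
-/

set_option autoImplicit false
universe u
open CategoryTheory AlgebraicGeometry TopologicalSpace Opposite

namespace Fermat.Agent.S25.Bridge.H18

variable {X : Scheme.{u}} {W : X.Opens} (hW : IsAffineOpen W)
  (P : Type u) [AddCommGroup P] [Module Γ(X, W) P]

/-- the sheaf of modules on `X` of a module over the ring of an affine open -/
noncomputable def locSheaf : X.Modules :=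
  (Scheme.Modules.pushforward hW.fromSpec).obj (tilde (ModuleCat.of Γ(X, W) P))

/-- the map from the module to the sections of its sheaf -/
noncomputable def kap (V : X.Opens) : P →+ Γ(locSheaf hW P, V) :=
  (tilde.toOpen (ModuleCat.of Γ(X, W) P) (hW.fromSpec ⁻¹ᵁ V)).hom.toAddMonoidHom

theorem kap_res {V V' : X.Opens} (h : V' ≤ V) (p : P) :
    res (locSheaf hW P) h (kap hW P V p) = kap hW P V' p := rfl

theorem fromSpec_app_resO {V : X.Opens} (h : V ≤ W) (a : Γ(X, W)) :
    hW.fromSpec.app V (resO h a) =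
      (Spec Γ(X, W)).presheaf.map (hW.fromSpec ⁻¹ᵁ V).leTop.op ((Scheme.ΓSpecIso Γ(X, W)).inv a) := by
  have h1 := hW.fromSpec.naturality (homOfLE h).op
  have h2 := hW.fromSpec_app_self
  have h3 : hW.fromSpec.app V (resO h a) =
      (Spec Γ(X, W)).presheaf.map ((Opens.map hW.fromSpec.base).map (homOfLE h)).op
        (hW.fromSpec.app W a) := congr($h1 a)
  rw [h3, h2]
  rw [← ConcreteCategory.comp_apply, ← ConcreteCategory.comp_apply, Category.assoc,
    ← Functor.map_comp]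
  rfl

/-- the two actions of `Γ(X, W)` on the sections over `V ≤ W` agree -/
theorem smulR_eq {V : X.Opens} (h : V ≤ W) (a : Γ(X, W))
    (t : Γ(tilde (ModuleCat.of Γ(X, W) P), hW.fromSpec ⁻¹ᵁ V)) :
    (a • t : Γ(tilde (ModuleCat.of Γ(X, W) P), hW.fromSpec ⁻¹ᵁ V)) =
      (resO h a • (show Γ(locSheaf hW P, V) from t) : Γ(locSheaf hW P, V)) := by
  change _ = (hW.fromSpec.app V (resO h a)) •
    (show Γ(tilde (ModuleCat.of Γ(X, W) P), hW.fromSpec ⁻¹ᵁ V) from t)
  rw [fromSpec_app_resO]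
  rfl

theorem kap_smul {V : X.Opens} (h : V ≤ W) (a : Γ(X, W)) (p : P) :
    kap hW P V (a • p) = resO h a • kap hW P V p := by
  have h1 : (tilde.toOpen (ModuleCat.of Γ(X, W) P) (hW.fromSpec ⁻¹ᵁ V)).hom (a • p) =
      a • (tilde.toOpen (ModuleCat.of Γ(X, W) P) (hW.fromSpec ⁻¹ᵁ V)).hom p :=
    map_smul _ a p
  exact h1.trans (smulR_eq hW P h a _)

theorem toOpen_bijective_of_eq_top {R : CommRingCat.{u}} (M : ModuleCat.{u} R)
    (U : (Spec R).Opens) (hU : U = ⊤) : Function.Bijective (tilde.toOpen M U).hom := by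
  subst hU
  exact (ConcreteCategory.isIso_iff_bijective (tilde.toOpen M ⊤)).1 inferInstance

theorem kap_bijective (V : X.Opens) (hV : W ≤ V) : Function.Bijective (kap hW P V) := by
  apply toOpen_bijective_of_eq_top
  rw [eq_top_iff, ← hW.fromSpec_preimage_self]
  exact fun x hx => hV hx

theorem toOpen_isLocalizedModule {R : CommRingCat.{u}} (M : ModuleCat.{u} R) (f : R)
    (U : (Spec R).Opens) (hU : U = PrimeSpectrum.basicOpen f) :
    IsLocalizedModule (Submonoid.powers f) (tilde.toOpen M U).hom := by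
  subst hU
  infer_instance

theorem kap_surj (f : Γ(X, W)) (W' : X.Opens) (hf : X.basicOpen f = W') (hle : W' ≤ W)
    (t : Γ(locSheaf hW P, W')) :
    ∃ (n : ℕ) (p : P), (resO hle f) ^ n • t = kap hW P W' p := by
  have hU : hW.fromSpec ⁻¹ᵁ W' = PrimeSpectrum.basicOpen f := by
    rw [← hf]; exact hW.fromSpec_preimage_basicOpen f
  have := toOpen_isLocalizedModule (ModuleCat.of Γ(X, W) P) f _ hU
  obtain ⟨⟨p, ⟨_, n, rfl⟩⟩, hp⟩ := IsLocalizedModule.surj (Submonoid.powers f)
    (tilde.toOpen (ModuleCat.of Γ(X, W) P) (hW.fromSpec ⁻¹ᵁ W')).hom t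
  refine ⟨n, p, ?_⟩
  rw [← map_pow]
  exact (smulR_eq hW P hle (f ^ n) t).symm.trans hp

theorem kap_ker (f : Γ(X, W)) (W' : X.Opens) (hf : X.basicOpen f = W')
    (p : P) (hp : kap hW P W' p = 0) : ∃ n : ℕ, f ^ n • p = 0 := by
  have hU : hW.fromSpec ⁻¹ᵁ W' = PrimeSpectrum.basicOpen f := by
    rw [← hf]; exact hW.fromSpec_preimage_basicOpen f
  have := toOpen_isLocalizedModule (ModuleCat.of Γ(X, W) P) f _ hU
  have h0 : (tilde.toOpen (ModuleCat.of Γ(X, W) P) (hW.fromSpec ⁻¹ᵁ W')).hom p =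
      (tilde.toOpen (ModuleCat.of Γ(X, W) P) (hW.fromSpec ⁻¹ᵁ W')).hom 0 := by
    rw [map_zero]; exact hp
  obtain ⟨⟨_, n, rfl⟩, hn⟩ := IsLocalizedModule.exists_of_eq (S := Submonoid.powers f) h0
  refine ⟨n, ?_⟩
  have h1 : (f ^ n) • p = (f ^ n) • (0 : P) := hn
  rwa [smul_zero] at h1

/-- the sections over `V` are the sections over `V ⊓ W` -/
theorem supp_bijective (V : X.Opens) :
    Function.Bijective (res (locSheaf hW P) (inf_le_left : V ⊓ W ≤ V)) := by
  have he : hW.fromSpec ⁻¹ᵁ (V ⊓ W) = hW.fromSpec ⁻¹ᵁ V := by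
    apply le_antisymm
    · exact fun x hx => hx.1
    · intro x hx
      refine ⟨hx, ?_⟩
      have : hW.fromSpec x ∈ hW.fromSpec.opensRange := ⟨x, rfl⟩
      rwa [hW.opensRange_fromSpec] at this
  constructor
  · exact H24.res_injective_of_eq (tilde (ModuleCat.of Γ(X, W) P)) he
  · intro t
    refine ⟨res (tilde (ModuleCat.of Γ(X, W) P)) he.ge
      (show Γ(tilde (ModuleCat.of Γ(X, W) P), hW.fromSpec ⁻¹ᵁ (V ⊓ W)) from t), ?_⟩
    exact (H24.res_res (tilde (ModuleCat.of Γ(X, W) P)) he.ge he.le _).trans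
      (H24.res_self (tilde (ModuleCat.of Γ(X, W) P)) _)

/-! ## Local generators -/

open Fermat.Agent.S25.Glue in
/-- generating sections of a sheaf on `Y` give generating sections of its push-forward along an
open immersion -/
theorem exists_isGen_pushforward {Y : Scheme.{u}} (j : Y ⟶ X) [IsOpenImmersion j]
    (G : Y.Modules) (U' : Y.Opens) (s : Γ(G, U')) (hs : IsGen G U' s) :
    ∃ t : Γ((Scheme.Modules.pushforward j).obj G, j ''ᵁ U'),
      IsGen ((Scheme.Modules.pushforward j).obj G) (j ''ᵁ U') t := by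
  let e : G ≅ ((Scheme.Modules.pushforward j).obj G).restrict j :=
    ((Scheme.Modules.restrictFunctorAdjCounitIso j).app G).symm
  have h1 := hs.of_iso e
  exact ⟨_, isGen_of_restrict j ((Scheme.Modules.pushforward j).obj G) U' _ h1⟩

open Fermat.Agent.S25.Glue in
/-- **local generators**: the sheaf of an invertible module has generating sections locally on `W` -/
theorem exists_isGen_locSheaf (hT : T3.Stmt_TILDEINV.{u}) (hP : Module.Invertible Γ(X, W) P)
    (x : X) (hx : x ∈ W) :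
    ∃ U : X.Opens, U ≤ W ∧ x ∈ U ∧ ∃ s : Γ(locSheaf hW P, U), IsGen (locSheaf hW P) U s := by
  have hinv := hT Γ(X, W) (ModuleCat.of Γ(X, W) P) hP
  have hx' : x ∈ hW.fromSpec.opensRange := by rwa [hW.opensRange_fromSpec]
  obtain ⟨y, rfl⟩ := hx'
  obtain ⟨U', hyU', s, hs⟩ := (stmt_BGEN _ _).1 hinv y
  obtain ⟨t, ht⟩ := exists_isGen_pushforward hW.fromSpec _ U' s hs
  refine ⟨hW.fromSpec ''ᵁ U', ?_, ⟨y, hyU', rfl⟩, t, ht⟩
  have := hW.fromSpec.image_le_opensRange U'
  rwa [hW.opensRange_fromSpec] at this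

open Fermat.Agent.S25.Glue Fermat.Agent.S25.Glue.H56 in
/-- a section is generating if its image under a morphism which is bijective on the sections over
all smaller opens is generating -/
theorem isGen_of_bijective_app {L F : X.Modules} (φ : L ⟶ F) (U : X.Opens)
    (hφ : ∀ V : X.Opens, V ≤ U → Function.Bijective (φ.app V)) (t : Γ(L, U))
    (ht : IsGen F U (φ.app U t)) : IsGen L U t := by
  rw [isGen_iff] at ht ⊢
  intro V hV
  have h1 := ht V hV
  have h2 : (fun a : Γ(X, V) => a • resM F hV (φ.app U t)) =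
      (φ.app V) ∘ (fun a : Γ(X, V) => a • resM L hV t) := by
    funext a
    change _ = φ.app V (a • resM L hV t)
    rw [Scheme.Modules.Hom.app_smul, hom_app_resM]
  rw [h2] at h1
  exact (Function.Bijective.of_comp_iff' (hφ V hV) _).1 h1

open Fermat.Agent.S25.Glue in
/-- a sheaf of modules with local generating sections over an affine open `W'` restricts to a
quasi-coherent sheaf on `Spec Γ(X, W')` -/
theorem isQuasicoherent_restrict_of_gen (F : X.Modules) {W' : X.Opens} (hW' : IsAffineOpen W')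
    (hgen : ∀ x : X, x ∈ W' → ∃ U : X.Opens, x ∈ U ∧ ∃ s : Γ(F, U), IsGen F U s) :
    (F.restrict hW'.fromSpec).IsQuasicoherent := by
  apply H24.isQuasicoherent_of_isInvertible
  rw [stmt_BGEN]
  intro y
  have hy : hW'.fromSpec y ∈ W' := by
    have : hW'.fromSpec y ∈ hW'.fromSpec.opensRange := ⟨y, rfl⟩
    rwa [hW'.opensRange_fromSpec] at this
  obtain ⟨U, hxU, s, hs⟩ := hgen _ hy
  have hle : hW'.fromSpec ''ᵁ (hW'.fromSpec ⁻¹ᵁ U) ≤ U := by
    rintro _ ⟨z, hz, rfl⟩
    exact hz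
  exact ⟨hW'.fromSpec ⁻¹ᵁ U, hxU, _, isGen_restrict_of hW'.fromSpec F _ _ (hs.mono hle)⟩

/-! ## AFFHOM for sheaves which are quasi-coherent over the affine open -/

open Fermat.Agent.S25.Glue Fermat.Agent.S25.Glue.H56 H54 in
/-- **AFFHOM** (existence), for sheaves of modules whose restrictions to `Spec Γ(X, W)` are
quasi-coherent. -/
theorem affhom_of_restrict {L L' : X.Modules} (W : X.Opens) (hW : IsAffineOpen W)
    [(L.restrict hW.fromSpec).IsQuasicoherent] [(L'.restrict hW.fromSpec).IsQuasicoherent]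
    (e : Γ(L, W) ≃ₗ[Γ(X, W)] Γ(L', W)) :
    ∃ E : ∀ V : X.Opens, V ≤ W → (Γ(L, V) ≃ₗ[Γ(X, V)] Γ(L', V)),
      (∀ p, E W le_rfl p = e p) ∧
      ∀ (V V' : X.Opens) (hV : V ≤ W) (hV' : V' ≤ V) (p : Γ(L, V)),
        E V' (hV'.trans hV) (res L hV' p) = res L' hV' (E V hV p) := by
  obtain ⟨φ, hφ⟩ := spec_exists_hom (topMap hW e.toLinearMap)
  obtain ⟨ψ, hψ⟩ := spec_exists_hom (topMap hW e.symm.toLinearMap)
  have hφψ : φ ≫ ψ = 𝟙 _ := by
    apply spec_hom_ext
    intro x
    rw [Scheme.Modules.Hom.comp_app, Scheme.Modules.Hom.id_app]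
    change ψ.app ⊤ (φ.app ⊤ x) = x
    rw [hφ, hψ, topMap_apply, topMap_apply, ofR_toR, resM_resM, resM_id]
    simp only [LinearEquiv.coe_coe, LinearEquiv.symm_apply_apply]
    rw [resM_resM, resM_id, toR_ofR]
  have hψφ : ψ ≫ φ = 𝟙 _ := by
    apply spec_hom_ext
    intro x
    rw [Scheme.Modules.Hom.comp_app, Scheme.Modules.Hom.id_app]
    change φ.app ⊤ (ψ.app ⊤ x) = x
    rw [hφ, hψ, topMap_apply, topMap_apply, ofR_toR, resM_resM, resM_id]
    simp only [LinearEquiv.coe_coe, LinearEquiv.apply_symm_apply]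
    rw [resM_resM, resM_id, toR_ofR]
  let Fφ := famOfHom hW.fromSpec (fromSpec_hW2 hW) φ
  let Fψ := famOfHom hW.fromSpec (fromSpec_hW2 hW) ψ
  have hl : ∀ V hV (m : Γ(L, V)), Fψ.map V hV (Fφ.map V hV m) = m := by
    intro V hV m
    rw [← famOfHom_comp, hφψ, famOfHom_id]
  have hr : ∀ V hV (m : Γ(L', V)), Fφ.map V hV (Fψ.map V hV m) = m := by
    intro V hV m
    rw [← famOfHom_comp, hψφ, famOfHom_id]
  let E : ∀ V : X.Opens, V ≤ W → (Γ(L, V) ≃ₗ[Γ(X, V)] Γ(L', V)) := fun V hV =>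
    { toFun := Fφ.map V hV
      map_add' := Fφ.map_add V hV
      map_smul' := Fφ.map_smul V hV
      invFun := Fψ.map V hV
      left_inv := hl V hV
      right_inv := hr V hV }
  have hE : ∀ V hV (m : Γ(L, V)), E V hV m = Fφ.map V hV m := fun _ _ _ => rfl
  refine ⟨E, ?_, ?_⟩
  · intro p
    rw [hE]
    exact famOfHom_top hW e.toLinearMap φ hφ p
  · intro V V' hV hV' p
    rw [hE, hE]
    exact Fφ.map_res V V' hV hV' p

end Fermat.Agent.S25.Bridge.H18
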