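import Fermat.Agent.S25.Bridge.Defs
import Fermat.Agent.S25.Curve.H7_Datum

/-!
# S25, package BRIDGE, leaf LINK (helper7)

`stmt_LINK_of : Curve.Stmt_BCOVER → Stmt_LINK`: a proper smooth integral curve with a point
realises a good curve datum, namely `Curve.H7.datumOf` of a two-chart cover, with
`φ0 = φ1 = φ01 = id` (`B_i = Γ(C, U_i)` definitionally).
-/

set_option autoImplicit false

universe u

open CategoryTheory CategoryTheory.Limits AlgebraicGeometry AlgebraicGeometry.RelPicard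
  NeronModelInfra TopologicalSpace TensorProduct

namespace Fermat.Agent.S25.Bridge.H7

variable {k : Type u} [Field k] {C : Scheme.{u}} (c : C ⟶ Spec (CommRingCat.of k))
  (ε : SchemeHomOver (𝟙 (Spec (CommRingCat.of k))) c)

/-- The curve realises the datum `datumOf` of a two-chart cover (all comparison maps are the
identity). -/
noncomputable def realizes_datumOf (U₀ U₁ : C.Opens) (x : Γ(C, U₀)) (y : Γ(C, U₁))
    (h : Curve.IsTwoChart U₀ U₁ x y) (heU : ∀ z, ε.1 z ∈ U₁ ∧ ε.1 z ∉ U₀)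
    (hA0 : IsAffineOpen U₀) (hA1 : IsAffineOpen U₁) :
    Realizes c ε (Curve.H7.datumOf c U₀ U₁ x y h ε.1 ε.2 heU) where
  U₀ := U₀
  U₁ := U₁
  aff₀ := hA0
  aff₁ := hA1
  cover := h.cover
  φ0 := RingEquiv.refl _
  φ1 := RingEquiv.refl _
  φ01 := RingEquiv.refl _
  φ0_alg := fun _ => rfl
  φ1_alg := fun _ => rfl
  φ01_alg := fun _ => rfl
  φ_i0 := fun _ => rfl
  φ_i1 := fun _ => rfl
  basic₀ := h.basic₀
  basic₁ := h.basic₁
  base_mem := fun z => (heU z).1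
  base_e := fun b => by
    change (Scheme.ΓSpecIso (CommRingCat.of k)).inv.hom
      ((Scheme.ΓSpecIso (CommRingCat.of k)).hom.hom
        ((ε.1.appLE U₁ ⊤ (fun z _ => (heU z).1)).hom b)) = _
    rw [← CommRingCat.comp_apply, Iso.hom_inv_id]
    rfl

/-- **BRIDGE-LINK** (from `Curve.Stmt_BCOVER`). -/
theorem stmt_LINK_of (hB : Curve.Stmt_BCOVER.{u}) : Stmt_LINK.{u} := by
  intro k _ _ C c _ _ _ ε
  obtain ⟨U₀, U₁, x, y, h, hA0, hA1, heU, hf0, hf1, hi0, hi1⟩ := hB k c ε.1 ε.2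
  exact ⟨Curve.H7.datumOf c U₀ U₁ x y h ε.1 ε.2 heU,
    Curve.H7.datumOf_isGood c U₀ U₁ x y h ε.1 ε.2 heU hA0 hA1 hf0 hf1 hi0 hi1,
    ⟨realizes_datumOf c ε U₀ U₁ x y h heU hA0 hA1⟩⟩

end Fermat.Agent.S25.Bridge.H7
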