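import Fermat.Agent.S25.Bridge.H24_Closed
import Fermat.Agent.S25.Bridge.H18_T3Closed
import Fermat.Agent.S25.Bridge.H41_Rig
import Fermat.Agent.S25.Bridge.H7_Link
import Fermat.Agent.S25.Curve.H66_BCoverFinal

/-!
# S25, package BRIDGE: ALL leaves of `Bridge/Defs.lean` closed (helper24, collector)

QCLOC (h24), AFFLOC + GENAFF (h18), AFFINV (h10), AFFHOM (h54), RING + LINK (h7, BCOVER h66/h64/h72),
T1 (h24), T2 (h99), T3 (h18, h17, h11, h10; wiring h24), T4 (h34), RIG (h41).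
-/

set_option autoImplicit false

universe u

namespace Fermat.Agent.S25.Bridge.H24

/-- **BRIDGE-T3**, unconditional. -/
theorem closed_T3 : Stmt_T3.{u} := H18.stmt_T3

/-- **BRIDGE-RIG**, unconditional. -/
theorem closed_RIG : Stmt_RIG.{u} := H41.stmt_RIG

/-- **BRIDGE-LINK**, unconditional. -/
theorem closed_LINK : Stmt_LINK.{u} := H7.stmt_LINK_of Curve.H66.stmt_BCOVER

/-- the dictionary "invertible sheaves on `C × Spec R` ⟷ triples": all five parts -/
theorem closed_dictionary :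
    Stmt_LINK.{u} ∧ Stmt_T1.{u} ∧ Stmt_T2.{u} ∧ Stmt_T3.{u} ∧ Stmt_T4.{u} ∧ Stmt_RIG.{u} :=
  ⟨closed_LINK, stmt_T1, closed_T2, closed_T3, closed_T4, closed_RIG⟩

end Fermat.Agent.S25.Bridge.H24
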