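import Fermat.Agent.S25.Bridge.H24_T1
import Fermat.Agent.S25.Bridge.H10_AffInv

/-!
# S25, BRIDGE-T1, unconditional (helper24)

`stmt_T1 : Stmt_T1` = `stmt_T1_of_AFFINV` with helper10's `H10.stmt_AFFINV`;
`secTriple Θ L hL` = the triple of sections of `L` (with `P_i = Γ(L, U_i × Spec R)` by `rfl`).
-/

set_option autoImplicit false

universe u

open CategoryTheory CategoryTheory.Limits AlgebraicGeometry AlgebraicGeometry.RelPicard NeronModelInfra
  TopologicalSpace TensorProduct

namespace Fermat.Agent.S25.Bridge.H24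

/-- **BRIDGE-T1**, unconditional. -/
theorem stmt_T1 : Stmt_T1.{u} := stmt_T1_of_AFFINV H10.stmt_AFFINV

section

variable {k : Type u} [Field k] {C : Scheme.{u}} {c : C ⟶ Spec (CommRingCat.of k)}
  {ε : SchemeHomOver (𝟙 (Spec (CommRingCat.of k))) c} {𝒞 : LB.CurveDatum k}
  {ρ : Realizes c ε 𝒞} {R : Type u} [CommRing R] [Algebra k R]

/-- the triple of sections of an invertible sheaf on `C × Spec R` (unconditional form of `tripleOf`) -/
noncomputable def secTriple (Θ : ChartRing ρ R) (L : (XR c R).Modules)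
    (hL : Scheme.Modules.IsInvertible L) : LB.Triple 𝒞 R :=
  tripleOf H10.stmt_AFFINV Θ L hL

theorem isTripleOf_secTriple (Θ : ChartRing ρ R) (L : (XR c R).Modules)
    (hL : Scheme.Modules.IsInvertible L) : IsTripleOf ρ R L (secTriple Θ L hL) :=
  isTripleOf_tripleOf H10.stmt_AFFINV Θ L hL

end

end Fermat.Agent.S25.Bridge.H24
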