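import Fermat.Agent.S25.Curve.H7_Datum
import Fermat.Agent.S25.Chart.Defs2

/-!
# S25, link leaf LINK-ET (helper34, on helper7's request)

`isEtAt_datumOf`: if `k[X] → Γ(C, D(g))`, `X ↦ x`, is étale for a non-zero `g ∈ Γ(C, U₀)`, then
`g` is in the étale locus (`Chart.IsEtAt`) of the curve datum `Curve.H7.datumOf` of the two-chart
cover.
-/

set_option autoImplicit false
set_option linter.style.haveILetI false

universe u

open CategoryTheory CategoryTheory.Limits AlgebraicGeometry Polynomial TopologicalSpace Opposite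

namespace Fermat.Agent.S25.Bridge.H34

open Fermat.Agent.S25

/-- a ring isomorphism is formally étale -/
theorem formallyEtale_of_bijective {R S : Type*} [CommRing R] [CommRing S] (f : R →+* S)
    (hf : Function.Bijective f) : f.FormallyEtale := by
  have h := RingHom.Etale.of_bijective hf
  letI := f.toAlgebra
  have h' : Algebra.Etale R S := h
  exact Algebra.Etale.formallyEtale

/-- an étale ring map is formally étale -/
theorem formallyEtale_of_etale {R S : Type*} [CommRing R] [CommRing S] (f : R →+* S)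
    (hf : f.Etale) : f.FormallyEtale := by
  letI := f.toAlgebra
  have h' : Algebra.Etale R S := hf
  exact Algebra.Etale.formallyEtale

variable {k : Type u} [Field k] {C : Scheme.{u}} (c : C ⟶ Spec (CommRingCat.of k))

/-- **LINK-ET** -/
theorem isEtAt_datumOf (U₀ U₁ : C.Opens) (x : Γ(C, U₀)) (y : Γ(C, U₁))
    (h : Curve.IsTwoChart U₀ U₁ x y) (e : Spec (CommRingCat.of k) ⟶ C) (he : e ≫ c = 𝟙 _)
    (heU : ∀ z, e z ∈ U₁ ∧ e z ∉ U₀)
    (hA₀ : IsAffineOpen U₀) (g : Γ(C, U₀)) (hg : g ≠ 0)
    (hét : ((Curve.res (C.basicOpen_le g)).comp (Curve.polyTo c U₀ x)).Etale) :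
    Chart.IsEtAt (Curve.H7.datumOf c U₀ U₁ x y h e he heU) g := by
  refine ⟨hg, ?_⟩
  have hloc : IsLocalization.Away g Γ(C, C.basicOpen g) := hA₀.isLocalization_basicOpen g
  let ι : Γ(C, C.basicOpen g) ≃ₐ[Γ(C, U₀)] Localization.Away g :=
    IsLocalization.algEquiv (Submonoid.powers g) _ _
  have h1 := formallyEtale_of_etale _ hét
  have h2 := formallyEtale_of_bijective ι.toRingEquiv.toRingHom ι.bijective
  have h3 := h1.comp h2
  letI := Curve.H7.h7_algSec c U₀
  change ((algebraMap Γ(C, U₀) (Localization.Away g)).comp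
    (Polynomial.aeval (R := k) x).toRingHom).FormallyEtale
  have key : (algebraMap Γ(C, U₀) (Localization.Away g)).comp
      (Polynomial.aeval (R := k) x).toRingHom =
      ι.toRingEquiv.toRingHom.comp
        ((Curve.res (C.basicOpen_le g)).comp (Curve.polyTo c U₀ x)) := by
    have e1 := Curve.H7.h7_aeval_eq_polyTo c U₀ x
    have e2 : ι.toRingEquiv.toRingHom.comp (Curve.res (C.basicOpen_le g)) =
        algebraMap Γ(C, U₀) (Localization.Away g) := by
      ext a
      exact ι.commutes a
    rw [← RingHom.comp_assoc, e2]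
    exact congrArg (RingHom.comp _) e1
  rw [key]
  exact h3

end Fermat.Agent.S25.Bridge.H34
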