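import Fermat.Agent.S25.Bridge.Defs
import Fermat.Agent.S25.Glue.H18_Pull
import Fermat.Agent.S25.Bridge.H18_AffLoc
import Fermat.Agent.S25.Bridge.H24_QCLoc

/-!
# S25, package BRIDGE, leaf T4, part 1 (helper34): sections of a pull-back are generated by pulled-back sections

`f : Y ⟶ X`, `L` an invertible sheaf on `X`, `W ⊆ X` and `V ⊆ f⁻¹ W` affine opens.  Then
`Γ(f^* L, V)` is generated over `Γ(Y, V)` by the restrictions of the sections `pullSec f L W p`,
`p ∈ Γ(L, W)` (`mem_span_pullRes`).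

Proof: AFFLOC gives `h_1, …, h_n ∈ Γ(X, W)` generating the unit ideal with generating sections
`s_i` of `L` on `D(h_i)`; on `D(f^♯ h_i) ⊆ V` the section `f^* s_i` generates `f^* L` (B-PULL), so
`m' = a • f^* s_i` there; clear the denominators of `a` (`Γ(Y, D(g)) = Γ(Y, V)[1/g]`) and of `s_i`
(QCLOC for `L`), and lift the resulting identity from `D(g)` to `V` (QCLOC for `f^* L`).
-/

set_option autoImplicit false

universe u

open CategoryTheory AlgebraicGeometry TopologicalSpace

namespace Fermat.Agent.S25.Bridge.H34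

open Fermat.Agent.S25.Glue Fermat.Agent.S25.Bridge.H24

variable {X Y : Scheme.{u}}

/-- a generating section generates -/
theorem exists_smul_of_isGen {M : X.Modules} {U : X.Opens} {s : Γ(M, U)} (hs : IsGen M U s)
    {V : X.Opens} (h : V ≤ U) (m : Γ(M, V)) : ∃ a : Γ(X, V), a • res M h s = m :=
  (hs V h).2 m

/-- pull-back of functions, restricted to `V ≤ f⁻¹ W` -/
noncomputable def pullO (f : Y ⟶ X) (W : X.Opens) (V : Y.Opens) (e : V ≤ f ⁻¹ᵁ W) :
    Γ(X, W) →+* Γ(Y, V) :=
  (f.appLE W V e).hom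

theorem pullO_eq (f : Y ⟶ X) (W : X.Opens) (V : Y.Opens) (e : V ≤ f ⁻¹ᵁ W) (a : Γ(X, W)) :
    pullO f W V e a = resO e (f.app W a) := rfl

theorem resO_pullO (f : Y ⟶ X) (W : X.Opens) (V V' : Y.Opens) (e : V ≤ f ⁻¹ᵁ W) (h : V' ≤ V)
    (a : Γ(X, W)) : resO h (pullO f W V e a) = pullO f W V' (h.trans e) a := by
  rw [pullO_eq, pullO_eq, resO_resO]

theorem pullO_resO (f : Y ⟶ X) {W W' : X.Opens} (V : Y.Opens) (h : W' ≤ W) (e : V ≤ f ⁻¹ᵁ W')
    (a : Γ(X, W)) :
    pullO f W' V e (resO h a) = pullO f W V (e.trans (fun _ hy => h hy)) a := by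
  have := f.map_appLE e (homOfLE h).op
  exact congrArg (fun φ => φ.hom a) this

/-- pull-back of sections, restricted to `V ≤ f⁻¹ W` -/
noncomputable def pullRes (f : Y ⟶ X) (L : X.Modules) (W : X.Opens) (V : Y.Opens)
    (e : V ≤ f ⁻¹ᵁ W) : Γ(L, W) →+ Γ((Scheme.Modules.pullback f).obj L, V) :=
  (res ((Scheme.Modules.pullback f).obj L) e).comp
    (AddMonoidHom.mk' (pullSec f L W) (pullSec_add f L W))

theorem pullRes_eq (f : Y ⟶ X) (L : X.Modules) (W : X.Opens) (V : Y.Opens) (e : V ≤ f ⁻¹ᵁ W)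
    (p : Γ(L, W)) :
    pullRes f L W V e p = res ((Scheme.Modules.pullback f).obj L) e (pullSec f L W p) := rfl

theorem pullRes_smul (f : Y ⟶ X) (L : X.Modules) (W : X.Opens) (V : Y.Opens) (e : V ≤ f ⁻¹ᵁ W)
    (a : Γ(X, W)) (p : Γ(L, W)) :
    pullRes f L W V e (a • p) = pullO f W V e a • pullRes f L W V e p := by
  rw [pullRes_eq, pullRes_eq, pullSec_smul, res_smul, pullO_eq]

theorem res_pullRes (f : Y ⟶ X) (L : X.Modules) (W : X.Opens) (V V' : Y.Opens) (e : V ≤ f ⁻¹ᵁ W)
    (h : V' ≤ V) (p : Γ(L, W)) :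
    res ((Scheme.Modules.pullback f).obj L) h (pullRes f L W V e p) =
      pullRes f L W V' (h.trans e) p := by
  rw [pullRes_eq, pullRes_eq, res_res]

theorem pullRes_res (f : Y ⟶ X) (L : X.Modules) {W W' : X.Opens} (V : Y.Opens) (h : W' ≤ W)
    (e : V ≤ f ⁻¹ᵁ W') (p : Γ(L, W)) :
    pullRes f L W' V e (res L h p) = pullRes f L W V (e.trans (fun _ hy => h hy)) p := by
  rw [pullRes_eq, pullRes_eq]
  have := pullSec_res f L h p
  change pullSec f L W' (res L h p) = res _ _ (pullSec f L W p) at this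
  rw [this, res_res]

/-- **PULL-SURJ**: on affine opens `V ≤ f⁻¹ W`, the sections of the pull-back of an invertible
sheaf are generated by the pulled-back sections. -/
theorem mem_span_pullRes (f : Y ⟶ X) (L : X.Modules) (hL : Scheme.Modules.IsInvertible L)
    (W : X.Opens) (hW : IsAffineOpen W) (V : Y.Opens) (hV : IsAffineOpen V) (e : V ≤ f ⁻¹ᵁ W)
    (m : Γ((Scheme.Modules.pullback f).obj L, V)) :
    m ∈ Submodule.span Γ(Y, V) (Set.range (pullRes f L W V e)) := by
  classical
  have hL' := Scheme.Modules.IsInvertible.pullback f hL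
  obtain ⟨S, hS, hgen⟩ := H18.stmt_AFFLOC L hL W hW
  have hS' : Ideal.span ((pullO f W V e) '' (S : Set Γ(X, W))) = ⊤ := by
    rw [← Ideal.map_span, hS, Ideal.map_top]
  refine Submodule.mem_of_span_eq_top_of_smul_pow_mem _ _ hS' m ?_
  rintro ⟨g, h, hh, rfl⟩
  obtain ⟨s, hs⟩ := hgen h hh
  have hD : Y.basicOpen (pullO f W V e h) ≤ f ⁻¹ᵁ X.basicOpen h := by
    rw [show pullO f W V e h = f.appLE W V e h from rfl, Scheme.basicOpen_appLE]
    exact inf_le_right
  have hDV : Y.basicOpen (pullO f W V e h) ≤ V := Y.basicOpen_le _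
  -- the generator on `D(g)`
  have ht := isGen_pullSec f (X.basicOpen h) L s hs
  obtain ⟨a, ha⟩ := exists_smul_of_isGen ht hD (res _ hDV m)
  -- the denominators of `a`
  have := hV.isLocalization_basicOpen (pullO f W V e h)
  obtain ⟨⟨b, ⟨_, n, rfl⟩⟩, hb⟩ := IsLocalization.surj (Submonoid.powers (pullO f W V e h)) a
  change a * resO hDV (pullO f W V e h ^ n) = resO hDV b at hb
  -- the denominators of `s`
  obtain ⟨n', p, hp⟩ := (stmt_QCLOC L hL W hW h).1 s
  -- the identity on `D(g)`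
  have key : res _ hDV ((pullO f W V e h) ^ (n + n') • m - b • pullRes f L W V e p) = 0 := by
    have h1 : res ((Scheme.Modules.pullback f).obj L) hD
        (pullSec f L (X.basicOpen h) (res L (X.basicOpen_le h) p)) =
        res _ hDV (pullRes f L W V e p) := by
      rw [res_pullRes]
      exact pullRes_res f L _ (X.basicOpen_le h) hD p
    have h2 : res ((Scheme.Modules.pullback f).obj L) hD
        (pullSec f L (X.basicOpen h) (resO (X.basicOpen_le h) h ^ n' • s)) =
        resO hDV (pullO f W V e h) ^ n' •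
          res ((Scheme.Modules.pullback f).obj L) hD (pullSec f L (X.basicOpen h) s) := by
      have := pullRes_smul f L (X.basicOpen h) _ hD (resO (X.basicOpen_le h) h ^ n') s
      rw [pullRes_eq, pullRes_eq] at this
      rw [this, map_pow, pullO_resO, resO_pullO]
    rw [map_sub, res_smul, res_smul, ← h1, ← hp, h2, ← ha, ← hb, map_pow, map_pow, smul_smul,
      smul_smul, sub_eq_zero, pow_add]
    congr 1
    ring
  obtain ⟨n'', hn''⟩ := (stmt_QCLOC _ hL' V hV (pullO f W V e h)).2 _ key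
  refine ⟨n'' + (n + n'), ?_⟩
  rw [smul_sub, sub_eq_zero, smul_smul, ← pow_add] at hn''
  change pullO f W V e h ^ (n'' + (n + n')) • m ∈ _
  rw [hn'']
  exact Submodule.smul_mem _ _ (Submodule.smul_mem _ _ (Submodule.subset_span ⟨p, rfl⟩))

end Fermat.Agent.S25.Bridge.H34
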