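import Fermat.Agent.S25.Bridge.H34_PullSurj
import Fermat.Agent.S25.LB.H36_BCDataX

/-!
# S25, package BRIDGE, leaf T4 (helper34): the triple of a pull-back is a base change of the triple

`stmt_T4_of : Stmt_RING → Stmt_T4`.

* `bcMap_fst`, `bcMap_snd`, `preimage_WR`, `pullO_fstSec`, `pullO_sndSec` : the geometry of
  `bcMap c R R' : C × Spec R' ⟶ C × Spec R`;
* `bcAdd` : the map `P → P'` of sections over a chart induced by `pullSec`; `bcAdd_semi`
  (semilinear over `R ⊗ B → R' ⊗ B`), `bcAdd_comm` (compatible with restrictions), `bcAdd_gen`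
  (its image generates; from `mem_span_pullRes` and RING);
* `nonempty_BC` : the sheaf side, `Chart.BC (toAlgHom) T T'`;
* `stmt_T4_of` : with helper36's `LB.H36.stmt_BCDATAX`.
-/

set_option autoImplicit false
set_option linter.style.haveILetI false

universe u

open CategoryTheory CategoryTheory.Limits AlgebraicGeometry AlgebraicGeometry.RelPicard NeronModelInfra
  TopologicalSpace TensorProduct

namespace Fermat.Agent.S25.Bridge.H34

open Fermat.Agent.S25.Glue Fermat.Agent.S25.Bridge.H24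

section Geometry

variable {k : Type u} [Field k] {C : Scheme.{u}} (c : C ⟶ Spec (CommRingCat.of k))
  (R R' : Type u) [CommRing R] [Algebra k R] [CommRing R'] [Algebra k R'] [Algebra R R']
  [IsScalarTower k R R']

theorem bcMap_fst : bcMap c R R' ≫ pullback.fst c (tR k R) = pullback.fst c (tR k R') := by
  unfold bcMap baseChangeSnd
  rw [pullback.lift_fst, Category.comp_id]

theorem bcMap_snd : bcMap c R R' ≫ pullback.snd c (tR k R) =
    pullback.snd c (tR k R') ≫ Spec.map (CommRingCat.ofHom (algebraMap R R')) := by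
  unfold bcMap baseChangeSnd
  rw [pullback.lift_snd]

theorem preimage_WR (U : C.Opens) : (bcMap c R R') ⁻¹ᵁ (WR c R U) = WR c R' U := by
  change (bcMap c R R' ≫ pullback.fst c (tR k R)) ⁻¹ᵁ U = _
  rw [bcMap_fst]

theorem WR_le (U : C.Opens) : WR c R' U ≤ (bcMap c R R') ⁻¹ᵁ (WR c R U) :=
  (preimage_WR c R R' U).ge

theorem pullO_fstSec (U : C.Opens) (b : Γ(C, U)) :
    pullO (bcMap c R R') (WR c R U) (WR c R' U) (WR_le c R R' U) (fstSec c R U b) =
      fstSec c R' U b := by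
  have h1 := Scheme.Hom.comp_appLE (bcMap c R R') (pullback.fst c (tR k R)) U (WR c R' U)
    (WR_le c R R' U)
  have h2 : (bcMap c R R' ≫ pullback.fst c (tR k R)).appLE U (WR c R' U) (WR_le c R R' U) =
      (pullback.fst c (tR k R')).app U := by
    rw [Scheme.Hom.app_eq_appLE]
    congr 1
    exact bcMap_fst c R R'
  rw [h2] at h1
  exact (congrArg (fun φ => φ.hom b) h1).symm

theorem appLE_congr_hom {X Y : Scheme.{u}} {f g : X ⟶ Y} (h : f = g) (U : Y.Opens) (V : X.Opens)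
    (e : V ≤ f ⁻¹ᵁ U) : f.appLE U V e = g.appLE U V (h ▸ e) := by
  subst h
  rfl

theorem pullO_sndSec {W : (XR c R).Opens} {V : (XR c R').Opens} (e : V ≤ (bcMap c R R') ⁻¹ᵁ W)
    (r : R) :
    pullO (bcMap c R R') W V e (sndSec c R W r) = sndSec c R' V (algebraMap R R' r) := by
  have hW : W ≤ (pullback.snd c (tR k R)) ⁻¹ᵁ ⊤ := le_top
  have hV : V ≤ (pullback.snd c (tR k R')) ⁻¹ᵁ ⊤ := le_top
  have hV2 : V ≤ (pullback.snd c (tR k R') ≫ Spec.map (CommRingCat.ofHom (algebraMap R R'))) ⁻¹ᵁ ⊤ :=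
    le_top
  have e1 : (pullback.snd c (tR k R)).appLE ⊤ W hW ≫ (bcMap c R R').appLE W V e =
      (pullback.snd c (tR k R') ≫ Spec.map (CommRingCat.ofHom (algebraMap R R'))).appLE ⊤ V hV2 := by
    rw [Scheme.Hom.appLE_comp_appLE, appLE_congr_hom (bcMap_snd c R R')]
  have e2 : (pullback.snd c (tR k R') ≫ Spec.map (CommRingCat.ofHom (algebraMap R R'))).appLE ⊤ V hV2 =
      (Spec.map (CommRingCat.ofHom (algebraMap R R'))).appTop ≫
        (pullback.snd c (tR k R')).appLE ⊤ V hV := by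
    rw [Scheme.Hom.comp_appLE]
    rfl
  have h1 : (Scheme.ΓSpecIso (CommRingCat.of R)).inv ≫
      (pullback.snd c (tR k R)).appLE ⊤ W hW ≫ (bcMap c R R').appLE W V e =
      CommRingCat.ofHom (algebraMap R R') ≫ (Scheme.ΓSpecIso (CommRingCat.of R')).inv ≫
        (pullback.snd c (tR k R')).appLE ⊤ V hV := by
    rw [e1, e2, ← Category.assoc, ← Scheme.ΓSpecIso_inv_naturality, Category.assoc]
  exact congrArg (fun φ => φ.hom r) h1

end Geometry

section Chart

variable {k : Type u} [Field k] {C : Scheme.{u}} (c : C ⟶ Spec (CommRingCat.of k))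
  (R R' : Type u) [CommRing R] [Algebra k R] [CommRing R'] [Algebra k R'] [Algebra R R']
  [IsScalarTower k R R'] (U : C.Opens)
  {B : Type u} [CommRing B] [Algebra k B] (φ : B ≃+* Γ(C, U))
  (L : (XR c R).Modules)
  {P : Type u} [AddCommGroup P] [Module (R ⊗[k] B) P]
  {P' : Type u} [AddCommGroup P'] [Module (R' ⊗[k] B) P']
  (f : P ≃+ Γ(L, WR c R U))
  (f' : P' ≃+ Γ((Scheme.Modules.pullback (bcMap c R R')).obj L, WR c R' U))

/-- the base change map of the sections over a chart -/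
noncomputable def bcAdd : P →+ P' :=
  f'.symm.toAddMonoidHom.comp
    ((pullRes (bcMap c R R') L (WR c R U) (WR c R' U) (WR_le c R R' U)).comp f.toAddMonoidHom)

theorem bcAdd_apply (p : P) :
    f' (bcAdd c R R' U L f f' p) =
      pullRes (bcMap c R R') L (WR c R U) (WR c R' U) (WR_le c R R' U) (f p) := by
  unfold bcAdd
  simp

variable {c R R' U L f f'}

theorem bcAdd_semi
    (hf : ∀ (r : R) (b : B) (p : P), f ((r ⊗ₜ[k] b) • p) =
      (sndSec c R (WR c R U) r * fstSec c R U (φ b)) • f p)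
    (hf' : ∀ (r : R') (b : B) (p : P'), f' ((r ⊗ₜ[k] b) • p) =
      (sndSec c R' (WR c R' U) r * fstSec c R' U (φ b)) • f' p)
    (a : R ⊗[k] B) (p : P) :
    bcAdd c R R' U L f f' (a • p) =
      Algebra.TensorProduct.map (Algebra.ofId R R') (AlgHom.id k B) a • bcAdd c R R' U L f f' p := by
  induction a using TensorProduct.induction_on with
  | zero => simp
  | tmul r b =>
    apply f'.injective
    rw [bcAdd_apply, hf, pullRes_smul, map_mul, pullO_sndSec, pullO_fstSec,
      Algebra.TensorProduct.map_tmul, hf', bcAdd_apply]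
    rfl
  | add x y hx hy => rw [add_smul, map_add, hx, hy, map_add, add_smul]

/-- every function on `U × Spec R'` acts on `P'` through `R' ⊗ B` -/
theorem exists_act (hR : Stmt_RING.{u}) (hU : IsAffineOpen U)
    (hf' : ∀ (r : R') (b : B) (p : P'), f' ((r ⊗ₜ[k] b) • p) =
      (sndSec c R' (WR c R' U) r * fstSec c R' U (φ b)) • f' p)
    (g : Γ(XR c R', WR c R' U)) :
    ∃ a : R' ⊗[k] B, ∀ x : P', f' (a • x) = g • f' x := by
  letI : Algebra k Γ(C, U) := (Curve.kSec c U).toAlgebra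
  obtain ⟨-, ψ, hψ⟩ := hR k c R' U hU
  suffices h : ∀ t : R' ⊗[k] Γ(C, U), ∃ a : R' ⊗[k] B, ∀ x : P', f' (a • x) = ψ t • f' x by
    obtain ⟨a, ha⟩ := h (ψ.symm g)
    refine ⟨a, fun x => ?_⟩
    rw [ha, ψ.apply_symm_apply]
  intro t
  induction t using TensorProduct.induction_on with
  | zero => exact ⟨0, fun x => by simp⟩
  | tmul r γ =>
    refine ⟨r ⊗ₜ[k] φ.symm γ, fun x => ?_⟩
    rw [hf', hψ, φ.apply_symm_apply]
  | add x y hx hy =>
    obtain ⟨a, ha⟩ := hx
    obtain ⟨b, hb⟩ := hy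
    refine ⟨a + b, fun z => ?_⟩
    rw [add_smul, map_add, ha, hb, map_add, add_smul]

omit [Module (R ⊗[k] B) P] in
theorem bcAdd_gen (hR : Stmt_RING.{u}) (hU : IsAffineOpen U)
    (hL : Scheme.Modules.IsInvertible L)
    (hf' : ∀ (r : R') (b : B) (p : P'), f' ((r ⊗ₜ[k] b) • p) =
      (sndSec c R' (WR c R' U) r * fstSec c R' U (φ b)) • f' p) :
    Submodule.span (R' ⊗[k] B) (Set.range (bcAdd c R R' U L f f')) = ⊤ := by
  rw [eq_top_iff]
  rintro x -
  have hW := (hR k c R U hU).1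
  have hV := (hR k c R' U hU).1
  have hx := mem_span_pullRes (bcMap c R R') L hL (WR c R U) hW (WR c R' U) hV
    (WR_le c R R' U) (f' x)
  suffices h : ∀ m ∈ Submodule.span Γ(XR c R', WR c R' U)
      (Set.range (pullRes (bcMap c R R') L (WR c R U) (WR c R' U) (WR_le c R R' U))),
      f'.symm m ∈ Submodule.span (R' ⊗[k] B) (Set.range (bcAdd c R R' U L f f')) by
    have := h _ hx
    rwa [f'.symm_apply_apply] at this
  intro m hm
  induction hm using Submodule.span_induction with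
  | mem m hm =>
    obtain ⟨p, rfl⟩ := hm
    refine Submodule.subset_span ⟨f.symm p, ?_⟩
    apply f'.injective
    rw [bcAdd_apply, f.apply_symm_apply, f'.apply_symm_apply]
  | zero => rw [map_zero]; exact Submodule.zero_mem _
  | add m m' _ _ hm hm' => rw [map_add]; exact Submodule.add_mem _ hm hm'
  | smul g m _ hm =>
    obtain ⟨a, ha⟩ := exists_act (φ := φ) (f' := f') hR hU hf' g
    have : f'.symm (g • m) = a • f'.symm m := by
      apply f'.injective
      rw [ha, f'.apply_symm_apply, f'.apply_symm_apply]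
    rw [this]
    exact Submodule.smul_mem _ _ hm

end Chart

section Comm

variable {k : Type u} [Field k] {C : Scheme.{u}} {c : C ⟶ Spec (CommRingCat.of k)}
  {R R' : Type u} [CommRing R] [Algebra k R] [CommRing R'] [Algebra k R'] [Algebra R R']
  [IsScalarTower k R R'] {U V : C.Opens}
  {L : (XR c R).Modules}
  {P Q : Type u} [AddCommGroup P] [AddCommGroup Q]
  {P' Q' : Type u} [AddCommGroup P'] [AddCommGroup Q']
  {f : P ≃+ Γ(L, WR c R U)}
  {f' : P' ≃+ Γ((Scheme.Modules.pullback (bcMap c R R')).obj L, WR c R' U)}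
  {g : Q ≃+ Γ(L, WR c R V)}
  {g' : Q' ≃+ Γ((Scheme.Modules.pullback (bcMap c R R')).obj L, WR c R' V)}

theorem bcAdd_comm (r : P → Q) (r' : P' → Q') (h : WR c R V ≤ WR c R U)
    (h' : WR c R' V ≤ WR c R' U)
    (hr : ∀ p, g (r p) = res L h (f p))
    (hr' : ∀ p, g' (r' p) = res ((Scheme.Modules.pullback (bcMap c R R')).obj L) h' (f' p))
    (q : P) :
    bcAdd c R R' V L g g' (r q) = r' (bcAdd c R R' U L f f' q) := by
  apply g'.injective
  rw [bcAdd_apply, hr, hr', bcAdd_apply, pullRes_res, res_pullRes]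

end Comm

section Main

open Fermat.Agent.S25.Chart

variable {k : Type u} [Field k] {C : Scheme.{u}} {c : C ⟶ Spec (CommRingCat.of k)}
  {ε : SchemeHomOver (𝟙 (Spec (CommRingCat.of k))) c} {𝒞 : LB.CurveDatum k}

theorem tmap_toAlgHom (R R' : Type u) [CommRing R] [Algebra k R] [CommRing R'] [Algebra k R']
    [Algebra R R'] [IsScalarTower k R R'] (B : Type u) [CommRing B] [Algebra k B]
    (a : R ⊗[k] B) :
    tmap (IsScalarTower.toAlgHom k R R') B a =
      Algebra.TensorProduct.map (Algebra.ofId R R') (AlgHom.id k B) a := by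
  induction a using TensorProduct.induction_on with
  | zero => simp
  | tmul r b => rfl
  | add x y hx hy => simp only [map_add, hx, hy]

/-- **T4, sheaf side**: the triple of the pull-back is a base change of the triple. -/
theorem nonempty_BC (hR : Stmt_RING.{u}) (ρ : Realizes c ε 𝒞) (R R' : Type u) [CommRing R]
    [Algebra k R] [CommRing R'] [Algebra k R'] [Algebra R R'] [IsScalarTower k R R']
    (L : (XR c R).Modules) (T : LB.Triple 𝒞 R) (T' : LB.Triple 𝒞 R')
    (hL : Scheme.Modules.IsInvertible L) (hT : IsTripleOf ρ R L T)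
    (hT' : IsTripleOf ρ R' ((Scheme.Modules.pullback (bcMap c R R')).obj L) T') :
    Nonempty (BC (IsScalarTower.toAlgHom k R R') T T') := by
  obtain ⟨f0, f1, f01, h0, h1, h01, hr0, hr1⟩ := hT.ex
  obtain ⟨f0', f1', f01', h0', h1', h01', hr0', hr1'⟩ := hT'.ex
  exact ⟨{
    b0 := bcAdd c R R' ρ.U₀ L f0 f0'
    b1 := bcAdd c R R' ρ.U₁ L f1 f1'
    b01 := bcAdd c R R' (ρ.U₀ ⊓ ρ.U₁) L f01 f01'
    semi0 := fun a q => by rw [tmap_toAlgHom]; exact bcAdd_semi ρ.φ0 h0 h0' a q
    semi1 := fun a q => by rw [tmap_toAlgHom]; exact bcAdd_semi ρ.φ1 h1 h1' a q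
    semi01 := fun a q => by rw [tmap_toAlgHom]; exact bcAdd_semi ρ.φ01 h01 h01' a q
    comm0 := fun q => bcAdd_comm T.r0 T'.r0 _ _ hr0 hr0' q
    comm1 := fun q => bcAdd_comm T.r1 T'.r1 _ _ hr1 hr1' q
    gen0 := bcAdd_gen (φ := ρ.φ0) hR ρ.aff₀ hL h0'
    gen1 := bcAdd_gen (φ := ρ.φ1) hR ρ.aff₁ hL h1' }⟩

/-- **BRIDGE-T4**, modulo RING. -/
theorem stmt_T4_of (hR : Stmt_RING.{u}) : Stmt_T4.{u} := by
  intro k _ C c ε 𝒞 h𝒞 ρ R R' _ _ _ _ inst _ L T T' hL hT hT'
  obtain ⟨φ, hφ, ⟨β⟩⟩ : ∃ φ : R →ₐ[k] R', inst = φ.toRingHom.toAlgebra ∧ Nonempty (BC φ T T') :=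
    ⟨IsScalarTower.toAlgHom k R R', Algebra.algebra_ext _ _ (fun _ => rfl),
      nonempty_BC hR ρ R R' L T T' hL hT hT'⟩
  clear hT'
  subst hφ
  obtain ⟨E, e0, e1, e01⟩ := LB.H36.stmt_BCDATAX k 𝒞 h𝒞 R R' φ T T' β
  refine ⟨β.b0, β.b1, β.b01, E, β.comm0, β.comm1, e0, e1, e01, ?_, ?_⟩
  · intro a p
    rw [β.semi0]
    exact congrArg (· • β.b0 p) (LB.H36.tmap_eq_phi φ 𝒞.B0 a)
  · intro a p
    rw [β.semi1]
    exact congrArg (· • β.b1 p) (LB.H36.tmap_eq_phi φ 𝒞.B1 a)

end Main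

end Fermat.Agent.S25.Bridge.H34
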