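import Fermat.Agent.S25.Bridge.H18_GenAff
import Fermat.Agent.S25.Glue.H18_Pull

/-!
# S25, package BRIDGE, leaf RIG, general part (helper41)

`X`, `Y` schemes, `σ : Y ⟶ X`, `L` an invertible sheaf on `X`, `W` an affine open of `X` whose preimage
`σ⁻¹W` is affine.  Then the pull-back of sections `θ = pullSec σ L W : Γ(L, W) → Γ(σ^* L, σ⁻¹W)` satisfies

* `pullSec_surjective` : `θ` is surjective as soon as `σ^♯ : Γ(X, W) → Γ(Y, σ⁻¹W)` is;
* `mem_ker_smul_of_pullSec_eq_zero` : the kernel of `θ` is contained in `ker σ^♯ • Γ(L, W)`;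
* `isGen_of_surjective` : on an affine open, a section of an invertible sheaf which generates the module of
  sections generates the sheaf.

(`Γ(σ^* L, σ⁻¹W) = Γ(Y, σ⁻¹W) ⊗ Γ(L, W)`, in elementary terms.)
-/

set_option autoImplicit false
set_option linter.style.haveILetI false
set_option linter.unusedSectionVars false
set_option linter.unusedVariables false

universe u

open CategoryTheory AlgebraicGeometry TopologicalSpace

namespace Fermat.Agent.S25.Bridge.H41

open Fermat.Agent.S25.Glue Fermat.Agent.S25.Glue.H56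

section Basic

variable {X : Scheme.{u}}

theorem resO_pow {U V : X.Opens} (h : V ≤ U) (a : Γ(X, U)) (n : ℕ) :
    H56.resO X h (a ^ n) = H56.resO X h a ^ n := by
  unfold H56.resO
  exact map_pow _ _ _

theorem resO_zero {U V : X.Opens} (h : V ≤ U) : H56.resO X h (0 : Γ(X, U)) = 0 := by
  unfold H56.resO
  exact map_zero _

theorem resM_zero (M : X.Modules) {U V : X.Opens} (h : V ≤ U) : H56.resM M h (0 : Γ(M, U)) = 0 := by
  unfold H56.resM
  exact map_zero _

theorem resM_sub (M : X.Modules) {U V : X.Opens} (h : V ≤ U) (s t : Γ(M, U)) :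
    H56.resM M h (s - t) = H56.resM M h s - H56.resM M h t := by
  unfold H56.resM
  exact map_sub _ _ _

/-- localisation of the sections of an invertible sheaf: surjectivity -/
theorem qc_surj (M : X.Modules) (hM : Scheme.Modules.IsInvertible M) (W : X.Opens)
    (hW : IsAffineOpen W) (f : Γ(X, W)) (D : X.Opens) (hD : D = X.basicOpen f) (hle : D ≤ W)
    (m : Γ(M, D)) :
    ∃ (n : ℕ) (p : Γ(M, W)), (H56.resO X hle f) ^ n • m = H56.resM M hle p := by
  subst hD
  exact (H24.stmt_QCLOC M hM W hW f).1 m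

/-- localisation of the sections of an invertible sheaf: kernel -/
theorem qc_ker (M : X.Modules) (hM : Scheme.Modules.IsInvertible M) (W : X.Opens)
    (hW : IsAffineOpen W) (f : Γ(X, W)) (D : X.Opens) (hD : D = X.basicOpen f) (hle : D ≤ W)
    (p : Γ(M, W)) (hp : H56.resM M hle p = 0) : ∃ n : ℕ, f ^ n • p = 0 := by
  subst hD
  exact (H24.stmt_QCLOC M hM W hW f).2 p hp

/-- localisation of the sections of an invertible sheaf: equality -/
theorem qc_eq (M : X.Modules) (hM : Scheme.Modules.IsInvertible M) (W : X.Opens)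
    (hW : IsAffineOpen W) (f : Γ(X, W)) (D : X.Opens) (hD : D = X.basicOpen f) (hle : D ≤ W)
    (p q : Γ(M, W)) (hpq : H56.resM M hle p = H56.resM M hle q) : ∃ n : ℕ, f ^ n • p = f ^ n • q := by
  obtain ⟨n, hn⟩ := qc_ker M hM W hW f D hD hle (p - q) (by rw [resM_sub, hpq, sub_self])
  refine ⟨n, ?_⟩
  rw [smul_sub] at hn
  exact sub_eq_zero.1 hn

/-- localisation of functions: surjectivity -/
theorem fun_surj (W : X.Opens) (hW : IsAffineOpen W) (f : Γ(X, W)) (D : X.Opens)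
    (hD : D = X.basicOpen f) (hle : D ≤ W) (c : Γ(X, D)) :
    ∃ (n : ℕ) (r : Γ(X, W)), (H56.resO X hle f) ^ n * c = H56.resO X hle r := by
  subst hD
  haveI := hW.isLocalization_basicOpen f
  obtain ⟨⟨r, s⟩, h⟩ := IsLocalization.surj (Submonoid.powers f) c
  obtain ⟨n, hn⟩ := s.2
  refine ⟨n, r, ?_⟩
  have h' : c * algebraMap Γ(X, W) Γ(X, X.basicOpen f) (f ^ n) =
      algebraMap Γ(X, W) Γ(X, X.basicOpen f) r := by
    have e : (f ^ n : Γ(X, W)) = (s : Γ(X, W)) := hn
    rw [e]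
    exact h
  rw [map_pow, mul_comm] at h'
  exact h'

/-- localisation of functions: kernel -/
theorem fun_ker (W : X.Opens) (hW : IsAffineOpen W) (f : Γ(X, W)) (D : X.Opens)
    (hD : D = X.basicOpen f) (hle : D ≤ W) (r : Γ(X, W)) (hr : H56.resO X hle r = 0) :
    ∃ n : ℕ, f ^ n * r = 0 := by
  subst hD
  haveI := hW.isLocalization_basicOpen f
  have h : algebraMap Γ(X, W) Γ(X, X.basicOpen f) r = 0 := hr
  rw [IsLocalization.map_eq_zero_iff (Submonoid.powers f)] at h
  obtain ⟨⟨s, n, hn⟩, hs⟩ := h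
  have e : (f ^ n : Γ(X, W)) = s := hn
  exact ⟨n, by rw [e]; exact hs⟩

/-- an ideal containing a power of every element of a set which spans the unit ideal is the unit
ideal -/
theorem one_mem_of_pow_mem {A : Type*} [CommRing A] (J : Ideal A) (S : Set A)
    (hS : Ideal.span S = ⊤) (h : ∀ f ∈ S, ∃ n : ℕ, f ^ n ∈ J) : (1 : A) ∈ J := by
  have h1 : J.radical = ⊤ := by
    rw [eq_top_iff, ← hS]
    exact Ideal.span_le.2 (fun f hf => h f hf)
  rw [Ideal.radical_eq_top.1 h1]
  trivial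

end Basic

section Key

variable {X Y : Scheme.{u}} (σ : Y ⟶ X) (L : X.Modules)

/-- `σ^♯` commutes with restriction -/
theorem app_resO {U V : X.Opens} (h : V ≤ U) (a : Γ(X, U)) :
    σ.app V (H56.resO X h a) =
      H56.resO Y (show σ ⁻¹ᵁ V ≤ σ ⁻¹ᵁ U from fun _ hy => h hy) (σ.app U a) := by
  have := σ.naturality (homOfLE h).op
  exact ConcreteCategory.congr_hom this a

theorem pullSec_zero (U : X.Opens) : pullSec σ L U 0 = 0 := by
  have := pullSec_add σ L U 0 0
  rw [add_zero] at this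
  exact left_eq_add.1 this

theorem pullSec_sub (U : X.Opens) (s t : Γ(L, U)) :
    pullSec σ L U (s - t) = pullSec σ L U s - pullSec σ L U t := by
  have := pullSec_add σ L U (s - t) t
  rw [sub_add_cancel] at this
  exact eq_sub_of_add_eq this.symm

theorem pullSec_resM {U V : X.Opens} (h : V ≤ U) (s : Γ(L, U)) :
    pullSec σ L V (H56.resM L h s) =
      H56.resM ((Scheme.Modules.pullback σ).obj L)
        (show σ ⁻¹ᵁ V ≤ σ ⁻¹ᵁ U from fun _ hy => h hy) (pullSec σ L U s) :=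
  pullSec_res σ L h s

variable (hL : Scheme.Modules.IsInvertible L) (W : X.Opens) (hW : IsAffineOpen W)
  (hV : IsAffineOpen (σ ⁻¹ᵁ W))

include hL hW hV in
/-- the local step of the surjectivity -/
theorem k1_local (hsurj : Function.Surjective (σ.app W)) (f : Γ(X, W))
    (sf : Γ(L, X.basicOpen f)) (hsf : IsGen L (X.basicOpen f) sf)
    (m : Γ((Scheme.Modules.pullback σ).obj L, σ ⁻¹ᵁ W)) :
    ∃ (E : ℕ) (p : Γ(L, W)), (σ.app W f) ^ E • m = pullSec σ L W p := by
  have hM' : Scheme.Modules.IsInvertible ((Scheme.Modules.pullback σ).obj L) := hL.pullback σ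
  have hD' : σ ⁻¹ᵁ X.basicOpen f = Y.basicOpen (σ.app W f) := Scheme.preimage_basicOpen σ f
  have hDW : X.basicOpen f ≤ W := X.basicOpen_le f
  have hDW' : σ ⁻¹ᵁ X.basicOpen f ≤ σ ⁻¹ᵁ W := fun _ hy => hDW hy
  have ht : IsGen ((Scheme.Modules.pullback σ).obj L) (σ ⁻¹ᵁ X.basicOpen f)
      (pullSec σ L (X.basicOpen f) sf) := isGen_pullSec σ (X.basicOpen f) L sf hsf
  have hc : H56.coord ht le_rfl (H56.resM _ hDW' m) • pullSec σ L (X.basicOpen f) sf =
      H56.resM _ hDW' m := by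
    have := H56.coord_smul_res ht le_rfl (H56.resM _ hDW' m)
    rwa [H56.resM_id] at this
  obtain ⟨n1, r, hr⟩ := fun_surj (σ ⁻¹ᵁ W) hV (σ.app W f) _ hD' hDW'
    (H56.coord ht le_rfl (H56.resM _ hDW' m))
  obtain ⟨a, rfl⟩ := hsurj r
  obtain ⟨n2, p, hp⟩ := qc_surj L hL W hW f _ rfl hDW sf
  have key : H56.resM _ hDW' ((σ.app W f) ^ (n1 + n2) • m) =
      H56.resM _ hDW' (pullSec σ L W (a • p)) := by
    rw [H56.resM_smul, ← hc, pullSec_smul, H56.resM_smul, ← pullSec_resM σ L hDW, ← hp,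
      pullSec_smul, map_pow, app_resO, resO_pow, pow_add, smul_smul, smul_smul, ← hr]
    congr 1
    ring
  obtain ⟨n3, h3⟩ := qc_eq _ hM' (σ ⁻¹ᵁ W) hV (σ.app W f) _ hD' hDW' _ _ key
  refine ⟨n3 + (n1 + n2), f ^ n3 • (a • p), ?_⟩
  rw [pullSec_smul, map_pow, ← h3, smul_smul, ← pow_add]

include hL hW hV in
/-- **surjectivity** of the pull-back of sections -/
theorem pullSec_surjective (hsurj : Function.Surjective (σ.app W))
    (m : Γ((Scheme.Modules.pullback σ).obj L, σ ⁻¹ᵁ W)) :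
    ∃ p : Γ(L, W), pullSec σ L W p = m := by
  obtain ⟨S, hS, hgen⟩ := H18.stmt_AFFLOC L hL W hW
  let J : Ideal Γ(X, W) :=
    { carrier := {x | ∃ p : Γ(L, W), σ.app W x • m = pullSec σ L W p}
      add_mem' := by
        rintro x y ⟨p, hp⟩ ⟨q, hq⟩
        exact ⟨p + q, by rw [map_add, add_smul, hp, hq, pullSec_add]⟩
      zero_mem' := ⟨0, by rw [map_zero, zero_smul, pullSec_zero]⟩
      smul_mem' := by
        rintro a x ⟨p, hp⟩
        exact ⟨a • p, by rw [smul_eq_mul, map_mul, mul_smul, hp, pullSec_smul]⟩ }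
  have h1 : (1 : Γ(X, W)) ∈ J := by
    refine one_mem_of_pow_mem J (S : Set Γ(X, W)) hS (fun f hf => ?_)
    obtain ⟨sf, hsf⟩ := hgen f hf
    obtain ⟨E, p, h⟩ := k1_local σ L hL W hW hV hsurj f sf hsf m
    exact ⟨E, p, by rw [map_pow]; exact h⟩
  obtain ⟨p, hp⟩ := h1
  exact ⟨p, by rw [← hp, map_one, one_smul]⟩

include hL hW hV in
/-- the local step of the computation of the kernel -/
theorem k2_local (f : Γ(X, W)) (sf : Γ(L, X.basicOpen f)) (hsf : IsGen L (X.basicOpen f) sf)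
    (n : Γ(L, W)) (hn : pullSec σ L W n = 0) :
    ∃ E : ℕ, f ^ E • n ∈ RingHom.ker (σ.app W).hom • (⊤ : Submodule Γ(X, W) Γ(L, W)) := by
  have hD' : σ ⁻¹ᵁ X.basicOpen f = Y.basicOpen (σ.app W f) := Scheme.preimage_basicOpen σ f
  have hDW : X.basicOpen f ≤ W := X.basicOpen_le f
  have hDW' : σ ⁻¹ᵁ X.basicOpen f ≤ σ ⁻¹ᵁ W := fun _ hy => hDW hy
  have ht : IsGen ((Scheme.Modules.pullback σ).obj L) (σ ⁻¹ᵁ X.basicOpen f)
      (pullSec σ L (X.basicOpen f) sf) := isGen_pullSec σ (X.basicOpen f) L sf hsf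
  have hb : H56.coord hsf le_rfl (H56.resM L hDW n) • sf = H56.resM L hDW n := by
    have := H56.coord_smul_res hsf le_rfl (H56.resM L hDW n)
    rwa [H56.resM_id] at this
  have h1 : σ.app (X.basicOpen f) (H56.coord hsf le_rfl (H56.resM L hDW n)) •
      pullSec σ L (X.basicOpen f) sf = 0 := by
    rw [← pullSec_smul, hb, pullSec_resM, hn, resM_zero]
  have h2 : σ.app (X.basicOpen f) (H56.coord hsf le_rfl (H56.resM L hDW n)) = 0 := by
    apply (H56.isGen_iff.1 ht _ le_rfl).1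
    change _ • H56.resM _ le_rfl _ = _ • H56.resM _ le_rfl _
    rw [H56.resM_id, h1, zero_smul]
  obtain ⟨n1, a, ha⟩ := fun_surj W hW f _ rfl hDW (H56.coord hsf le_rfl (H56.resM L hDW n))
  have h3 : H56.resO Y hDW' (σ.app W a) = 0 := by
    rw [← app_resO σ hDW, ← ha, map_mul, h2, mul_zero]
  obtain ⟨n2, h4⟩ := fun_ker (σ ⁻¹ᵁ W) hV (σ.app W f) _ hD' hDW' (σ.app W a) h3
  have h5 : f ^ n2 * a ∈ RingHom.ker (σ.app W).hom := by
    rw [RingHom.mem_ker]
    change σ.app W (f ^ n2 * a) = 0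
    rw [map_mul, map_pow]
    exact h4
  obtain ⟨n3, p, hp⟩ := qc_surj L hL W hW f _ rfl hDW sf
  have h6 : H56.resM L hDW (f ^ (n1 + n3) • n) = H56.resM L hDW (a • p) := by
    rw [H56.resM_smul, H56.resM_smul, ← hb, ← hp, resO_pow, pow_add, smul_smul, smul_smul, ← ha]
    congr 1
    ring
  obtain ⟨n4, h7⟩ := qc_eq L hL W hW f _ rfl hDW _ _ h6
  refine ⟨n2 + (n4 + (n1 + n3)), ?_⟩
  have e : f ^ (n2 + (n4 + (n1 + n3))) • n = (f ^ n2 * a) • (f ^ n4 • p) := by
    rw [pow_add, mul_smul, pow_add f n4, mul_smul, h7, smul_smul, smul_smul, smul_smul]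
    congr 1
    ring
  rw [e]
  exact Submodule.smul_mem_smul h5 Submodule.mem_top

include hL hW hV in
/-- the **kernel** of the pull-back of sections -/
theorem mem_ker_smul_of_pullSec_eq_zero (n : Γ(L, W)) (hn : pullSec σ L W n = 0) :
    n ∈ RingHom.ker (σ.app W).hom • (⊤ : Submodule Γ(X, W) Γ(L, W)) := by
  obtain ⟨S, hS, hgen⟩ := H18.stmt_AFFLOC L hL W hW
  let J : Ideal Γ(X, W) :=
    { carrier := {x | x • n ∈ RingHom.ker (σ.app W).hom • (⊤ : Submodule Γ(X, W) Γ(L, W))}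
      add_mem' := by
        intro x y hx hy
        rw [Set.mem_ofPred_eq] at hx hy ⊢
        rw [add_smul]
        exact Submodule.add_mem _ hx hy
      zero_mem' := by
        rw [Set.mem_ofPred_eq, zero_smul]
        exact Submodule.zero_mem _
      smul_mem' := by
        intro a x hx
        rw [Set.mem_ofPred_eq] at hx ⊢
        rw [smul_eq_mul, mul_smul]
        exact Submodule.smul_mem _ a hx }
  have h1 : (1 : Γ(X, W)) ∈ J := by
    refine one_mem_of_pow_mem J (S : Set Γ(X, W)) hS (fun f hf => ?_)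
    obtain ⟨sf, hsf⟩ := hgen f hf
    exact k2_local σ L hL W hW hV f sf hsf n hn
  have h2 : (1 : Γ(X, W)) • n ∈ RingHom.ker (σ.app W).hom • (⊤ : Submodule Γ(X, W) Γ(L, W)) := h1
  rwa [one_smul] at h2

end Key

section Gen

variable {Y : Scheme.{u}}

/-- on an affine open, a section of an invertible sheaf which generates the module of sections
generates the sheaf -/
theorem isGen_of_surjective (M : Y.Modules) (hM : Scheme.Modules.IsInvertible M) (V : Y.Opens)
    (hV : IsAffineOpen V) (t : Γ(M, V)) (ht : Function.Surjective (fun a : Γ(Y, V) => a • t)) :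
    IsGen M V t := by
  obtain ⟨S, hS, hgen⟩ := H18.stmt_AFFLOC M hM V hV
  have hcov : V ≤ ⨆ f : (S : Set Γ(Y, V)), Y.basicOpen (f : Γ(Y, V)) :=
    (hV.self_le_iSup_basicOpen_iff).2 hS
  refine Glue.H18.isGen_of_cover M V t (fun f : (S : Set Γ(Y, V)) => Y.basicOpen (f : Γ(Y, V)))
    hcov ?_
  intro f
  obtain ⟨sf, hsf⟩ := hgen f.1 f.2
  have h1 := H18.isGen_res_basicOpen M hM V hV t ht f.1 sf hsf
  have h2 := h1.mono (inf_le_right : V ⊓ Y.basicOpen (f : Γ(Y, V)) ≤ Y.basicOpen (f : Γ(Y, V)))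
  have h3 : M.presheaf.map (homOfLE (inf_le_right :
      V ⊓ Y.basicOpen (f : Γ(Y, V)) ≤ Y.basicOpen (f : Γ(Y, V)))).op
        (H56.resM M (Y.basicOpen_le (f : Γ(Y, V))) t) =
      H56.resM M (inf_le_left : V ⊓ Y.basicOpen (f : Γ(Y, V)) ≤ V) t :=
    H56.resM_resM M _ _ t
  rwa [h3] at h2

end Gen

end Fermat.Agent.S25.Bridge.H41
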