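import Fermat.Agent.S25.Bridge.H51_T3AlgAbs
import Fermat.Agent.S25.LB.H60_Unit

/-!
# S25, package BRIDGE, leaf T3-ALG (helper51)

`stmt_ALG : Bridge.H94.Stmt_ALG`: a triple is given by rank-one projectors `E0`, `E1` and transition
matrices `G`, `G'`: the instance `A_i = R ⊗ B_i` of `alg_core` (`H51_T3AlgAbs.lean`).
-/

set_option autoImplicit false
set_option linter.style.haveILetI false
set_option linter.unusedSectionVars false
set_option linter.unusedVariables false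

universe u

open TensorProduct

namespace Fermat.Agent.S25.Bridge.H51

open Fermat.Agent.S25.Bridge.H94 Fermat.Agent.S25.LB

section Main

variable {k : Type u} [Field k] {𝒞 : CurveDatum k} {R : Type u} [CommRing R] [Algebra k R]

/-- `r0` of a triple is the localisation at `x0`. -/
theorem isLocAt_r0 (hG : 𝒞.IsGood) (T : Triple 𝒞 R) :
    IsLocAt (𝒞.ι0 R) ((1 : R) ⊗ₜ[k] 𝒞.x0 : R ⊗[k] 𝒞.B0)
      (𝒞.ι1 R ((1 : R) ⊗ₜ[k] 𝒞.z1 : R ⊗[k] 𝒞.B1)) T.r0 where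
  unit := Triple.unit_mul_unit 𝒞 R
  rsurj c := H60.surj0_unit (R := R) hG c
  surj := T.surj0
  ker := T.ker0

/-- `r1` of a triple is the localisation at `z1`. -/
theorem isLocAt_r1 (hG : 𝒞.IsGood) (T : Triple 𝒞 R) :
    IsLocAt (𝒞.ι1 R) ((1 : R) ⊗ₜ[k] 𝒞.z1 : R ⊗[k] 𝒞.B1)
      (𝒞.ι0 R ((1 : R) ⊗ₜ[k] 𝒞.x0 : R ⊗[k] 𝒞.B0)) T.r1 where
  unit := by
    rw [mul_comm]
    exact Triple.unit_mul_unit 𝒞 R
  rsurj c := H60.surj1_unit (R := R) hG c
  surj := T.surj1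
  ker := T.ker1

/-- **BRIDGE-T3 ALG**. -/
theorem stmt_ALG : Stmt_ALG.{u} := by
  intro k _ 𝒞 hG R _ _ T
  haveI := T.inv0
  haveI := T.inv1
  exact alg_core (isLocAt_r0 hG T) (isLocAt_r1 hG T)

end Main

end Fermat.Agent.S25.Bridge.H51
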