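import Fermat.Agent.S25.Bridge.H94_T3Defs2
import Fermat.Agent.S25.Chart.H92_InvRankOne

/-!
# S25, package BRIDGE, leaf T3-ALGABS (helper51)

`stmt_ALGABS : Bridge.H94.Stmt_ALGABS`: two invertible modules with a common localisation are given
by rank-one projectors `E0`, `E1` and transition matrices `G`, `G'` (Mathlib only).

* `IsLocAt ι x z' r` : `r : P → P'` is the localisation of `P` at `x` over `ι : A → A'`
  (`ι x * z' = 1`);
* `IsLocAt.ext` : the extension of a functional `φ : P → A` to `P' → A'`;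
* `fixEquiv` : a module with a finite dual basis is the module of the vectors fixed by the matrix
  of the dual basis;
* `alg_core` : the statement for semilinear maps `r0`, `r1`;
* `stmt_ALGABS`.
-/

set_option autoImplicit false
set_option linter.style.haveILetI false
set_option linter.unusedSectionVars false
set_option linter.unusedVariables false

universe u

open TensorProduct

namespace Fermat.Agent.S25.Bridge.H51

open Fermat.Agent.S25.Bridge.H94

section Ext

variable {A A' : Type u} [CommRing A] [CommRing A'] {ι : A →+* A'} {x : A} {z' : A'}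
  {P P' : Type u} [AddCommGroup P] [Module A P] [AddCommGroup P'] [Module A' P']
  {r : P →ₛₗ[ι] P'}

/-- `r : P → P'` is the localisation of `P` at `x`, over `ι : A → A'` (`ι x * z' = 1`). -/
structure IsLocAt (ι : A →+* A') (x : A) (z' : A') (r : P →ₛₗ[ι] P') : Prop where
  unit : ι x * z' = 1
  rsurj : ∀ c : A', ∃ (n : ℕ) (a : A), ι x ^ n * c = ι a
  surj : ∀ m : P', ∃ (n : ℕ) (p : P), ι x ^ n • m = r p
  ker : ∀ p : P, r p = 0 → ∃ n : ℕ, x ^ n • p = 0

namespace IsLocAt

theorem pow_unit (h : IsLocAt ι x z' r) (n : ℕ) : z' ^ n * ι x ^ n = 1 := by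
  rw [← mul_pow, mul_comm, h.unit, one_pow]

theorem smul_cancel (h : IsLocAt ι x z' r) (n : ℕ) {m m' : P'}
    (hm : ι x ^ n • m = ι x ^ n • m') : m = m' := by
  have := congrArg (fun y => z' ^ n • y) hm
  simpa only [smul_smul, h.pow_unit, one_smul] using this

/-- The extension is well defined. -/
theorem wd (h : IsLocAt ι x z' r) (φ : P →ₗ[A] A) {m : P'} {n n' : ℕ} {p p' : P}
    (hp : ι x ^ n • m = r p) (hp' : ι x ^ n' • m = r p') :
    z' ^ n * ι (φ p) = z' ^ n' * ι (φ p') := by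
  have h0 : r (x ^ n' • p - x ^ n • p') = 0 := by
    rw [map_sub, r.map_smulₛₗ, r.map_smulₛₗ, map_pow, map_pow, ← hp, ← hp', smul_smul,
      smul_smul, mul_comm, sub_self]
  obtain ⟨N, hN⟩ := h.ker _ h0
  have h1 := congrArg (fun y => ι (φ y)) hN
  simp only [map_smul, map_sub, smul_eq_mul, map_mul, map_pow, map_zero] at h1
  have hN' := h.pow_unit N
  have hn := h.pow_unit n
  have hn' := h.pow_unit n'
  linear_combination (z' ^ N * z' ^ n * z' ^ n') * h1
    + (-(z' ^ n * ι (φ p)) + z' ^ n' * ι (φ p')) * hN'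
    + (-(z' ^ n * ι (φ p) * (z' ^ N * ι x ^ N))) * hn'
    + (z' ^ n' * ι (φ p') * (z' ^ N * ι x ^ N)) * hn

/-- The extension of a functional, as a function. -/
noncomputable def extFun (h : IsLocAt ι x z' r) (φ : P →ₗ[A] A) (m : P') : A' :=
  z' ^ (h.surj m).choose * ι (φ (h.surj m).choose_spec.choose)

theorem extFun_eq (h : IsLocAt ι x z' r) (φ : P →ₗ[A] A) {m : P'} {n : ℕ} {p : P}
    (hp : ι x ^ n • m = r p) : h.extFun φ m = z' ^ n * ι (φ p) :=
  h.wd φ (h.surj m).choose_spec.choose_spec hp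

/-- The extension of a functional to the localisation. -/
noncomputable def ext (h : IsLocAt ι x z' r) (φ : P →ₗ[A] A) : P' →ₗ[A'] A' where
  toFun := h.extFun φ
  map_add' m1 m2 := by
    obtain ⟨n1, p1, h1⟩ := h.surj m1
    obtain ⟨n2, p2, h2⟩ := h.surj m2
    have h12 : ι x ^ (n1 + n2) • (m1 + m2) = r (x ^ n2 • p1 + x ^ n1 • p2) := by
      rw [map_add, r.map_smulₛₗ, r.map_smulₛₗ, ← h1, ← h2, map_pow, map_pow, smul_add,
        smul_smul, smul_smul, pow_add, mul_comm]
    rw [h.extFun_eq φ h12, h.extFun_eq φ h1, h.extFun_eq φ h2, map_add, map_smul, map_smul,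
      smul_eq_mul, smul_eq_mul, map_add, map_mul, map_mul, map_pow, map_pow]
    have e1 := h.pow_unit n1
    have e2 := h.pow_unit n2
    linear_combination (z' ^ n1 * ι (φ p1)) * e2 + (z' ^ n2 * ι (φ p2)) * e1
  map_smul' c m := by
    obtain ⟨l, a, hl⟩ := h.rsurj c
    obtain ⟨n, p, hn⟩ := h.surj m
    have hcm : ι x ^ (l + n) • (c • m) = r (a • p) := by
      rw [r.map_smulₛₗ, ← hn, ← hl, smul_smul, smul_smul, pow_add]
      congr 1
      ring
    rw [h.extFun_eq φ hcm, h.extFun_eq φ hn, map_smul, smul_eq_mul, map_mul, ← hl,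
      RingHom.id_apply, smul_eq_mul]
    have e1 := h.pow_unit l
    linear_combination (c * z' ^ n * ι (φ p)) * e1

theorem ext_apply (h : IsLocAt ι x z' r) (φ : P →ₗ[A] A) (p : P) :
    h.ext φ (r p) = ι (φ p) := by
  have h0 : ι x ^ 0 • r p = r p := by rw [pow_zero, one_smul]
  have := h.extFun_eq φ h0
  rw [pow_zero, one_mul] at this
  exact this

/-- A dual basis of `P` extends to a dual basis of the localisation. -/
theorem ext_sum (h : IsLocAt ι x z' r) {n : ℕ} (φ : Fin n → (P →ₗ[A] A)) (b : Fin n → P)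
    (hsum : ∀ q : P, ∑ i, φ i q • b i = q) (m : P') :
    ∑ i, h.ext (φ i) m • r (b i) = m := by
  obtain ⟨N, p, hN⟩ := h.surj m
  apply h.smul_cancel N
  rw [Finset.smul_sum, hN]
  conv_rhs => rw [← hsum p, map_sum]
  refine Finset.sum_congr rfl fun i _ => ?_
  rw [r.map_smulₛₗ, ← h.ext_apply, ← hN, map_smul, smul_eq_mul, smul_smul]

end IsLocAt

end Ext

section Fix

variable {A : Type u} [CommRing A] {M : Type u} [AddCommGroup M] [Module A M]

/-- A module with a finite dual basis is the module of the vectors fixed by the matrix of the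
dual basis. -/
noncomputable def fixEquiv {n : ℕ} (φ : Fin n → (M →ₗ[A] A)) (b : Fin n → M)
    (E : Matrix (Fin n) (Fin n) A) (hE : ∀ i l, E i l = φ i (b l))
    (hsum : ∀ q : M, ∑ i, φ i q • b i = q) : M ≃ₗ[A] fixSub E where
  toFun q := ⟨fun i => φ i q, by
    rw [mem_fixSub]
    funext i
    rw [Matrix.mulVec, dotProduct]
    conv_rhs => rw [← hsum q, map_sum]
    refine Finset.sum_congr rfl fun l _ => ?_
    rw [hE, map_smul, smul_eq_mul, mul_comm]⟩
  map_add' q q' := by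
    apply Subtype.ext
    funext i
    simp only [map_add, Submodule.coe_add, Pi.add_apply]
  map_smul' c q := by
    apply Subtype.ext
    funext i
    simp only [map_smul, smul_eq_mul, RingHom.id_apply, Submodule.coe_smul, Pi.smul_apply]
  invFun a := ∑ l, a.1 l • b l
  left_inv q := hsum q
  right_inv a := by
    apply Subtype.ext
    funext i
    have ha : E.mulVec a.1 = a.1 := a.2
    change φ i (∑ l, a.1 l • b l) = a.1 i
    conv_rhs => rw [← ha]
    rw [Matrix.mulVec, dotProduct, map_sum]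
    refine Finset.sum_congr rfl fun l _ => ?_
    rw [hE, map_smul, smul_eq_mul, mul_comm]

theorem fixEquiv_apply {n : ℕ} (φ : Fin n → (M →ₗ[A] A)) (b : Fin n → M)
    (E : Matrix (Fin n) (Fin n) A) (hE : ∀ i l, E i l = φ i (b l))
    (hsum : ∀ q : M, ∑ i, φ i q • b i = q) (q : M) (i : Fin n) :
    (fixEquiv φ b E hE hsum q).1 i = φ i q := rfl

/-- A dual basis of an invertible module, indexed by `Fin n`. -/
theorem exists_dualBasis_fin [Module.Invertible A M] :
    ∃ (n : ℕ) (φ : Fin n → (M →ₗ[A] A)) (b : Fin n → M),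
      (∑ i, φ i (b i) = 1) ∧ (∀ q : M, ∑ i, φ i q • b i = q) := by
  classical
  obtain ⟨ι, _, φ, b, h⟩ := Chart.H92R.exists_dualBasis (R := A) (M := M)
  let e := Fintype.equivFin ι
  have h' : ∑ i : Fin (Fintype.card ι), φ (e.symm i) (b (e.symm i)) = 1 := by
    rw [← h]
    exact Fintype.sum_equiv e.symm _ _ (fun j => rfl)
  exact ⟨Fintype.card ι, fun i => φ (e.symm i), fun i => b (e.symm i), h',
    fun q => Chart.H92R.sum_dualBasis _ _ h' q⟩

/-- The matrix of a dual basis of an invertible module is a rank-one projector. -/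
theorem isProj1_of_dualBasis [Module.Invertible A M] {n : ℕ} (φ : Fin n → (M →ₗ[A] A))
    (b : Fin n → M) (E : Matrix (Fin n) (Fin n) A) (hE : ∀ i l, E i l = φ i (b l))
    (h1 : ∑ i, φ i (b i) = 1) : IsProj1 E where
  minor i j l m := by
    have h := congrArg (φ l) (Chart.H92R.rankOne (φ i) (b j) (b m))
    rw [map_smul, map_smul, smul_eq_mul, smul_eq_mul] at h
    rw [hE, hE, hE, hE]
    exact h
  trace := by
    rw [← h1]
    exact Finset.sum_congr rfl fun i _ => hE i i

end Fix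

section Core

variable {A0 A1 A01 : Type u} [CommRing A0] [CommRing A1] [CommRing A01]
  {ι0 : A0 →+* A01} {ι1 : A1 →+* A01} {x : A0} {z : A1} {z0' z1' : A01}
  {P0 P1 P01 : Type u} [AddCommGroup P0] [Module A0 P0] [AddCommGroup P1] [Module A1 P1]
  [AddCommGroup P01] [Module A01 P01] {r0 : P0 →ₛₗ[ι0] P01} {r1 : P1 →ₛₗ[ι1] P01}

/-- The abstract form of **ALG**. -/
theorem alg_core [Module.Invertible A0 P0] [Module.Invertible A1 P1]
    (h0 : IsLocAt ι0 x z0' r0) (h1 : IsLocAt ι1 z z1' r1) :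
    ∃ (n0 n1 : ℕ) (E0 : Matrix (Fin n0) (Fin n0) A0) (E1 : Matrix (Fin n1) (Fin n1) A1)
      (G : Matrix (Fin n1) (Fin n0) A01) (G' : Matrix (Fin n0) (Fin n1) A01),
      IsProj1 E0 ∧ IsProj1 E1 ∧ G' * G = E0.map ι0 ∧ G * G' = E1.map ι1 ∧
      ∃ (e0 : P0 ≃+ fixSub E0) (e1 : P1 ≃+ fixSub E1) (e01 : P01 ≃+ fixSub (E0.map ι0)),
        (∀ (c : A0) (p : P0), e0 (c • p) = c • e0 p) ∧
        (∀ (c : A1) (p : P1), e1 (c • p) = c • e1 p) ∧
        (∀ (c : A01) (p : P01), e01 (c • p) = c • e01 p) ∧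
        (∀ (p : P0) (i : Fin n0), (e01 (r0 p)).1 i = ι0 ((e0 p).1 i)) ∧
        (∀ (p : P1) (i : Fin n0),
          (e01 (r1 p)).1 i = ∑ j : Fin n1, G' i j * ι1 ((e1 p).1 j)) := by
  classical
  obtain ⟨n0, φ, b, hφ1, hφ⟩ := exists_dualBasis_fin (A := A0) (M := P0)
  obtain ⟨n1, ψ, c, hψ1, hψ⟩ := exists_dualBasis_fin (A := A1) (M := P1)
  let E0 : Matrix (Fin n0) (Fin n0) A0 := Matrix.of fun i l => φ i (b l)
  let E1 : Matrix (Fin n1) (Fin n1) A1 := Matrix.of fun j l => ψ j (c l)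
  let G : Matrix (Fin n1) (Fin n0) A01 := Matrix.of fun j i => h1.ext (ψ j) (r0 (b i))
  let G' : Matrix (Fin n0) (Fin n1) A01 := Matrix.of fun i j => h0.ext (φ i) (r1 (c j))
  have hφ' := h0.ext_sum φ b hφ
  have hψ' := h1.ext_sum ψ c hψ
  refine ⟨n0, n1, E0, E1, G, G', isProj1_of_dualBasis φ b E0 (fun _ _ => rfl) hφ1,
    isProj1_of_dualBasis ψ c E1 (fun _ _ => rfl) hψ1, ?_, ?_, ?_⟩
  · ext i l
    rw [Matrix.mul_apply, Matrix.map_apply]
    change ∑ j, h0.ext (φ i) (r1 (c j)) * h1.ext (ψ j) (r0 (b l)) = ι0 (φ i (b l))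
    rw [← h0.ext_apply]
    conv_rhs => rw [← hψ' (r0 (b l)), map_sum]
    refine Finset.sum_congr rfl fun j _ => ?_
    rw [map_smul, smul_eq_mul, mul_comm]
  · ext j l
    rw [Matrix.mul_apply, Matrix.map_apply]
    change ∑ i, h1.ext (ψ j) (r0 (b i)) * h0.ext (φ i) (r1 (c l)) = ι1 (ψ j (c l))
    rw [← h1.ext_apply]
    conv_rhs => rw [← hφ' (r1 (c l)), map_sum]
    refine Finset.sum_congr rfl fun i _ => ?_
    rw [map_smul, smul_eq_mul, mul_comm]
  · refine ⟨(fixEquiv φ b E0 (fun _ _ => rfl) hφ).toAddEquiv,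
      (fixEquiv ψ c E1 (fun _ _ => rfl) hψ).toAddEquiv,
      (fixEquiv (fun i => h0.ext (φ i)) (fun i => r0 (b i)) (E0.map ι0)
        (fun i l => by rw [Matrix.map_apply, h0.ext_apply]; rfl) hφ').toAddEquiv, ?_, ?_, ?_, ?_, ?_⟩
    · intro a p
      exact (fixEquiv φ b E0 (fun _ _ => rfl) hφ).map_smul a p
    · intro a p
      exact (fixEquiv ψ c E1 (fun _ _ => rfl) hψ).map_smul a p
    · intro a p
      exact (fixEquiv (fun i => h0.ext (φ i)) (fun i => r0 (b i)) (E0.map ι0)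
        (fun i l => by rw [Matrix.map_apply, h0.ext_apply]; rfl) hφ').map_smul a p
    · intro p i
      change h0.ext (φ i) (r0 p) = ι0 (φ i p)
      exact h0.ext_apply _ _
    · intro p i
      change h0.ext (φ i) (r1 p) = ∑ j, h0.ext (φ i) (r1 (c j)) * ι1 (ψ j p)
      conv_lhs => rw [← hψ p, map_sum, map_sum]
      refine Finset.sum_congr rfl fun j _ => ?_
      rw [r1.map_smulₛₗ, map_smul, smul_eq_mul, mul_comm]

end Core

/-- **BRIDGE-T3 ALGABS**. -/
theorem stmt_ALGABS : Stmt_ALGABS.{u} := by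
  intro A0 A1 A01 _ _ _ ρ0 ρ1 f0 f1 hs0 hs1 hu0 hu1 P0 P1 P01 _ _ _ _ _ _ hi0 hi1 r0 r1
    hr0 hr1 hsurj0 hker0 hsurj1 hker1
  haveI := hi0
  haveI := hi1
  obtain ⟨u0, hu0⟩ := hu0
  obtain ⟨u1, hu1⟩ := hu1
  let R0 : P0 →ₛₗ[ρ0] P01 :=
    { toFun := r0
      map_add' := map_add r0
      map_smul' := hr0 }
  let R1 : P1 →ₛₗ[ρ1] P01 :=
    { toFun := r1
      map_add' := map_add r1
      map_smul' := hr1 }
  have h0 : IsLocAt ρ0 f0 (↑u0⁻¹ : A01) R0 :=
    { unit := by rw [← hu0]; exact u0.mul_inv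
      rsurj := hs0
      surj := hsurj0
      ker := hker0 }
  have h1 : IsLocAt ρ1 f1 (↑u1⁻¹ : A01) R1 :=
    { unit := by rw [← hu1]; exact u1.mul_inv
      rsurj := hs1
      surj := hsurj1
      ker := hker1 }
  exact alg_core h0 h1

end Fermat.Agent.S25.Bridge.H51
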