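/-
helper94, S25 (Jacobian exists), package BRIDGE, leaf T3 — INTERFACE of the decomposition

  T3  ⟸  RING + ALG + MG      (assembly: GLUE-b).

* `IsProj1 E`  : `E` is a rank-one projector: all `2 × 2` minors vanish and the trace is `1`
                 (then `E * E = E`, and the image of `E` is an invertible module).
* `fixSub E`   : the module of the vectors fixed by `E` (= the image of `E`).
* `Stmt_ALG`   : (pure algebra) a triple is given by rank-one projectors `E0` over `R ⊗ B0`, `E1` over `R ⊗ B1` and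
                 transition matrices `G`, `G'` over `R ⊗ B01` (dual bases of the invertible modules `P0`, `P1`).
* `Stmt_MG`    : (schemes) rank-one projectors on two opens `W0`, `W1` covering a scheme, with transition matrices on
                 `W0 ⊓ W1`, glue to an invertible sheaf with the expected sections on `W0`, `W1`, `W0 ⊓ W1`.
-/
import Fermat.Agent.S25.Bridge.Defs

set_option autoImplicit false

universe u

open CategoryTheory CategoryTheory.Limits AlgebraicGeometry TopologicalSpace TensorProduct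

namespace Fermat.Agent.S25.Bridge.H94

/-- A rank-one projector: the `2 × 2` minors vanish and the trace is `1`. -/
structure IsProj1 {A : Type u} [CommRing A] {n : ℕ} (E : Matrix (Fin n) (Fin n) A) : Prop where
  minor : ∀ i j l m : Fin n, E i j * E l m = E i m * E l j
  trace : ∑ i : Fin n, E i i = 1

/-- The vectors fixed by a matrix. -/
def fixSub {A : Type u} [CommRing A] {n : ℕ} (E : Matrix (Fin n) (Fin n) A) :
    Submodule A (Fin n → A) where
  carrier := {a | E.mulVec a = a}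
  add_mem' {a b} ha hb := by
    simp only [Set.mem_ofPred_eq] at ha hb ⊢
    rw [Matrix.mulVec_add, ha, hb]
  zero_mem' := by
    simp only [Set.mem_ofPred_eq]
    rw [Matrix.mulVec_zero]
  smul_mem' c a ha := by
    simp only [Set.mem_ofPred_eq] at ha ⊢
    rw [Matrix.mulVec_smul, ha]

theorem mem_fixSub {A : Type u} [CommRing A] {n : ℕ} (E : Matrix (Fin n) (Fin n) A)
    (a : Fin n → A) : a ∈ fixSub E ↔ E.mulVec a = a := Iff.rfl

/-- **ALG** (pure algebra): a triple is given by rank-one projectors and transition matrices.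
[`(φ_i, m_i)` a dual basis of `P0` (`∑ φ_i m_i = 1`), `(ψ_j, n_j)` of `P1`; `E0 = (φ_i m_l)`, `E1 = (ψ_j n_l)`,
`G = (ψ_j^01 (r0 m_i))`, `G' = (φ_i^01 (r1 n_j))` with `φ^01`, `ψ^01` the extensions to the localisation `P01`;
`h0 p = (φ_i p)_i`, `h1 p = (ψ_j p)_j`, `h01 m = (φ_i^01 m)_i`.] -/
def Stmt_ALG : Prop :=
  ∀ (k : Type u) [Field k] (𝒞 : LB.CurveDatum k), 𝒞.IsGood →
    ∀ (R : Type u) [CommRing R] [Algebra k R] (T : LB.Triple 𝒞 R),
      ∃ (n0 n1 : ℕ) (E0 : Matrix (Fin n0) (Fin n0) (R ⊗[k] 𝒞.B0))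
        (E1 : Matrix (Fin n1) (Fin n1) (R ⊗[k] 𝒞.B1))
        (G : Matrix (Fin n1) (Fin n0) (R ⊗[k] 𝒞.B01)) (G' : Matrix (Fin n0) (Fin n1) (R ⊗[k] 𝒞.B01)),
        IsProj1 E0 ∧ IsProj1 E1 ∧
        G' * G = E0.map (𝒞.ι0 R) ∧ G * G' = E1.map (𝒞.ι1 R) ∧
        ∃ (h0 : T.P0 ≃+ fixSub E0) (h1 : T.P1 ≃+ fixSub E1)
          (h01 : T.P01 ≃+ fixSub (E0.map (𝒞.ι0 R))),
          (∀ (c : R ⊗[k] 𝒞.B0) (p : T.P0), h0 (c • p) = c • h0 p) ∧
          (∀ (c : R ⊗[k] 𝒞.B1) (p : T.P1), h1 (c • p) = c • h1 p) ∧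
          (∀ (c : R ⊗[k] 𝒞.B01) (p : T.P01), h01 (c • p) = c • h01 p) ∧
          (∀ (p : T.P0) (i : Fin n0), (h01 (T.r0 p)).1 i = 𝒞.ι0 R ((h0 p).1 i)) ∧
          (∀ (p : T.P1) (i : Fin n0),
            (h01 (T.r1 p)).1 i = ∑ j : Fin n1, G' i j * 𝒞.ι1 R ((h1 p).1 j))

/-- **MG** (matrix gluing on a scheme): rank-one projectors `E0` on `W0`, `E1` on `W1` (`W0 ⊔ W1 = ⊤`) with
transition matrices `G`, `G'` on `W0 ⊓ W1` define an invertible sheaf `L` with
`Γ(L, W0) = Fix E0`, `Γ(L, W1) = Fix E1`, `Γ(L, W0 ⊓ W1) = Fix (E0|)`. -/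
def Stmt_MG : Prop :=
  ∀ (X : Scheme.{u}) (W0 W1 : X.Opens), W0 ⊔ W1 = ⊤ →
    ∀ (n0 n1 : ℕ) (E0 : Matrix (Fin n0) (Fin n0) Γ(X, W0)) (E1 : Matrix (Fin n1) (Fin n1) Γ(X, W1))
      (G : Matrix (Fin n1) (Fin n0) Γ(X, W0 ⊓ W1)) (G' : Matrix (Fin n0) (Fin n1) Γ(X, W0 ⊓ W1)),
      IsProj1 E0 → IsProj1 E1 →
      G' * G = E0.map (resO (inf_le_left : W0 ⊓ W1 ≤ W0)) →
      G * G' = E1.map (resO (inf_le_right : W0 ⊓ W1 ≤ W1)) →
      ∃ L : X.Modules, Scheme.Modules.IsInvertible L ∧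
        ∃ (f0 : fixSub E0 ≃+ Γ(L, W0)) (f1 : fixSub E1 ≃+ Γ(L, W1))
          (f01 : fixSub (E0.map (resO (inf_le_left : W0 ⊓ W1 ≤ W0))) ≃+ Γ(L, W0 ⊓ W1)),
          (∀ (c : Γ(X, W0)) (a : fixSub E0), f0 (c • a) = c • f0 a) ∧
          (∀ (c : Γ(X, W1)) (b : fixSub E1), f1 (c • b) = c • f1 b) ∧
          (∀ (c : Γ(X, W0 ⊓ W1)) (a : fixSub (E0.map (resO (inf_le_left : W0 ⊓ W1 ≤ W0)))),
            f01 (c • a) = c • f01 a) ∧
          (∀ (a : fixSub E0) (a' : fixSub (E0.map (resO (inf_le_left : W0 ⊓ W1 ≤ W0)))),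
            (∀ i, a'.1 i = resO (inf_le_left : W0 ⊓ W1 ≤ W0) (a.1 i)) →
            f01 a' = res L (inf_le_left : W0 ⊓ W1 ≤ W0) (f0 a)) ∧
          (∀ (b : fixSub E1) (a' : fixSub (E0.map (resO (inf_le_left : W0 ⊓ W1 ≤ W0)))),
            (∀ i, a'.1 i = ∑ j : Fin n1, G' i j * resO (inf_le_right : W0 ⊓ W1 ≤ W1) (b.1 j)) →
            f01 a' = res L (inf_le_right : W0 ⊓ W1 ≤ W1) (f1 b))

end Fermat.Agent.S25.Bridge.H94
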