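/-
helper94, S25 (Jacobian exists), package BRIDGE, leaf T3, part MG (matrix gluing), file 1:
the sheaf of modules defined by two matrices on two opens and a transition matrix.

`X` a scheme, `W0`, `W1` opens, `E0` a square matrix of functions on `W0`, `E1` on `W1`, `G` a matrix of
functions on `W0 ⊓ W1`.  Sections over `V`: pairs `(a, b)`, `a i ∈ Γ(X, V ⊓ W0)`, `b j ∈ Γ(X, V ⊓ W1)` with
`E0 a = a`, `E1 b = b`, `b = G a` on `V ⊓ W0 ⊓ W1`.  No hypothesis on the matrices is needed for the sheaf.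

* `Sec2`, `mkPresheaf2`, `mkPresheaf2_isSheaf`, `mkSheaf2 : X.Modules`, `toΓ2`, `ofΓ2`.
-/
import Fermat.Agent.S25.Bridge.H94_T3Defs
import Fermat.Agent.S25.Glue.H56_Mk

set_option autoImplicit false

open CategoryTheory AlgebraicGeometry TopologicalSpace Opposite

universe u

namespace Fermat.Agent.S25.Bridge.H94

open Fermat.Agent.S25.Glue

variable {X : Scheme.{u}}

theorem rO_sum {U V : X.Opens} (h : V ≤ U) {κ : Type*} (s : Finset κ) (f : κ → Γ(X, U)) :
    H56.resO X h (∑ i ∈ s, f i) = ∑ i ∈ s, H56.resO X h (f i) := by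
  unfold H56.resO
  exact map_sum _ _ _

variable (W0 W1 : X.Opens) {n0 n1 : ℕ}
  (E0 : Matrix (Fin n0) (Fin n0) Γ(X, W0)) (E1 : Matrix (Fin n1) (Fin n1) Γ(X, W1))
  (G : Matrix (Fin n1) (Fin n0) Γ(X, W0 ⊓ W1))

/-- The type of the coordinates of a section over `V`. -/
abbrev Coord2 (n0 n1 : ℕ) (V : X.Opens) : Type u :=
  (Fin n0 → Γ(X, V ⊓ W0)) × (Fin n1 → Γ(X, V ⊓ W1))

/-- The conditions on the coordinates of a section. -/
def IsSec2 (V : X.Opens) (s : Coord2 W0 W1 n0 n1 V) : Prop :=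
  (∀ i, s.1 i = ∑ l, H56.resO X (inf_le_right : V ⊓ W0 ≤ W0) (E0 i l) * s.1 l) ∧
  (∀ j, s.2 j = ∑ m, H56.resO X (inf_le_right : V ⊓ W1 ≤ W1) (E1 j m) * s.2 m) ∧
  (∀ j, H56.resO X (le_inf (inf_le_left.trans inf_le_left) inf_le_right :
        V ⊓ W0 ⊓ W1 ≤ V ⊓ W1) (s.2 j) =
    ∑ i, H56.resO X (le_inf (inf_le_left.trans inf_le_right) inf_le_right :
        V ⊓ W0 ⊓ W1 ≤ W0 ⊓ W1) (G j i) *
      H56.resO X (inf_le_left : V ⊓ W0 ⊓ W1 ≤ V ⊓ W0) (s.1 i))

/-- The sections over `V`. -/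
def Sec2 (V : X.Opens) : AddSubgroup (Coord2 W0 W1 n0 n1 V) where
  carrier := {s | IsSec2 W0 W1 E0 E1 G V s}
  add_mem' := by
    rintro s t ⟨hs1, hs2, hs3⟩ ⟨ht1, ht2, ht3⟩
    refine ⟨fun i => ?_, fun j => ?_, fun j => ?_⟩
    · simp only [Prod.fst_add, Pi.add_apply, mul_add, Finset.sum_add_distrib]
      rw [← hs1 i, ← ht1 i]
    · simp only [Prod.snd_add, Pi.add_apply, mul_add, Finset.sum_add_distrib]
      rw [← hs2 j, ← ht2 j]
    · simp only [Prod.fst_add, Prod.snd_add, Pi.add_apply, H56.resO_add, mul_add,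
        Finset.sum_add_distrib]
      rw [← hs3 j, ← ht3 j]
  zero_mem' := by
    refine ⟨fun i => ?_, fun j => ?_, fun j => ?_⟩
    · simp only [Prod.fst_zero, Pi.zero_apply, mul_zero, Finset.sum_const_zero]
    · simp only [Prod.snd_zero, Pi.zero_apply, mul_zero, Finset.sum_const_zero]
    · simp only [Prod.fst_zero, Prod.snd_zero, Pi.zero_apply, H56.resO_zero, mul_zero,
        Finset.sum_const_zero]
  neg_mem' := by
    rintro s ⟨hs1, hs2, hs3⟩
    refine ⟨fun i => ?_, fun j => ?_, fun j => ?_⟩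
    · simp only [Prod.fst_neg, Pi.neg_apply, mul_neg, Finset.sum_neg_distrib]
      rw [← hs1 i]
    · simp only [Prod.snd_neg, Pi.neg_apply, mul_neg, Finset.sum_neg_distrib]
      rw [← hs2 j]
    · simp only [Prod.fst_neg, Prod.snd_neg, Pi.neg_apply, H56.resO_neg, mul_neg,
        Finset.sum_neg_distrib]
      rw [← hs3 j]

theorem mem_sec2 {V : X.Opens} {s : Coord2 W0 W1 n0 n1 V} :
    s ∈ Sec2 W0 W1 E0 E1 G V ↔ IsSec2 W0 W1 E0 E1 G V s := Iff.rfl

/-- scalar multiplication on coordinates -/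
noncomputable def secSmul2 (V : X.Opens) (r : Γ(X, V)) (s : Sec2 W0 W1 E0 E1 G V) :
    Sec2 W0 W1 E0 E1 G V :=
  ⟨(fun i => H56.resO X inf_le_left r * s.1.1 i, fun j => H56.resO X inf_le_left r * s.1.2 j), by
    obtain ⟨hs1, hs2, hs3⟩ := s.2
    refine ⟨fun i => ?_, fun j => ?_, fun j => ?_⟩
    · change H56.resO X inf_le_left r * s.1.1 i =
        ∑ l, H56.resO X inf_le_right (E0 i l) * (H56.resO X inf_le_left r * s.1.1 l)
      conv_lhs => rw [hs1 i]
      rw [Finset.mul_sum]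
      exact Finset.sum_congr rfl fun l _ => by ring
    · change H56.resO X inf_le_left r * s.1.2 j =
        ∑ m, H56.resO X inf_le_right (E1 j m) * (H56.resO X inf_le_left r * s.1.2 m)
      conv_lhs => rw [hs2 j]
      rw [Finset.mul_sum]
      exact Finset.sum_congr rfl fun l _ => by ring
    · change H56.resO X _ (H56.resO X inf_le_left r * s.1.2 j) =
        ∑ i, H56.resO X _ (G j i) * H56.resO X _ (H56.resO X inf_le_left r * s.1.1 i)
      simp only [H56.resO_mul, H56.resO_resO]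
      rw [hs3 j, Finset.mul_sum]
      exact Finset.sum_congr rfl fun l _ => by ring⟩

noncomputable instance (V : X.Opens) : SMul Γ(X, V) (Sec2 W0 W1 E0 E1 G V) :=
  ⟨secSmul2 W0 W1 E0 E1 G V⟩

theorem smul2_fst (V : X.Opens) (r : Γ(X, V)) (s : Sec2 W0 W1 E0 E1 G V) (i : Fin n0) :
    (r • s).1.1 i = H56.resO X inf_le_left r * s.1.1 i := rfl

theorem smul2_snd (V : X.Opens) (r : Γ(X, V)) (s : Sec2 W0 W1 E0 E1 G V) (j : Fin n1) :
    (r • s).1.2 j = H56.resO X inf_le_left r * s.1.2 j := rfl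

variable {W0 W1 E0 E1 G} in
theorem sec2_ext {V : X.Opens} {s t : Sec2 W0 W1 E0 E1 G V}
    (h1 : ∀ i, s.1.1 i = t.1.1 i) (h2 : ∀ j, s.1.2 j = t.1.2 j) : s = t := by
  apply Subtype.ext
  exact Prod.ext (funext h1) (funext h2)

theorem add2_fst (V : X.Opens) (s t : Sec2 W0 W1 E0 E1 G V) (i : Fin n0) :
    (s + t).1.1 i = s.1.1 i + t.1.1 i := rfl

theorem add2_snd (V : X.Opens) (s t : Sec2 W0 W1 E0 E1 G V) (j : Fin n1) :
    (s + t).1.2 j = s.1.2 j + t.1.2 j := rfl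

theorem zero2_fst (V : X.Opens) (i : Fin n0) : (0 : Sec2 W0 W1 E0 E1 G V).1.1 i = 0 := rfl

theorem zero2_snd (V : X.Opens) (j : Fin n1) : (0 : Sec2 W0 W1 E0 E1 G V).1.2 j = 0 := rfl

noncomputable instance (V : X.Opens) : Module Γ(X, V) (Sec2 W0 W1 E0 E1 G V) where
  one_smul s := by
    apply sec2_ext
    · intro i; rw [smul2_fst, H56.resO_one, one_mul]
    · intro j; rw [smul2_snd, H56.resO_one, one_mul]
  mul_smul r r' s := by
    apply sec2_ext
    · intro i; rw [smul2_fst, smul2_fst, smul2_fst, H56.resO_mul, mul_assoc]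
    · intro j; rw [smul2_snd, smul2_snd, smul2_snd, H56.resO_mul, mul_assoc]
  smul_zero r := by
    apply sec2_ext
    · intro i; rw [smul2_fst, zero2_fst, mul_zero]
    · intro j; rw [smul2_snd, zero2_snd, mul_zero]
  smul_add r s t := by
    apply sec2_ext
    · intro i; rw [smul2_fst, add2_fst, add2_fst, smul2_fst, smul2_fst, mul_add]
    · intro j; rw [smul2_snd, add2_snd, add2_snd, smul2_snd, smul2_snd, mul_add]
  add_smul r r' s := by
    apply sec2_ext
    · intro i; rw [smul2_fst, add2_fst, smul2_fst, smul2_fst, H56.resO_add, add_mul]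
    · intro j; rw [smul2_snd, add2_snd, smul2_snd, smul2_snd, H56.resO_add, add_mul]
  zero_smul s := by
    apply sec2_ext
    · intro i; rw [smul2_fst, zero2_fst, H56.resO_zero, zero_mul]
    · intro j; rw [smul2_snd, zero2_snd, H56.resO_zero, zero_mul]

/-- restriction of sections -/
noncomputable def secRes2 {V V' : X.Opens} (h : V' ≤ V) (s : Sec2 W0 W1 E0 E1 G V) :
    Sec2 W0 W1 E0 E1 G V' :=
  ⟨(fun i => H56.resO X (inf_le_inf_right W0 h) (s.1.1 i),
    fun j => H56.resO X (inf_le_inf_right W1 h) (s.1.2 j)), by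
    obtain ⟨hs1, hs2, hs3⟩ := s.2
    refine ⟨fun i => ?_, fun j => ?_, fun j => ?_⟩
    · change H56.resO X _ (s.1.1 i) = ∑ l, H56.resO X _ (E0 i l) * H56.resO X _ (s.1.1 l)
      conv_lhs => rw [hs1 i]
      rw [rO_sum]
      exact Finset.sum_congr rfl fun l _ => by rw [H56.resO_mul, H56.resO_resO]
    · change H56.resO X _ (s.1.2 j) = ∑ m, H56.resO X _ (E1 j m) * H56.resO X _ (s.1.2 m)
      conv_lhs => rw [hs2 j]
      rw [rO_sum]
      exact Finset.sum_congr rfl fun l _ => by rw [H56.resO_mul, H56.resO_resO]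
    · change H56.resO X _ (H56.resO X _ (s.1.2 j)) =
        ∑ i, H56.resO X _ (G j i) * H56.resO X _ (H56.resO X _ (s.1.1 i))
      have h3 := congrArg (H56.resO X (inf_le_inf_right W1 (inf_le_inf_right W0 h))) (hs3 j)
      rw [rO_sum] at h3
      simp only [H56.resO_mul, H56.resO_resO] at h3 ⊢
      exact h3⟩

theorem secRes2_fst {V V' : X.Opens} (h : V' ≤ V) (s : Sec2 W0 W1 E0 E1 G V) (i : Fin n0) :
    (secRes2 W0 W1 E0 E1 G h s).1.1 i = H56.resO X (inf_le_inf_right W0 h) (s.1.1 i) := rfl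

theorem secRes2_snd {V V' : X.Opens} (h : V' ≤ V) (s : Sec2 W0 W1 E0 E1 G V) (j : Fin n1) :
    (secRes2 W0 W1 E0 E1 G h s).1.2 j = H56.resO X (inf_le_inf_right W1 h) (s.1.2 j) := rfl

theorem secRes2_add {V V' : X.Opens} (h : V' ≤ V) (s t : Sec2 W0 W1 E0 E1 G V) :
    secRes2 W0 W1 E0 E1 G h (s + t) = secRes2 W0 W1 E0 E1 G h s + secRes2 W0 W1 E0 E1 G h t := by
  apply sec2_ext
  · intro i; simp only [secRes2_fst, add2_fst, H56.resO_add]
  · intro j; simp only [secRes2_snd, add2_snd, H56.resO_add]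

theorem secRes2_smul {V V' : X.Opens} (h : V' ≤ V) (r : Γ(X, V)) (s : Sec2 W0 W1 E0 E1 G V) :
    secRes2 W0 W1 E0 E1 G h (r • s) = H56.resO X h r • secRes2 W0 W1 E0 E1 G h s := by
  apply sec2_ext
  · intro i; simp only [secRes2_fst, smul2_fst, H56.resO_mul, H56.resO_resO]
  · intro j; simp only [secRes2_snd, smul2_snd, H56.resO_mul, H56.resO_resO]

theorem secRes2_id {V : X.Opens} (s : Sec2 W0 W1 E0 E1 G V) :
    secRes2 W0 W1 E0 E1 G (le_refl V) s = s := by
  apply sec2_ext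
  · intro i; rw [secRes2_fst]; exact H56.resO_id X _
  · intro j; rw [secRes2_snd]; exact H56.resO_id X _

theorem secRes2_secRes2 {V V' V'' : X.Opens} (h : V' ≤ V) (h' : V'' ≤ V')
    (s : Sec2 W0 W1 E0 E1 G V) :
    secRes2 W0 W1 E0 E1 G h' (secRes2 W0 W1 E0 E1 G h s) = secRes2 W0 W1 E0 E1 G (h'.trans h) s := by
  apply sec2_ext
  · intro i; simp only [secRes2_fst, H56.resO_resO]
  · intro j; simp only [secRes2_snd, H56.resO_resO]

noncomputable instance instModuleSec2 (V : (Opens X)ᵒᵖ) :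
    Module (X.ringCatSheaf.obj.obj V) (Sec2 W0 W1 E0 E1 G V.unop) :=
  inferInstanceAs (Module Γ(X, V.unop) (Sec2 W0 W1 E0 E1 G V.unop))

/-- The presheaf of modules. -/
noncomputable def mkPresheaf2 : PresheafOfModules.{u} X.ringCatSheaf.obj where
  obj V := ModuleCat.of (X.ringCatSheaf.obj.obj V) (Sec2 W0 W1 E0 E1 G V.unop)
  map {V V'} f := ModuleCat.ofHom
      (Y := (ModuleCat.restrictScalars (X.ringCatSheaf.obj.map f).hom).obj
        (ModuleCat.of (X.ringCatSheaf.obj.obj V') (Sec2 W0 W1 E0 E1 G V'.unop)))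
    { toFun := fun s => secRes2 W0 W1 E0 E1 G (leOfHom f.unop) s
      map_add' := fun s t => secRes2_add W0 W1 E0 E1 G (leOfHom f.unop) s t
      map_smul' := fun r s => secRes2_smul W0 W1 E0 E1 G (leOfHom f.unop) r s }
  map_id V := by
    ext s
    exact secRes2_id W0 W1 E0 E1 G s
  map_comp f g := by
    ext s
    exact (secRes2_secRes2 W0 W1 E0 E1 G (leOfHom f.unop) (leOfHom g.unop) s).symm

theorem mkPresheaf2_map_apply {V V' : X.Opens} (h : V' ≤ V) (s : Sec2 W0 W1 E0 E1 G V) :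
    ((mkPresheaf2 W0 W1 E0 E1 G).presheaf.map (homOfLE h).op s : Sec2 W0 W1 E0 E1 G V') =
      secRes2 W0 W1 E0 E1 G h s := rfl

/-- Gluing of functions on `iSup W ⊓ U` from compatible functions on `W α ⊓ U`. -/
theorem glue_fun {κ : Type u} (W : κ → X.Opens) (U : X.Opens)
    (c : ∀ α, Γ(X, W α ⊓ U))
    (hc : ∀ α β, H56.resO X (le_inf (inf_le_left.trans inf_le_left) (inf_le_left.trans inf_le_right) :
        (W α ⊓ U) ⊓ (W β ⊓ U) ≤ W α ⊓ U) (c α) =
      H56.resO X (le_inf (inf_le_right.trans inf_le_left) (inf_le_right.trans inf_le_right) :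
        (W α ⊓ U) ⊓ (W β ⊓ U) ≤ W β ⊓ U) (c β)) :
    ∃! a : Γ(X, iSup W ⊓ U),
      ∀ α, H56.resO X (inf_le_inf_right U (le_iSup W α)) a = c α :=
  TopCat.Sheaf.existsUnique_gluing' X.sheaf (fun α => W α ⊓ U) (iSup W ⊓ U)
    (fun α => homOfLE (inf_le_inf_right _ (le_iSup W α))) (H56.inf_iSup_le W U) c hc

/-- The presheaf is a sheaf. -/
theorem mkPresheaf2_isSheaf :
    TopCat.Presheaf.IsSheaf (mkPresheaf2 W0 W1 E0 E1 G).presheaf := by
  rw [TopCat.Presheaf.isSheaf_iff_isSheafUniqueGluing]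
  intro κ W sf hsf
  change ∀ α, Sec2 W0 W1 E0 E1 G (W α) at sf
  have hcompat : ∀ α β, secRes2 W0 W1 E0 E1 G inf_le_left (sf α) =
      secRes2 W0 W1 E0 E1 G inf_le_right (sf β) := fun α β => hsf α β
  have hglue1 : ∀ i, ∃! a : Γ(X, iSup W ⊓ W0),
      ∀ α, H56.resO X (inf_le_inf_right W0 (le_iSup W α)) a = (sf α).1.1 i := by
    intro i
    refine glue_fun W W0 (fun α => (sf α).1.1 i) ?_
    intro α β
    have h1 := congrArg (fun t : Sec2 W0 W1 E0 E1 G (W α ⊓ W β) => t.1.1 i) (hcompat α β)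
    simp only [secRes2_fst] at h1
    have h2 := congrArg (H56.resO X (le_inf (inf_le_inf inf_le_left inf_le_left)
      (inf_le_left.trans inf_le_right) : (W α ⊓ W0) ⊓ (W β ⊓ W0) ≤ (W α ⊓ W β) ⊓ W0)) h1
    simp only [H56.resO_resO] at h2
    exact h2
  have hglue2 : ∀ j, ∃! b : Γ(X, iSup W ⊓ W1),
      ∀ α, H56.resO X (inf_le_inf_right W1 (le_iSup W α)) b = (sf α).1.2 j := by
    intro j
    refine glue_fun W W1 (fun α => (sf α).1.2 j) ?_
    intro α β
    have h1 := congrArg (fun t : Sec2 W0 W1 E0 E1 G (W α ⊓ W β) => t.1.2 j) (hcompat α β)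
    simp only [secRes2_snd] at h1
    have h2 := congrArg (H56.resO X (le_inf (inf_le_inf inf_le_left inf_le_left)
      (inf_le_left.trans inf_le_right) : (W α ⊓ W1) ⊓ (W β ⊓ W1) ≤ (W α ⊓ W β) ⊓ W1)) h1
    simp only [H56.resO_resO] at h2
    exact h2
  choose a ha ha' using hglue1
  choose b hb hb' using hglue2
  have hsec : IsSec2 W0 W1 E0 E1 G (iSup W) (a, b) := by
    refine ⟨fun i => ?_, fun j => ?_, fun j => ?_⟩
    · refine H56.eq_of_resO_eq X (fun α => W α ⊓ W0) _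
        (fun α => inf_le_inf_right _ (le_iSup W α)) (H56.inf_iSup_le W W0) _ _ ?_
      intro α
      have h1 := (sf α).2.1 i
      rw [rO_sum]
      simp only [H56.resO_mul, H56.resO_resO, ha]
      exact h1
    · refine H56.eq_of_resO_eq X (fun α => W α ⊓ W1) _
        (fun α => inf_le_inf_right _ (le_iSup W α)) (H56.inf_iSup_le W W1) _ _ ?_
      intro α
      have h1 := (sf α).2.2.1 j
      rw [rO_sum]
      simp only [H56.resO_mul, H56.resO_resO, hb]
      exact h1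
    · refine H56.eq_of_resO_eq X (fun α => W α ⊓ W0 ⊓ W1) _
        (fun α => inf_le_inf_right _ (inf_le_inf_right _ (le_iSup W α))) ?_ _ _ ?_
      · rintro x ⟨⟨hx, hx0⟩, hx1⟩
        obtain ⟨α, hα⟩ := Opens.mem_iSup.mp hx
        exact Opens.mem_iSup.mpr ⟨α, ⟨hα, hx0⟩, hx1⟩
      · intro α
        have h1 := (sf α).2.2.2 j
        rw [← hb j α] at h1
        simp only [← ha _ α] at h1
        rw [rO_sum]
        simp only [H56.resO_mul, H56.resO_resO] at h1 ⊢
        exact h1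
  refine ⟨(⟨(a, b), hsec⟩ : Sec2 W0 W1 E0 E1 G (iSup W)), ?_, ?_⟩
  · intro α
    apply sec2_ext
    · intro i; exact ha i α
    · intro j; exact hb j α
  · intro s hs
    change Sec2 W0 W1 E0 E1 G (iSup W) at s
    apply sec2_ext
    · intro i
      refine ha' i (s.1.1 i) fun α => ?_
      have := congrArg (fun t : Sec2 W0 W1 E0 E1 G (W α) => t.1.1 i) (hs α)
      exact this
    · intro j
      refine hb' j (s.1.2 j) fun α => ?_
      have := congrArg (fun t : Sec2 W0 W1 E0 E1 G (W α) => t.1.2 j) (hs α)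
      exact this

/-- The sheaf of modules. -/
noncomputable def mkSheaf2 : X.Modules where
  val := mkPresheaf2 W0 W1 E0 E1 G
  isSheaf := mkPresheaf2_isSheaf W0 W1 E0 E1 G

/-- Coordinates as a section of the sheaf. -/
noncomputable def toΓ2 {V : X.Opens} (s : Sec2 W0 W1 E0 E1 G V) : Γ(mkSheaf2 W0 W1 E0 E1 G, V) := s

/-- The coordinates of a section of the sheaf. -/
noncomputable def ofΓ2 {V : X.Opens} (t : Γ(mkSheaf2 W0 W1 E0 E1 G, V)) : Sec2 W0 W1 E0 E1 G V := t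

theorem ofΓ2_toΓ2 {V : X.Opens} (s : Sec2 W0 W1 E0 E1 G V) :
    ofΓ2 W0 W1 E0 E1 G (toΓ2 W0 W1 E0 E1 G s) = s := rfl

theorem toΓ2_ofΓ2 {V : X.Opens} (t : Γ(mkSheaf2 W0 W1 E0 E1 G, V)) :
    toΓ2 W0 W1 E0 E1 G (ofΓ2 W0 W1 E0 E1 G t) = t := rfl

theorem toΓ2_injective {V : X.Opens} : Function.Injective (toΓ2 W0 W1 E0 E1 G (V := V)) :=
  fun _ _ h => h

theorem resM_toΓ2 {V V' : X.Opens} (h : V' ≤ V) (s : Sec2 W0 W1 E0 E1 G V) :
    H56.resM (mkSheaf2 W0 W1 E0 E1 G) h (toΓ2 W0 W1 E0 E1 G s) =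
      toΓ2 W0 W1 E0 E1 G (secRes2 W0 W1 E0 E1 G h s) := rfl

theorem smul_toΓ2 {V : X.Opens} (r : Γ(X, V)) (s : Sec2 W0 W1 E0 E1 G V) :
    r • toΓ2 W0 W1 E0 E1 G s = toΓ2 W0 W1 E0 E1 G (r • s) := rfl

theorem add_toΓ2 {V : X.Opens} (s t : Sec2 W0 W1 E0 E1 G V) :
    toΓ2 W0 W1 E0 E1 G s + toΓ2 W0 W1 E0 E1 G t = toΓ2 W0 W1 E0 E1 G (s + t) := rfl

end Fermat.Agent.S25.Bridge.H94
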