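/-
helper94, S25 (Jacobian exists), package BRIDGE, leaf T3, part MG (matrix gluing), file 2:
the sheaf `mkSheaf2` of two rank-one projectors is invertible (generating sections = the columns of the
projectors on the basic opens `D(E_ii)`; `Glue.stmt_BGEN`).
-/
import Fermat.Agent.S25.Bridge.H94_MGSec
import Fermat.Agent.S25.Glue.H18_BGen

set_option autoImplicit false

open CategoryTheory AlgebraicGeometry TopologicalSpace Opposite

universe u

namespace Fermat.Agent.S25.Bridge.H94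

open Fermat.Agent.S25.Glue

/-! ### Rank-one projectors -/

section Alg

variable {A : Type u} [CommRing A] {n : ℕ} {E : Matrix (Fin n) (Fin n) A}

theorem IsProj1.mul_self (h : IsProj1 E) : E * E = E := by
  ext i j
  rw [Matrix.mul_apply]
  calc ∑ l, E i l * E l j = ∑ l, E i j * E l l := Finset.sum_congr rfl fun l _ => h.minor i l l j
    _ = E i j * ∑ l, E l l := (Finset.mul_sum _ _ _).symm
    _ = E i j := by rw [h.trace, mul_one]

theorem IsProj1.map {B : Type u} [CommRing B] (f : A →+* B) (h : IsProj1 E) :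
    IsProj1 (E.map f) where
  minor i j l m := by
    simp only [Matrix.map_apply]
    rw [← map_mul, ← map_mul, h.minor]
  trace := by
    simp only [Matrix.map_apply]
    rw [← map_sum, h.trace, map_one]

/-- For a fixed vector of a rank-one projector: `E_ii v_l = E_li v_i`. -/
theorem IsProj1.diag_mul (h : IsProj1 E) (v : Fin n → A) (hv : ∀ i, v i = ∑ m, E i m * v m)
    (i l : Fin n) : E i i * v l = E l i * v i := by
  calc E i i * v l = E i i * ∑ m, E l m * v m := by rw [← hv l]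
    _ = ∑ m, E l i * (E i m * v m) := by
        rw [Finset.mul_sum]
        refine Finset.sum_congr rfl fun m _ => ?_
        rw [← mul_assoc, h.minor i i l m]
        ring
    _ = E l i * ∑ m, E i m * v m := (Finset.mul_sum _ _ _).symm
    _ = E l i * v i := by rw [← hv i]

end Alg

variable {X : Scheme.{u}}

/-! ### Restriction -/

theorem rH_apply {U V : X.Opens} (h : V ≤ U) (a : Γ(X, U)) : resO h a = H56.resO X h a := rfl

theorem rO_mul_apply {U V : X.Opens} (h : V ≤ U) {l m n : ℕ} (M : Matrix (Fin l) (Fin m) Γ(X, U))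
    (N : Matrix (Fin m) (Fin n) Γ(X, U)) (i : Fin l) (j : Fin n) :
    ∑ t, H56.resO X h (M i t) * H56.resO X h (N t j) = H56.resO X h ((M * N) i j) := by
  rw [Matrix.mul_apply, rO_sum]
  exact Finset.sum_congr rfl fun t _ => (H56.resO_mul X h _ _).symm

theorem rO_sum_mul {U V : X.Opens} (h : V ≤ U) {m : ℕ} (x y : Fin m → Γ(X, U)) :
    ∑ t, H56.resO X h (x t) * H56.resO X h (y t) = H56.resO X h (∑ t, x t * y t) := by
  rw [rO_sum]
  exact Finset.sum_congr rfl fun t _ => (H56.resO_mul X h _ _).symm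

theorem isUnit_rO_of_le_basicOpen {W V : X.Opens} (f : Γ(X, W)) (hVW : V ≤ W)
    (hV : V ≤ X.basicOpen f) : IsUnit (H56.resO X hVW f) := by
  have h1 : IsUnit (H56.resO X (X.basicOpen_le f) f) :=
    RingedSpace.isUnit_res_basicOpen X.toRingedSpace f
  have h2 : H56.resO X hVW f = resO hV (H56.resO X (X.basicOpen_le f) f) := by
    rw [rH_apply, H56.resO_resO]
  rw [h2]
  exact h1.map (resO hV)

theorem rO_injective_of_le {U V : X.Opens} (h : V ≤ U) (h' : U ≤ V) :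
    Function.Injective (H56.resO X h) := by
  intro a b hab
  have h1 := congrArg (H56.resO X h') hab
  simpa only [H56.resO_resO, H56.resO_id] using h1

theorem exists_mem_basicOpen_of_sum_eq_one {W : X.Opens} {n : ℕ} (f : Fin n → Γ(X, W))
    (hf : ∑ i, f i = 1) (x : X) (hx : x ∈ W) : ∃ i, x ∈ X.basicOpen (f i) := by
  by_contra hcon
  simp only [not_exists] at hcon
  have h1 : ∀ i, (X.presheaf.germ W x hx).hom (f i) ∈
      IsLocalRing.maximalIdeal (X.presheaf.stalk x) := by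
    intro i
    rw [IsLocalRing.mem_maximalIdeal, mem_nonunits_iff]
    intro hu
    exact hcon i ((X.mem_basicOpen (f i) x hx).mpr hu)
  have h2 : (X.presheaf.germ W x hx).hom (∑ i, f i) ∈
      IsLocalRing.maximalIdeal (X.presheaf.stalk x) := by
    rw [map_sum]
    exact Ideal.sum_mem _ fun i _ => h1 i
  rw [hf, map_one] at h2
  exact (IsLocalRing.maximalIdeal.isMaximal _).ne_top ((Ideal.eq_top_iff_one _).mpr h2)

/-! ### The generating sections -/

section Gen

variable {W0 W1 : X.Opens} {n0 n1 : ℕ}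
  {E0 : Matrix (Fin n0) (Fin n0) Γ(X, W0)} {E1 : Matrix (Fin n1) (Fin n1) Γ(X, W1)}
  {G : Matrix (Fin n1) (Fin n0) Γ(X, W0 ⊓ W1)} {G' : Matrix (Fin n0) (Fin n1) Γ(X, W0 ⊓ W1)}

/-- the hypotheses of MG -/
structure IsGlue2 (E0 : Matrix (Fin n0) (Fin n0) Γ(X, W0)) (E1 : Matrix (Fin n1) (Fin n1) Γ(X, W1))
    (G : Matrix (Fin n1) (Fin n0) Γ(X, W0 ⊓ W1)) (G' : Matrix (Fin n0) (Fin n1) Γ(X, W0 ⊓ W1)) :
    Prop where
  p0 : IsProj1 E0
  p1 : IsProj1 E1
  g'g : G' * G = E0.map (resO (inf_le_left : W0 ⊓ W1 ≤ W0))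
  gg' : G * G' = E1.map (resO (inf_le_right : W0 ⊓ W1 ≤ W1))

namespace IsGlue2

variable (hg : IsGlue2 E0 E1 G G')
include hg

theorem e0m_mul_self : E0.map (resO (inf_le_left : W0 ⊓ W1 ≤ W0)) *
    E0.map (resO (inf_le_left : W0 ⊓ W1 ≤ W0)) = E0.map (resO (inf_le_left : W0 ⊓ W1 ≤ W0)) :=
  (hg.p0.map _).mul_self

theorem e1m_mul_self : E1.map (resO (inf_le_right : W0 ⊓ W1 ≤ W1)) *
    E1.map (resO (inf_le_right : W0 ⊓ W1 ≤ W1)) = E1.map (resO (inf_le_right : W0 ⊓ W1 ≤ W1)) :=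
  (hg.p1.map _).mul_self

theorem e1m_mul_g : E1.map (resO (inf_le_right : W0 ⊓ W1 ≤ W1)) * G =
    G * E0.map (resO (inf_le_left : W0 ⊓ W1 ≤ W0)) := by
  rw [← hg.gg', ← hg.g'g, Matrix.mul_assoc]

theorem e0m_mul_g' : E0.map (resO (inf_le_left : W0 ⊓ W1 ≤ W0)) * G' =
    G' * E1.map (resO (inf_le_right : W0 ⊓ W1 ≤ W1)) := by
  rw [← hg.gg', ← hg.g'g, Matrix.mul_assoc]

/-- `E1| * (G * E0|) = G * E0|` -/
theorem e1m_mul_ge0 : E1.map (resO (inf_le_right : W0 ⊓ W1 ≤ W1)) *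
    (G * E0.map (resO (inf_le_left : W0 ⊓ W1 ≤ W0))) =
    G * E0.map (resO (inf_le_left : W0 ⊓ W1 ≤ W0)) := by
  rw [← Matrix.mul_assoc, hg.e1m_mul_g, Matrix.mul_assoc, hg.e0m_mul_self]

/-- `E0| * (G' * E1|) = G' * E1|` -/
theorem e0m_mul_g'e1 : E0.map (resO (inf_le_left : W0 ⊓ W1 ≤ W0)) *
    (G' * E1.map (resO (inf_le_right : W0 ⊓ W1 ≤ W1))) =
    G' * E1.map (resO (inf_le_right : W0 ⊓ W1 ≤ W1)) := by
  rw [← Matrix.mul_assoc, hg.e0m_mul_g', Matrix.mul_assoc, hg.e1m_mul_self]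

/-- `G * (G' * E1|) = E1|` -/
theorem g_mul_g'e1 : G * (G' * E1.map (resO (inf_le_right : W0 ⊓ W1 ≤ W1))) =
    E1.map (resO (inf_le_right : W0 ⊓ W1 ≤ W1)) := by
  rw [← Matrix.mul_assoc, hg.gg', hg.e1m_mul_self]

/-- `G' * (G * E0|) = E0|` -/
theorem g'_mul_ge0 : G' * (G * E0.map (resO (inf_le_left : W0 ⊓ W1 ≤ W0))) =
    E0.map (resO (inf_le_left : W0 ⊓ W1 ≤ W0)) := by
  rw [← Matrix.mul_assoc, hg.g'g, hg.e0m_mul_self]

end IsGlue2

/-- restriction from `W0` through `W0 ⊓ W1` -/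
theorem rO_via0 {V : X.Opens} (h : V ≤ W0 ⊓ W1) (a : Γ(X, W0)) :
    H56.resO X (h.trans inf_le_left) a =
      H56.resO X h (resO (inf_le_left : W0 ⊓ W1 ≤ W0) a) := by
  rw [rH_apply, H56.resO_resO]

/-- restriction from `W1` through `W0 ⊓ W1` -/
theorem rO_via1 {V : X.Opens} (h : V ≤ W0 ⊓ W1) (a : Γ(X, W1)) :
    H56.resO X (h.trans inf_le_right) a =
      H56.resO X h (resO (inf_le_right : W0 ⊓ W1 ≤ W1) a) := by
  rw [rH_apply, H56.resO_resO]

variable (hg : IsGlue2 E0 E1 G G')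

/-- The generating section on `D(E0_ii)`: the column `i` of `E0`. -/
noncomputable def gen0 (i : Fin n0) : Sec2 W0 W1 E0 E1 G (X.basicOpen (E0 i i)) :=
  ⟨(fun l => H56.resO X inf_le_right (E0 l i),
    fun j => H56.resO X (inf_le_inf_right W1 (X.basicOpen_le (E0 i i)))
      ((G * E0.map (resO (inf_le_left : W0 ⊓ W1 ≤ W0))) j i)), by
    refine ⟨fun l => ?_, fun j => ?_, fun j => ?_⟩
    · change H56.resO X _ (E0 l i) = ∑ m, H56.resO X _ (E0 l m) * H56.resO X _ (E0 m i)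
      rw [rO_mul_apply, hg.p0.mul_self]
    · change H56.resO X _ ((G * E0.map (resO (inf_le_left : W0 ⊓ W1 ≤ W0))) j i) =
        ∑ m, H56.resO X _ (E1 j m) *
          H56.resO X _ ((G * E0.map (resO (inf_le_left : W0 ⊓ W1 ≤ W0))) m i)
      have e : ∀ m, H56.resO X (inf_le_right : X.basicOpen (E0 i i) ⊓ W1 ≤ W1) (E1 j m) =
          H56.resO X (inf_le_inf_right W1 (X.basicOpen_le (E0 i i)))
            ((E1.map (resO (inf_le_right : W0 ⊓ W1 ≤ W1))) j m) := fun m =>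
        rO_via1 (inf_le_inf_right W1 (X.basicOpen_le (E0 i i))) (E1 j m)
      simp only [e]
      rw [rO_mul_apply, hg.e1m_mul_ge0]
    · change H56.resO X _ (H56.resO X _
          ((G * E0.map (resO (inf_le_left : W0 ⊓ W1 ≤ W0))) j i)) =
        ∑ l, H56.resO X _ (G j l) * H56.resO X _ (H56.resO X _ (E0 l i))
      simp only [H56.resO_resO]
      have e : ∀ l, H56.resO X ((inf_le_left : X.basicOpen (E0 i i) ⊓ W0 ⊓ W1 ≤
            X.basicOpen (E0 i i) ⊓ W0).trans inf_le_right) (E0 l i) =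
          H56.resO X (le_inf (inf_le_left.trans inf_le_right) inf_le_right :
            X.basicOpen (E0 i i) ⊓ W0 ⊓ W1 ≤ W0 ⊓ W1)
            ((E0.map (resO (inf_le_left : W0 ⊓ W1 ≤ W0))) l i) := fun l =>
        rO_via0 _ (E0 l i)
      simp only [e]
      rw [rO_mul_apply]⟩

theorem gen0_fst (i l : Fin n0) :
    (gen0 hg i).1.1 l = H56.resO X inf_le_right (E0 l i) := rfl

theorem gen0_snd (i : Fin n0) (j : Fin n1) :
    (gen0 hg i).1.2 j = H56.resO X (inf_le_inf_right W1 (X.basicOpen_le (E0 i i)))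
      ((G * E0.map (resO (inf_le_left : W0 ⊓ W1 ≤ W0))) j i) := rfl

/-- The generating section on `D(E1_jj)`: the column `j` of `E1`. -/
noncomputable def gen1 (j : Fin n1) : Sec2 W0 W1 E0 E1 G (X.basicOpen (E1 j j)) :=
  ⟨(fun i => H56.resO X (le_inf inf_le_right (inf_le_left.trans (X.basicOpen_le (E1 j j))) :
        X.basicOpen (E1 j j) ⊓ W0 ≤ W0 ⊓ W1)
      ((G' * E1.map (resO (inf_le_right : W0 ⊓ W1 ≤ W1))) i j),
    fun m => H56.resO X inf_le_right (E1 m j)), by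
    refine ⟨fun i => ?_, fun m => ?_, fun m => ?_⟩
    · change H56.resO X _ ((G' * E1.map (resO (inf_le_right : W0 ⊓ W1 ≤ W1))) i j) =
        ∑ l, H56.resO X _ (E0 i l) *
          H56.resO X _ ((G' * E1.map (resO (inf_le_right : W0 ⊓ W1 ≤ W1))) l j)
      have e : ∀ l, H56.resO X (inf_le_right : X.basicOpen (E1 j j) ⊓ W0 ≤ W0) (E0 i l) =
          H56.resO X (le_inf inf_le_right (inf_le_left.trans (X.basicOpen_le (E1 j j))) :
            X.basicOpen (E1 j j) ⊓ W0 ≤ W0 ⊓ W1)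
            ((E0.map (resO (inf_le_left : W0 ⊓ W1 ≤ W0))) i l) := fun l =>
        rO_via0 _ (E0 i l)
      simp only [e]
      rw [rO_mul_apply, hg.e0m_mul_g'e1]
    · change H56.resO X _ (E1 m j) = ∑ t, H56.resO X _ (E1 m t) * H56.resO X _ (E1 t j)
      rw [rO_mul_apply, hg.p1.mul_self]
    · change H56.resO X _ (H56.resO X _ (E1 m j)) =
        ∑ i, H56.resO X _ (G m i) * H56.resO X _ (H56.resO X _
          ((G' * E1.map (resO (inf_le_right : W0 ⊓ W1 ≤ W1))) i j))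
      simp only [H56.resO_resO]
      rw [rO_mul_apply, hg.g_mul_g'e1]
      exact rO_via1 (le_inf (inf_le_left.trans inf_le_right) inf_le_right :
        X.basicOpen (E1 j j) ⊓ W0 ⊓ W1 ≤ W0 ⊓ W1) (E1 m j)⟩

theorem gen1_fst (j : Fin n1) (i : Fin n0) :
    (gen1 hg j).1.1 i = H56.resO X (le_inf inf_le_right (inf_le_left.trans (X.basicOpen_le (E1 j j))) :
        X.basicOpen (E1 j j) ⊓ W0 ≤ W0 ⊓ W1)
      ((G' * E1.map (resO (inf_le_right : W0 ⊓ W1 ≤ W1))) i j) := rfl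

theorem gen1_snd (j m : Fin n1) :
    (gen1 hg j).1.2 m = H56.resO X inf_le_right (E1 m j) := rfl

end Gen

end Fermat.Agent.S25.Bridge.H94
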