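/-
helper94, S25 (Jacobian exists), package BRIDGE, leaf T3, part MG (matrix gluing), file 3:
the columns of the projectors generate `mkSheaf2` on the basic opens `D(E_ii)`; `mkSheaf2` is invertible.
-/
import Fermat.Agent.S25.Bridge.H94_MGGen

set_option autoImplicit false

open CategoryTheory AlgebraicGeometry TopologicalSpace Opposite

universe u

namespace Fermat.Agent.S25.Bridge.H94

open Fermat.Agent.S25.Glue

variable {X : Scheme.{u}} {W0 W1 : X.Opens} {n0 n1 : ℕ}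
  {E0 : Matrix (Fin n0) (Fin n0) Γ(X, W0)} {E1 : Matrix (Fin n1) (Fin n1) Γ(X, W1)}
  {G : Matrix (Fin n1) (Fin n0) Γ(X, W0 ⊓ W1)} {G' : Matrix (Fin n0) (Fin n1) Γ(X, W0 ⊓ W1)}

/-- On `V ⊓ W0 ⊓ W1` the first coordinates are `G'` times the second ones. -/
theorem sec2_fst_eq (hg : IsGlue2 E0 E1 G G') {V : X.Opens} (s : Sec2 W0 W1 E0 E1 G V) (i : Fin n0) :
    H56.resO X (inf_le_left : V ⊓ W0 ⊓ W1 ≤ V ⊓ W0) (s.1.1 i) =
      ∑ j, H56.resO X (le_inf (inf_le_left.trans inf_le_right) inf_le_right :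
          V ⊓ W0 ⊓ W1 ≤ W0 ⊓ W1) (G' i j) *
        H56.resO X (le_inf (inf_le_left.trans inf_le_left) inf_le_right :
          V ⊓ W0 ⊓ W1 ≤ V ⊓ W1) (s.1.2 j) := by
  obtain ⟨hs1, _, hs3⟩ := s.2
  have e1 : ∀ j, H56.resO X (le_inf (inf_le_left.trans inf_le_left) inf_le_right :
          V ⊓ W0 ⊓ W1 ≤ V ⊓ W1) (s.1.2 j) =
      ∑ l, H56.resO X (le_inf (inf_le_left.trans inf_le_right) inf_le_right :
        V ⊓ W0 ⊓ W1 ≤ W0 ⊓ W1) (G j l) *
      H56.resO X (inf_le_left : V ⊓ W0 ⊓ W1 ≤ V ⊓ W0) (s.1.1 l) := hs3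
  simp only [e1, Finset.mul_sum]
  rw [Finset.sum_comm]
  have e2 : ∀ l, ∑ j, H56.resO X (le_inf (inf_le_left.trans inf_le_right) inf_le_right :
          V ⊓ W0 ⊓ W1 ≤ W0 ⊓ W1) (G' i j) *
        (H56.resO X (le_inf (inf_le_left.trans inf_le_right) inf_le_right :
          V ⊓ W0 ⊓ W1 ≤ W0 ⊓ W1) (G j l) *
        H56.resO X (inf_le_left : V ⊓ W0 ⊓ W1 ≤ V ⊓ W0) (s.1.1 l)) =
      H56.resO X (inf_le_left : V ⊓ W0 ⊓ W1 ≤ V ⊓ W0)
        (H56.resO X (inf_le_right : V ⊓ W0 ≤ W0) (E0 i l) * s.1.1 l) := by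
    intro l
    have e3 : ∑ j, H56.resO X (le_inf (inf_le_left.trans inf_le_right) inf_le_right :
          V ⊓ W0 ⊓ W1 ≤ W0 ⊓ W1) (G' i j) *
        H56.resO X (le_inf (inf_le_left.trans inf_le_right) inf_le_right :
          V ⊓ W0 ⊓ W1 ≤ W0 ⊓ W1) (G j l) =
        H56.resO X (le_inf (inf_le_left.trans inf_le_right) inf_le_right :
          V ⊓ W0 ⊓ W1 ≤ W0 ⊓ W1) ((E0.map (resO (inf_le_left : W0 ⊓ W1 ≤ W0))) i l) := by
      rw [rO_mul_apply, hg.g'g]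
    rw [H56.resO_mul, H56.resO_resO, rO_via0 (le_inf (inf_le_left.trans inf_le_right) inf_le_right :
      V ⊓ W0 ⊓ W1 ≤ W0 ⊓ W1) (E0 i l), ← Matrix.map_apply (f := resO (inf_le_left : W0 ⊓ W1 ≤ W0)),
      ← e3, Finset.sum_mul]
    exact Finset.sum_congr rfl fun j _ => by ring
  simp only [e2]
  rw [← rO_sum, ← hs1 i]

/-- The column `i` of `E0` generates the sheaf on `D(E0_ii)`. -/
theorem isGen_gen0 (hg : IsGlue2 E0 E1 G G') (i : Fin n0) :
    IsGen (mkSheaf2 W0 W1 E0 E1 G) (X.basicOpen (E0 i i))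
      (toΓ2 W0 W1 E0 E1 G (gen0 hg i)) := by
  rw [H56.isGen_iff]
  intro V h
  have hV0 : V ≤ W0 := h.trans (X.basicOpen_le _)
  have hu : IsUnit (H56.resO X (inf_le_right : V ⊓ W0 ≤ W0) (E0 i i)) :=
    isUnit_rO_of_le_basicOpen (E0 i i) inf_le_right (inf_le_left.trans h)
  constructor
  · intro r r' hrr'
    simp only [resM_toΓ2, smul_toΓ2] at hrr'
    have h1 := congrArg (fun t : Sec2 W0 W1 E0 E1 G V => t.1.1 i)
      (toΓ2_injective W0 W1 E0 E1 G hrr')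
    simp only [smul2_fst, secRes2_fst, gen0_fst, H56.resO_resO] at h1
    have h2 : H56.resO X (inf_le_left : V ⊓ W0 ≤ V) r = H56.resO X (inf_le_left : V ⊓ W0 ≤ V) r' :=
      hu.mul_left_injective h1
    exact rO_injective_of_le inf_le_left (le_inf le_rfl hV0) h2
  · intro t
    obtain ⟨e', he'⟩ := hu.exists_left_inv
    obtain ⟨hs1, hs2, hs3⟩ := (ofΓ2 W0 W1 E0 E1 G t).2
    -- the first coordinates
    have hfst : ∀ l, e' * (ofΓ2 W0 W1 E0 E1 G t).1.1 i *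
        H56.resO X (inf_le_right : V ⊓ W0 ≤ W0) (E0 l i) = (ofΓ2 W0 W1 E0 E1 G t).1.1 l := by
      intro l
      have h3 := IsProj1.diag_mul (hg.p0.map (resO (inf_le_right : V ⊓ W0 ≤ W0)))
        (ofΓ2 W0 W1 E0 E1 G t).1.1 hs1 i l
      simp only [Matrix.map_apply, rH_apply] at h3
      calc e' * (ofΓ2 W0 W1 E0 E1 G t).1.1 i * H56.resO X (inf_le_right : V ⊓ W0 ≤ W0) (E0 l i)
          = e' * (H56.resO X (inf_le_right : V ⊓ W0 ≤ W0) (E0 l i) *
              (ofΓ2 W0 W1 E0 E1 G t).1.1 i) := by ring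
        _ = e' * (H56.resO X (inf_le_right : V ⊓ W0 ≤ W0) (E0 i i) *
              (ofΓ2 W0 W1 E0 E1 G t).1.1 l) := by rw [h3]
        _ = (e' * H56.resO X (inf_le_right : V ⊓ W0 ≤ W0) (E0 i i)) *
              (ofΓ2 W0 W1 E0 E1 G t).1.1 l := by ring
        _ = (ofΓ2 W0 W1 E0 E1 G t).1.1 l := by rw [he', one_mul]
    refine ⟨H56.resO X (le_inf le_rfl hV0 : V ≤ V ⊓ W0) (e' * (ofΓ2 W0 W1 E0 E1 G t).1.1 i), ?_⟩
    change _ • H56.resM (mkSheaf2 W0 W1 E0 E1 G) h (toΓ2 W0 W1 E0 E1 G (gen0 hg i)) = t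
    rw [← toΓ2_ofΓ2 W0 W1 E0 E1 G t]
    simp only [resM_toΓ2, smul_toΓ2]
    congr 1
    apply sec2_ext
    · intro l
      simp only [smul2_fst, secRes2_fst, gen0_fst, H56.resO_resO, ofΓ2_toΓ2]
      rw [H56.resO_id]
      exact hfst l
    · intro j
      simp only [smul2_snd, secRes2_snd, gen0_snd, H56.resO_resO, ofΓ2_toΓ2]
      -- restrict (iii) to `V ⊓ W1`
      have h4 := congrArg (H56.resO X (le_inf (le_inf inf_le_left (inf_le_left.trans hV0))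
        inf_le_right : V ⊓ W1 ≤ V ⊓ W0 ⊓ W1)) (hs3 j)
      rw [rO_sum] at h4
      simp only [H56.resO_mul, H56.resO_resO] at h4
      rw [H56.resO_id] at h4
      rw [h4]
      have h5 : ∀ l, H56.resO X (le_inf inf_le_left (inf_le_left.trans hV0) : V ⊓ W1 ≤ V ⊓ W0)
            ((ofΓ2 W0 W1 E0 E1 G t).1.1 l) =
          H56.resO X (le_inf inf_le_left (inf_le_left.trans hV0) : V ⊓ W1 ≤ V ⊓ W0)
            (e' * (ofΓ2 W0 W1 E0 E1 G t).1.1 i) *
          H56.resO X (le_inf (inf_le_left.trans hV0) inf_le_right : V ⊓ W1 ≤ W0 ⊓ W1)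
            ((E0.map (resO (inf_le_left : W0 ⊓ W1 ≤ W0))) l i) := by
        intro l
        conv_lhs => rw [← hfst l]
        rw [H56.resO_mul, H56.resO_resO, Matrix.map_apply, rH_apply, H56.resO_resO]
      simp only [h5]
      rw [← rO_mul_apply, Finset.mul_sum]
      exact Finset.sum_congr rfl fun l _ => by ring

/-- The column `j` of `E1` generates the sheaf on `D(E1_jj)`. -/
theorem isGen_gen1 (hg : IsGlue2 E0 E1 G G') (j : Fin n1) :
    IsGen (mkSheaf2 W0 W1 E0 E1 G) (X.basicOpen (E1 j j))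
      (toΓ2 W0 W1 E0 E1 G (gen1 hg j)) := by
  rw [H56.isGen_iff]
  intro V h
  have hV1 : V ≤ W1 := h.trans (X.basicOpen_le _)
  have hu : IsUnit (H56.resO X (inf_le_right : V ⊓ W1 ≤ W1) (E1 j j)) :=
    isUnit_rO_of_le_basicOpen (E1 j j) inf_le_right (inf_le_left.trans h)
  constructor
  · intro r r' hrr'
    simp only [resM_toΓ2, smul_toΓ2] at hrr'
    have h1 := congrArg (fun t : Sec2 W0 W1 E0 E1 G V => t.1.2 j)
      (toΓ2_injective W0 W1 E0 E1 G hrr')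
    simp only [smul2_snd, secRes2_snd, gen1_snd, H56.resO_resO] at h1
    have h2 : H56.resO X (inf_le_left : V ⊓ W1 ≤ V) r = H56.resO X (inf_le_left : V ⊓ W1 ≤ V) r' :=
      hu.mul_left_injective h1
    exact rO_injective_of_le inf_le_left (le_inf le_rfl hV1) h2
  · intro t
    obtain ⟨e', he'⟩ := hu.exists_left_inv
    obtain ⟨hs1, hs2, hs3⟩ := (ofΓ2 W0 W1 E0 E1 G t).2
    have hsnd : ∀ m, e' * (ofΓ2 W0 W1 E0 E1 G t).1.2 j *
        H56.resO X (inf_le_right : V ⊓ W1 ≤ W1) (E1 m j) = (ofΓ2 W0 W1 E0 E1 G t).1.2 m := by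
      intro m
      have h3 := IsProj1.diag_mul (hg.p1.map (resO (inf_le_right : V ⊓ W1 ≤ W1)))
        (ofΓ2 W0 W1 E0 E1 G t).1.2 hs2 j m
      simp only [Matrix.map_apply, rH_apply] at h3
      calc e' * (ofΓ2 W0 W1 E0 E1 G t).1.2 j * H56.resO X (inf_le_right : V ⊓ W1 ≤ W1) (E1 m j)
          = e' * (H56.resO X (inf_le_right : V ⊓ W1 ≤ W1) (E1 m j) *
              (ofΓ2 W0 W1 E0 E1 G t).1.2 j) := by ring
        _ = e' * (H56.resO X (inf_le_right : V ⊓ W1 ≤ W1) (E1 j j) *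
              (ofΓ2 W0 W1 E0 E1 G t).1.2 m) := by rw [h3]
        _ = (e' * H56.resO X (inf_le_right : V ⊓ W1 ≤ W1) (E1 j j)) *
              (ofΓ2 W0 W1 E0 E1 G t).1.2 m := by ring
        _ = (ofΓ2 W0 W1 E0 E1 G t).1.2 m := by rw [he', one_mul]
    refine ⟨H56.resO X (le_inf le_rfl hV1 : V ≤ V ⊓ W1) (e' * (ofΓ2 W0 W1 E0 E1 G t).1.2 j), ?_⟩
    change _ • H56.resM (mkSheaf2 W0 W1 E0 E1 G) h (toΓ2 W0 W1 E0 E1 G (gen1 hg j)) = t
    rw [← toΓ2_ofΓ2 W0 W1 E0 E1 G t]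
    simp only [resM_toΓ2, smul_toΓ2]
    congr 1
    apply sec2_ext
    · intro i
      simp only [smul2_fst, secRes2_fst, gen1_fst, H56.resO_resO, ofΓ2_toΓ2]
      -- restrict `sec2_fst_eq` to `V ⊓ W0`
      have h4 := congrArg (H56.resO X (le_inf (le_inf inf_le_left inf_le_right)
        (inf_le_left.trans hV1) : V ⊓ W0 ≤ V ⊓ W0 ⊓ W1)) (sec2_fst_eq hg (ofΓ2 W0 W1 E0 E1 G t) i)
      rw [rO_sum] at h4
      simp only [H56.resO_mul, H56.resO_resO] at h4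
      rw [H56.resO_id] at h4
      rw [h4]
      have h5 : ∀ m, H56.resO X (le_inf inf_le_left (inf_le_left.trans hV1) : V ⊓ W0 ≤ V ⊓ W1)
            ((ofΓ2 W0 W1 E0 E1 G t).1.2 m) =
          H56.resO X (le_inf inf_le_left (inf_le_left.trans hV1) : V ⊓ W0 ≤ V ⊓ W1)
            (e' * (ofΓ2 W0 W1 E0 E1 G t).1.2 j) *
          H56.resO X (le_inf inf_le_right (inf_le_left.trans hV1) : V ⊓ W0 ≤ W0 ⊓ W1)
            ((E1.map (resO (inf_le_right : W0 ⊓ W1 ≤ W1))) m j) := by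
        intro m
        conv_lhs => rw [← hsnd m]
        rw [H56.resO_mul, H56.resO_resO, Matrix.map_apply, rH_apply, H56.resO_resO]
      simp only [h5]
      rw [← rO_mul_apply, Finset.mul_sum]
      exact Finset.sum_congr rfl fun l _ => by ring
    · intro m
      simp only [smul2_snd, secRes2_snd, gen1_snd, H56.resO_resO, ofΓ2_toΓ2]
      rw [H56.resO_id]
      exact hsnd m

/-- The sheaf of two rank-one projectors is invertible. -/
theorem isInvertible_mkSheaf2 (hcov : W0 ⊔ W1 = ⊤) (hg : IsGlue2 E0 E1 G G') :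
    Scheme.Modules.IsInvertible (mkSheaf2 W0 W1 E0 E1 G) := by
  rw [Glue.stmt_BGEN]
  intro x
  have hx : x ∈ W0 ⊔ W1 := by rw [hcov]; trivial
  rcases hx with hx0 | hx1
  · obtain ⟨i, hi⟩ := exists_mem_basicOpen_of_sum_eq_one (fun i => E0 i i) hg.p0.trace x hx0
    exact ⟨X.basicOpen (E0 i i), hi, _, isGen_gen0 hg i⟩
  · obtain ⟨j, hj⟩ := exists_mem_basicOpen_of_sum_eq_one (fun j => E1 j j) hg.p1.trace x hx1
    exact ⟨X.basicOpen (E1 j j), hj, _, isGen_gen1 hg j⟩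

end Fermat.Agent.S25.Bridge.H94
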