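/-
helper94, S25 (Jacobian exists), package BRIDGE, leaf T3, part MG (matrix gluing), file 4:
the sections of `mkSheaf2` over the opens `V ≤ W0` (resp. `W1`) are the vectors fixed by `E0|V` (resp. `E1`);
`stmt_MG : Stmt_MG`.
-/
import Fermat.Agent.S25.Bridge.H94_MGInv

set_option autoImplicit false

open CategoryTheory AlgebraicGeometry TopologicalSpace Opposite

universe u

namespace Fermat.Agent.S25.Bridge.H94

open Fermat.Agent.S25.Glue

variable {X : Scheme.{u}} {W0 W1 : X.Opens} {n0 n1 : ℕ}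
  {E0 : Matrix (Fin n0) (Fin n0) Γ(X, W0)} {E1 : Matrix (Fin n1) (Fin n1) Γ(X, W1)}
  {G : Matrix (Fin n1) (Fin n0) Γ(X, W0 ⊓ W1)} {G' : Matrix (Fin n0) (Fin n1) Γ(X, W0 ⊓ W1)}

theorem mulVec_apply' {A : Type u} [CommRing A] {m n : ℕ} (M : Matrix (Fin m) (Fin n) A)
    (v : Fin n → A) (i : Fin m) : M.mulVec v i = ∑ j, M i j * v j := rfl

theorem resM_eq (L : X.Modules) {U V : X.Opens} (h : V ≤ U) (t : Γ(L, U)) :
    res L h t = H56.resM L h t := rfl

/-! ### The chart `W0` -/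

section Chart0

variable (hg : IsGlue2 E0 E1 G G') {V : X.Opens} (hV : V ≤ W0)
  (E' : Matrix (Fin n0) (Fin n0) Γ(X, V)) (hE' : ∀ i l, E' i l = H56.resO X hV (E0 i l))

include hg hE' in
theorem chart0_aux (a : Fin n0 → Γ(X, V)) (ha : E'.mulVec a = a) (j : Fin n1) :
    (∑ i, H56.resO X (inf_le_inf_right W1 hV : V ⊓ W1 ≤ W0 ⊓ W1) (G j i) *
        H56.resO X (inf_le_left : V ⊓ W1 ≤ V) (a i)) =
      ∑ m, H56.resO X (inf_le_right : V ⊓ W1 ≤ W1) (E1 j m) *
        (∑ i, H56.resO X (inf_le_inf_right W1 hV : V ⊓ W1 ≤ W0 ⊓ W1) (G m i) *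
          H56.resO X (inf_le_left : V ⊓ W1 ≤ V) (a i)) := by
  -- ring homs
  set r01 : Γ(X, W0 ⊓ W1) →+* Γ(X, V ⊓ W1) := resO (inf_le_inf_right W1 hV) with hr01
  set rV : Γ(X, V) →+* Γ(X, V ⊓ W1) := resO (inf_le_left : V ⊓ W1 ≤ V) with hrV
  have e0 : (E0.map (resO (inf_le_left : W0 ⊓ W1 ≤ W0))).map r01 = E'.map rV := by
    ext i l
    simp only [Matrix.map_apply, hE']
    change H56.resO X _ (H56.resO X _ (E0 i l)) = H56.resO X _ (H56.resO X _ (E0 i l))
    rw [H56.resO_resO, H56.resO_resO]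
  have e1 : ∀ m, H56.resO X (inf_le_right : V ⊓ W1 ≤ W1) (E1 j m) =
      ((E1.map (resO (inf_le_right : W0 ⊓ W1 ≤ W1))).map r01) j m := by
    intro m
    simp only [Matrix.map_apply]
    change H56.resO X _ (E1 j m) = H56.resO X _ (H56.resO X _ (E1 j m))
    rw [H56.resO_resO]
  have e2 : (E'.map rV).mulVec (fun i => rV (a i)) = fun i => rV (a i) := by
    funext i
    have := congrArg rV (congrFun ha i)
    rw [mulVec_apply', map_sum] at this
    rw [mulVec_apply', ← this]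
    exact Finset.sum_congr rfl fun l _ => by rw [Matrix.map_apply, map_mul]
  have e3 : ((E1.map (resO (inf_le_right : W0 ⊓ W1 ≤ W1))).map r01) * (G.map r01) =
      (G.map r01) * (E'.map rV) := by
    rw [← e0, ← Matrix.map_mul, ← Matrix.map_mul, hg.e1m_mul_g]
  have e4 : ((E1.map (resO (inf_le_right : W0 ⊓ W1 ≤ W1))).map r01).mulVec
      ((G.map r01).mulVec (fun i => rV (a i))) = (G.map r01).mulVec (fun i => rV (a i)) := by
    rw [Matrix.mulVec_mulVec, e3, ← Matrix.mulVec_mulVec, e2]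
  have e5 := congrFun e4 j
  simp only [e1]
  exact e5.symm

/-- The section with first coordinates `a` (over `V ≤ W0`). -/
noncomputable def toSec0 (a : fixSub E') : Sec2 W0 W1 E0 E1 G V :=
  ⟨(fun i => H56.resO X (inf_le_left : V ⊓ W0 ≤ V) (a.1 i),
    fun j => ∑ i, H56.resO X (inf_le_inf_right W1 hV : V ⊓ W1 ≤ W0 ⊓ W1) (G j i) *
        H56.resO X (inf_le_left : V ⊓ W1 ≤ V) (a.1 i)), by
    refine ⟨fun i => ?_, fun j => chart0_aux hg hV E' hE' a.1 a.2 j, fun j => ?_⟩
    · change H56.resO X _ (a.1 i) = ∑ l, H56.resO X _ (E0 i l) * H56.resO X _ (a.1 l)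
      have h1 := congrArg (H56.resO X (inf_le_left : V ⊓ W0 ≤ V)) (congrFun a.2 i)
      rw [mulVec_apply', rO_sum] at h1
      rw [← h1]
      refine Finset.sum_congr rfl fun l _ => ?_
      rw [H56.resO_mul, hE', H56.resO_resO]
    · change H56.resO X _ (∑ i, H56.resO X _ (G j i) * H56.resO X _ (a.1 i)) =
        ∑ i, H56.resO X _ (G j i) * H56.resO X _ (H56.resO X _ (a.1 i))
      rw [rO_sum]
      refine Finset.sum_congr rfl fun l _ => ?_
      rw [H56.resO_mul, H56.resO_resO, H56.resO_resO, H56.resO_resO]⟩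

theorem toSec0_fst (a : fixSub E') (i : Fin n0) :
    (toSec0 hg hV E' hE' a).1.1 i = H56.resO X (inf_le_left : V ⊓ W0 ≤ V) (a.1 i) := rfl

theorem toSec0_snd (a : fixSub E') (j : Fin n1) :
    (toSec0 hg hV E' hE' a).1.2 j =
      ∑ i, H56.resO X (inf_le_inf_right W1 hV : V ⊓ W1 ≤ W0 ⊓ W1) (G j i) *
        H56.resO X (inf_le_left : V ⊓ W1 ≤ V) (a.1 i) := rfl

include hE' in
/-- The first coordinates of a section over `V ≤ W0`. -/
theorem ofSec0_mem (s : Sec2 W0 W1 E0 E1 G V) :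
    (fun i => H56.resO X (le_inf le_rfl hV : V ≤ V ⊓ W0) (s.1.1 i)) ∈ fixSub E' := by
  rw [mem_fixSub]
  funext i
  have h1 := congrArg (H56.resO X (le_inf le_rfl hV : V ≤ V ⊓ W0)) (s.2.1 i)
  rw [rO_sum] at h1
  rw [mulVec_apply', h1]
  refine Finset.sum_congr rfl fun l _ => ?_
  rw [H56.resO_mul, hE', H56.resO_resO]

/-- Sections over `V ≤ W0` = vectors fixed by `E0|V`. -/
noncomputable def equiv0 : fixSub E' ≃+ Sec2 W0 W1 E0 E1 G V where
  toFun a := toSec0 hg hV E' hE' a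
  invFun s := ⟨fun i => H56.resO X (le_inf le_rfl hV : V ≤ V ⊓ W0) (s.1.1 i),
    ofSec0_mem hV E' hE' s⟩
  left_inv a := by
    apply Subtype.ext
    funext i
    change H56.resO X _ (H56.resO X _ (a.1 i)) = a.1 i
    rw [H56.resO_resO, H56.resO_id]
  right_inv s := by
    apply sec2_ext
    · intro i
      change H56.resO X _ (H56.resO X _ (s.1.1 i)) = s.1.1 i
      rw [H56.resO_resO, H56.resO_id]
    · intro j
      change ∑ i, H56.resO X _ (G j i) * H56.resO X _ (H56.resO X _ (s.1.1 i)) = s.1.2 j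
      have h4 := congrArg (H56.resO X (le_inf (le_inf inf_le_left (inf_le_left.trans hV))
        inf_le_right : V ⊓ W1 ≤ V ⊓ W0 ⊓ W1)) (s.2.2.2 j)
      rw [rO_sum] at h4
      simp only [H56.resO_mul, H56.resO_resO] at h4
      rw [H56.resO_id] at h4
      rw [h4]
      refine Finset.sum_congr rfl fun l _ => ?_
      rw [H56.resO_resO]
  map_add' a b := by
    apply sec2_ext
    · intro i
      rw [add2_fst]
      simp only [toSec0_fst]
      change H56.resO X _ (a.1 i + b.1 i) = _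
      rw [H56.resO_add]
    · intro j
      rw [add2_snd]
      simp only [toSec0_snd]
      rw [← Finset.sum_add_distrib]
      refine Finset.sum_congr rfl fun l _ => ?_
      change _ * H56.resO X _ (a.1 l + b.1 l) = _
      rw [H56.resO_add, mul_add]

theorem equiv0_apply (a : fixSub E') : equiv0 hg hV E' hE' a = toSec0 hg hV E' hE' a := rfl

theorem equiv0_smul (c : Γ(X, V)) (a : fixSub E') :
    equiv0 hg hV E' hE' (c • a) = c • equiv0 hg hV E' hE' a := by
  apply sec2_ext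
  · intro i
    rw [smul2_fst]
    simp only [equiv0_apply, toSec0_fst]
    change H56.resO X _ (c * a.1 i) = _
    rw [H56.resO_mul]
  · intro j
    rw [smul2_snd]
    simp only [equiv0_apply, toSec0_snd]
    rw [Finset.mul_sum]
    refine Finset.sum_congr rfl fun l _ => ?_
    change _ * H56.resO X _ (c * a.1 l) = _
    rw [H56.resO_mul]
    ring

end Chart0

/-- Compatibility of `equiv0` with restriction. -/
theorem equiv0_res (hg : IsGlue2 E0 E1 G G') {V V' : X.Opens} (hV : V ≤ W0) (h : V' ≤ V)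
    (E : Matrix (Fin n0) (Fin n0) Γ(X, V)) (hE : ∀ i l, E i l = H56.resO X hV (E0 i l))
    (E' : Matrix (Fin n0) (Fin n0) Γ(X, V'))
    (hE' : ∀ i l, E' i l = H56.resO X (h.trans hV) (E0 i l))
    (a : fixSub E) (a' : fixSub E') (haa' : ∀ i, a'.1 i = H56.resO X h (a.1 i)) :
    equiv0 hg (h.trans hV) E' hE' a' = secRes2 W0 W1 E0 E1 G h (equiv0 hg hV E hE a) := by
  apply sec2_ext
  · intro i
    rw [secRes2_fst]
    simp only [equiv0_apply, toSec0_fst]
    rw [haa', H56.resO_resO, H56.resO_resO]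
  · intro j
    rw [secRes2_snd]
    simp only [equiv0_apply, toSec0_snd]
    rw [rO_sum]
    refine Finset.sum_congr rfl fun l _ => ?_
    rw [haa', H56.resO_mul, H56.resO_resO, H56.resO_resO, H56.resO_resO]

/-! ### The chart `W1` -/

section Chart1

variable (hg : IsGlue2 E0 E1 G G')

omit hg in
theorem chart1_aux (b : Fin n1 → Γ(X, W1)) (hb : E1.mulVec b = b) :
    (E1.map (resO (inf_le_right : W0 ⊓ W1 ≤ W1))).mulVec
      (fun j => resO (inf_le_right : W0 ⊓ W1 ≤ W1) (b j)) =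
      fun j => resO (inf_le_right : W0 ⊓ W1 ≤ W1) (b j) := by
  funext i
  have := congrArg (resO (inf_le_right : W0 ⊓ W1 ≤ W1)) (congrFun hb i)
  rw [mulVec_apply', map_sum] at this
  rw [mulVec_apply', ← this]
  exact Finset.sum_congr rfl fun l _ => by rw [Matrix.map_apply, map_mul]

/-- The section over `W1` with second coordinates `b`. -/
noncomputable def toSec1 (b : fixSub E1) : Sec2 W0 W1 E0 E1 G W1 :=
  ⟨(fun i => H56.resO X (le_inf inf_le_right inf_le_left : W1 ⊓ W0 ≤ W0 ⊓ W1)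
      (G'.mulVec (fun j => resO (inf_le_right : W0 ⊓ W1 ≤ W1) (b.1 j)) i),
    fun j => H56.resO X (inf_le_left : W1 ⊓ W1 ≤ W1) (b.1 j)), by
    have hb := chart1_aux (W0 := W0) b.1 b.2
    refine ⟨fun i => ?_, fun j => ?_, fun j => ?_⟩
    · change H56.resO X _ (G'.mulVec (fun j => resO (inf_le_right : W0 ⊓ W1 ≤ W1) (b.1 j)) i) =
        ∑ l, H56.resO X _ (E0 i l) *
          H56.resO X _ (G'.mulVec (fun j => resO (inf_le_right : W0 ⊓ W1 ≤ W1) (b.1 j)) l)
      have e : ∀ l, H56.resO X (inf_le_right : W1 ⊓ W0 ≤ W0) (E0 i l) =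
          H56.resO X (le_inf inf_le_right inf_le_left : W1 ⊓ W0 ≤ W0 ⊓ W1)
            ((E0.map (resO (inf_le_left : W0 ⊓ W1 ≤ W0))) i l) := fun l =>
        rO_via0 _ (E0 i l)
      simp only [e]
      rw [rO_sum_mul, ← mulVec_apply', Matrix.mulVec_mulVec, hg.e0m_mul_g',
        ← Matrix.mulVec_mulVec, hb]
    · change H56.resO X _ (b.1 j) = ∑ m, H56.resO X _ (E1 j m) * H56.resO X _ (b.1 m)
      have h1 := congrArg (H56.resO X (inf_le_left : W1 ⊓ W1 ≤ W1)) (congrFun b.2 j)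
      rw [mulVec_apply', rO_sum] at h1
      rw [← h1]
      exact Finset.sum_congr rfl fun l _ => by rw [H56.resO_mul]
    · change H56.resO X _ (H56.resO X _ (b.1 j)) =
        ∑ i, H56.resO X _ (G j i) * H56.resO X _ (H56.resO X _
          (G'.mulVec (fun j => resO (inf_le_right : W0 ⊓ W1 ≤ W1) (b.1 j)) i))
      simp only [H56.resO_resO]
      rw [rO_sum_mul, ← mulVec_apply', Matrix.mulVec_mulVec, hg.gg', hb]
      beta_reduce
      rw [rH_apply, H56.resO_resO]⟩

theorem toSec1_fst (b : fixSub E1) (i : Fin n0) :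
    (toSec1 hg b).1.1 i = H56.resO X (le_inf inf_le_right inf_le_left : W1 ⊓ W0 ≤ W0 ⊓ W1)
      (G'.mulVec (fun j => resO (inf_le_right : W0 ⊓ W1 ≤ W1) (b.1 j)) i) := rfl

theorem toSec1_snd (b : fixSub E1) (j : Fin n1) :
    (toSec1 hg b).1.2 j = H56.resO X (inf_le_left : W1 ⊓ W1 ≤ W1) (b.1 j) := rfl

/-- The second coordinates of a section over `W1`. -/
theorem ofSec1_mem (s : Sec2 W0 W1 E0 E1 G W1) :
    (fun j => H56.resO X (le_inf le_rfl le_rfl : W1 ≤ W1 ⊓ W1) (s.1.2 j)) ∈ fixSub E1 := by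
  rw [mem_fixSub]
  funext j
  have h1 := congrArg (H56.resO X (le_inf le_rfl le_rfl : W1 ≤ W1 ⊓ W1)) (s.2.2.1 j)
  rw [rO_sum] at h1
  rw [mulVec_apply', h1]
  refine Finset.sum_congr rfl fun l _ => ?_
  rw [H56.resO_mul, H56.resO_resO, H56.resO_id]

/-- Sections over `W1` = vectors fixed by `E1`. -/
noncomputable def equiv1 : fixSub E1 ≃+ Sec2 W0 W1 E0 E1 G W1 where
  toFun b := toSec1 hg b
  invFun s := ⟨fun j => H56.resO X (le_inf le_rfl le_rfl : W1 ≤ W1 ⊓ W1) (s.1.2 j), ofSec1_mem s⟩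
  left_inv b := by
    apply Subtype.ext
    funext j
    change H56.resO X _ (H56.resO X _ (b.1 j)) = b.1 j
    rw [H56.resO_resO, H56.resO_id]
  right_inv s := by
    apply sec2_ext
    · intro i
      change H56.resO X _ (G'.mulVec (fun j => resO (inf_le_right : W0 ⊓ W1 ≤ W1)
        (H56.resO X (le_inf le_rfl le_rfl : W1 ≤ W1 ⊓ W1) (s.1.2 j))) i) = s.1.1 i
      have h4 := congrArg (H56.resO X (le_inf (le_inf inf_le_left inf_le_right) inf_le_left :
        W1 ⊓ W0 ≤ W1 ⊓ W0 ⊓ W1)) (sec2_fst_eq hg s i)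
      rw [rO_sum] at h4
      simp only [H56.resO_mul, H56.resO_resO] at h4
      rw [H56.resO_id] at h4
      rw [h4, mulVec_apply', rO_sum]
      refine Finset.sum_congr rfl fun l _ => ?_
      rw [H56.resO_mul, rH_apply, H56.resO_resO, H56.resO_resO]
    · intro j
      change H56.resO X _ (H56.resO X _ (s.1.2 j)) = s.1.2 j
      rw [H56.resO_resO, H56.resO_id]
  map_add' a b := by
    apply sec2_ext
    · intro i
      rw [add2_fst]
      simp only [toSec1_fst]
      rw [← H56.resO_add]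
      congr 1
      simp only [mulVec_apply']
      rw [← Finset.sum_add_distrib]
      refine Finset.sum_congr rfl fun l _ => ?_
      change _ * resO _ (a.1 l + b.1 l) = _
      rw [map_add, mul_add]
    · intro j
      rw [add2_snd]
      simp only [toSec1_snd]
      change H56.resO X _ (a.1 j + b.1 j) = _
      rw [H56.resO_add]

theorem equiv1_apply (b : fixSub E1) : equiv1 hg b = toSec1 hg b := rfl

theorem equiv1_smul (c : Γ(X, W1)) (b : fixSub E1) :
    equiv1 hg (c • b) = c • equiv1 hg b := by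
  apply sec2_ext
  · intro i
    rw [smul2_fst]
    simp only [equiv1_apply, toSec1_fst]
    have e : G'.mulVec (fun j => resO (inf_le_right : W0 ⊓ W1 ≤ W1) ((c • b).1 j)) i =
        resO (inf_le_right : W0 ⊓ W1 ≤ W1) c *
          G'.mulVec (fun j => resO (inf_le_right : W0 ⊓ W1 ≤ W1) (b.1 j)) i := by
      simp only [mulVec_apply']
      rw [Finset.mul_sum]
      refine Finset.sum_congr rfl fun l _ => ?_
      change _ * resO _ (c * b.1 l) = _
      rw [map_mul]
      ring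
    rw [e, H56.resO_mul, rH_apply, H56.resO_resO]
  · intro j
    rw [smul2_snd]
    simp only [equiv1_apply, toSec1_snd]
    change H56.resO X _ (c * b.1 j) = _
    rw [H56.resO_mul]

end Chart1

/-! ### MG -/

theorem e0m_eq (i l : Fin n0) : (E0.map (resO (inf_le_left : W0 ⊓ W1 ≤ W0))) i l =
    H56.resO X (inf_le_left : W0 ⊓ W1 ≤ W0) (E0 i l) := rfl

theorem e0_eq (i l : Fin n0) : E0 i l = H56.resO X (le_refl W0) (E0 i l) :=
  (H56.resO_id X _).symm

/-- **MG**. -/
theorem stmt_MG : Stmt_MG.{u} := by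
  intro X W0 W1 hcov n0 n1 E0 E1 G G' hp0 hp1 hg'g hgg'
  have hg : IsGlue2 E0 E1 G G' := ⟨hp0, hp1, hg'g, hgg'⟩
  refine ⟨mkSheaf2 W0 W1 E0 E1 G, isInvertible_mkSheaf2 hcov hg,
    equiv0 hg (le_refl W0) E0 e0_eq, equiv1 hg,
    equiv0 hg (inf_le_left : W0 ⊓ W1 ≤ W0) (E0.map (resO (inf_le_left : W0 ⊓ W1 ≤ W0))) e0m_eq,
    ?_, ?_, ?_, ?_, ?_⟩
  · intro c a
    exact equiv0_smul hg (le_refl W0) E0 e0_eq c a
  · intro c b
    exact equiv1_smul hg c b
  · intro c a
    exact equiv0_smul hg _ _ e0m_eq c a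
  · intro a a' haa'
    rw [resM_eq]
    exact equiv0_res hg (le_refl W0) inf_le_left E0 e0_eq _ e0m_eq a a' haa'
  · intro b a' hba'
    rw [resM_eq]
    change equiv0 hg _ _ e0m_eq a' = secRes2 W0 W1 E0 E1 G inf_le_right (equiv1 hg b)
    have hb := chart1_aux (W0 := W0) b.1 b.2
    have ha' : a'.1 = G'.mulVec (fun j => resO (inf_le_right : W0 ⊓ W1 ≤ W1) (b.1 j)) := by
      funext i
      rw [hba' i, mulVec_apply']
    apply sec2_ext
    · intro i
      rw [secRes2_fst]
      simp only [equiv0_apply, toSec0_fst, equiv1_apply, toSec1_fst]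
      rw [ha', H56.resO_resO]
    · intro j
      rw [secRes2_snd]
      simp only [equiv0_apply, toSec0_snd, equiv1_apply, toSec1_snd]
      rw [rO_sum_mul, ← mulVec_apply', ha', Matrix.mulVec_mulVec, hgg', hb]
      beta_reduce
      rw [rH_apply, H56.resO_resO, H56.resO_resO]

end Fermat.Agent.S25.Bridge.H94
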