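/-
helper94, S25 (Jacobian exists), package BRIDGE, leaf T3 — INTERFACE, part 2: the abstract form of ALG.

With helper18's `T3.Stmt_T3ABS` (Bridge/T3Defs.lean) and helper24's wire `H24.stmt_T3_of_ABS : T3.Stmt_T3ABS → Stmt_T3`
the matrix route is

  T3  ⟸  T3ABS  ⟸  ALGABS + MG          (no transport along the chart rings is needed any more).

`Stmt_ALGABS` is `Stmt_ALG` of `H94_T3Defs.lean` over arbitrary rings `A0 → A01 ← A1` (`A01 = A0[1/f0] = A1[1/f1]` in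
the elementwise form) instead of `R ⊗ B0 → R ⊗ B01 ← R ⊗ B1`; `Stmt_ALG` is the instance `A_i = R ⊗ B_i`.
-/
import Fermat.Agent.S25.Bridge.H94_T3Defs

set_option autoImplicit false

universe u

namespace Fermat.Agent.S25.Bridge.H94

/-- **ALGABS** (pure algebra, Mathlib only): two invertible modules `P0` over `A0`, `P1` over `A1` with a common
localisation `P01` over `A01` are given by rank-one projectors and transition matrices.
[`(φ_i, m_i)` a dual basis of `P0`, `(ψ_j, n_j)` of `P1`; `E0 = (φ_i m_l)`, `E1 = (ψ_j n_l)`,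
`G = (ψ_j^01 (r0 m_i))`, `G' = (φ_i^01 (r1 n_j))`; `h0 p = (φ_i p)_i`, `h1 p = (ψ_j p)_j`, `h01 m = (φ_i^01 m)_i`.] -/
def Stmt_ALGABS : Prop :=
  ∀ (A0 A1 A01 : Type u) [CommRing A0] [CommRing A1] [CommRing A01]
    (ρ0 : A0 →+* A01) (ρ1 : A1 →+* A01) (f0 : A0) (f1 : A1),
    (∀ c : A01, ∃ (n : ℕ) (a : A0), ρ0 f0 ^ n * c = ρ0 a) →
    (∀ c : A01, ∃ (n : ℕ) (a : A1), ρ1 f1 ^ n * c = ρ1 a) →
    IsUnit (ρ0 f0) → IsUnit (ρ1 f1) →
    ∀ (P0 P1 P01 : Type u) [AddCommGroup P0] [AddCommGroup P1] [AddCommGroup P01]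
      [Module A0 P0] [Module A1 P1] [Module A01 P01],
      Module.Invertible A0 P0 → Module.Invertible A1 P1 →
    ∀ (r0 : P0 →+ P01) (r1 : P1 →+ P01),
      (∀ (a : A0) (p : P0), r0 (a • p) = ρ0 a • r0 p) →
      (∀ (a : A1) (p : P1), r1 (a • p) = ρ1 a • r1 p) →
      (∀ m : P01, ∃ (n : ℕ) (p : P0), ρ0 f0 ^ n • m = r0 p) →
      (∀ p : P0, r0 p = 0 → ∃ n : ℕ, f0 ^ n • p = 0) →
      (∀ m : P01, ∃ (n : ℕ) (p : P1), ρ1 f1 ^ n • m = r1 p) →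
      (∀ p : P1, r1 p = 0 → ∃ n : ℕ, f1 ^ n • p = 0) →
      ∃ (n0 n1 : ℕ) (E0 : Matrix (Fin n0) (Fin n0) A0) (E1 : Matrix (Fin n1) (Fin n1) A1)
        (G : Matrix (Fin n1) (Fin n0) A01) (G' : Matrix (Fin n0) (Fin n1) A01),
        IsProj1 E0 ∧ IsProj1 E1 ∧ G' * G = E0.map ρ0 ∧ G * G' = E1.map ρ1 ∧
        ∃ (h0 : P0 ≃+ fixSub E0) (h1 : P1 ≃+ fixSub E1) (h01 : P01 ≃+ fixSub (E0.map ρ0)),
          (∀ (c : A0) (p : P0), h0 (c • p) = c • h0 p) ∧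
          (∀ (c : A1) (p : P1), h1 (c • p) = c • h1 p) ∧
          (∀ (c : A01) (p : P01), h01 (c • p) = c • h01 p) ∧
          (∀ (p : P0) (i : Fin n0), (h01 (r0 p)).1 i = ρ0 ((h0 p).1 i)) ∧
          (∀ (p : P1) (i : Fin n0), (h01 (r1 p)).1 i = ∑ j : Fin n1, G' i j * ρ1 ((h1 p).1 j))

end Fermat.Agent.S25.Bridge.H94
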