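import Fermat.Agent.S25.Bridge.Defs
import Fermat.Agent.S25.Glue.H56_Iso

/-!
# S25, package BRIDGE, leaf T2 (helper99), abstract part

* `smul_transfer`, `smul_transfer_back` : transport of linearity along additive bijections which
  are semilinear on the pure tensors;
* `transferEquiv`, `transferBack` : the linear equivalences they give;
* `res_eq_resM` : `Bridge.res = Glue.H56.resM`; `appEquiv` : an isomorphism on sections;
* `symm_compat` : the inverse of a compatible family of linear isomorphisms is compatible;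
* `exists_hom_of_two` : a compatible family of linear maps on the opens contained in `W₀` or in
  `W₁`, `W₀ ∪ W₁ = X`, comes from a morphism of sheaves of modules;
* `nonempty_iso_of_two` : two compatible families of linear isomorphisms on the opens contained
  in `W₀`, resp. `W₁`, which agree on the opens contained in both, come from an isomorphism.
-/

set_option autoImplicit false

universe u

open CategoryTheory CategoryTheory.Limits AlgebraicGeometry TopologicalSpace TensorProduct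

namespace Fermat.Agent.S25.Bridge.H99

open Fermat.Agent.S25.Glue.H56 (resM resM_add resM_smul resM_resM resM_id hom_app_resM
  glue_hom hom_ext_small)

/-! ### Transport of linearity -/

section Alg

variable {k R B S P P' Q Q' : Type*} [CommRing k] [CommRing R] [Algebra k R] [CommRing B]
  [Algebra k B] [CommRing S] [AddCommGroup P] [Module (R ⊗[k] B) P] [AddCommGroup P']
  [Module (R ⊗[k] B) P'] [AddCommGroup Q] [Module S Q] [AddCommGroup Q'] [Module S Q']

/-- If `f`, `f'` are semilinear on the pure tensors and `g` is linear, then `f'⁻¹ ∘ g ∘ f` is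
linear. -/
theorem smul_transfer (σ : R → B → S) (f : P ≃+ Q) (f' : P' ≃+ Q')
    (hf : ∀ r b p, f ((r ⊗ₜ[k] b) • p) = σ r b • f p)
    (hf' : ∀ r b p, f' ((r ⊗ₜ[k] b) • p) = σ r b • f' p)
    (g : Q → Q') (hg0 : g 0 = 0) (hga : ∀ q q', g (q + q') = g q + g q')
    (hg : ∀ (s : S) q, g (s • q) = s • g q)
    (a : R ⊗[k] B) (p : P) :
    f'.symm (g (f (a • p))) = a • f'.symm (g (f p)) := by
  induction a using TensorProduct.induction_on with
  | zero => rw [zero_smul, zero_smul, map_zero, hg0, map_zero]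
  | tmul r b =>
    rw [hf, hg]
    apply f'.injective
    rw [f'.apply_symm_apply, hf', f'.apply_symm_apply]
  | add x y hx hy =>
    rw [add_smul, add_smul, map_add, hga, map_add, hx, hy]

/-- If `f`, `f'` are semilinear on the pure tensors, `h` is linear and the pure tensors generate
`S` additively, then `f' ∘ h ∘ f⁻¹` is linear. -/
theorem smul_transfer_back (σ : R → B → S) (f : P ≃+ Q) (f' : P' ≃+ Q')
    (hf : ∀ r b p, f ((r ⊗ₜ[k] b) • p) = σ r b • f p)
    (hf' : ∀ r b p, f' ((r ⊗ₜ[k] b) • p) = σ r b • f' p)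
    (h : P → P') (hh0 : h 0 = 0) (hha : ∀ p p', h (p + p') = h p + h p')
    (hh : ∀ (a : R ⊗[k] B) p, h (a • p) = a • h p)
    (hgen : ∀ s : S, s ∈ AddSubmonoid.closure (Set.range fun rb : R × B => σ rb.1 rb.2))
    (s : S) (q : Q) :
    f' (h (f.symm (s • q))) = s • f' (h (f.symm q)) := by
  induction hgen s using AddSubmonoid.closure_induction with
  | mem x hx =>
    obtain ⟨⟨r, b⟩, rfl⟩ := hx
    have e1 : f.symm (σ r b • q) = (r ⊗ₜ[k] b) • f.symm q := by
      apply f.injective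
      rw [f.apply_symm_apply, hf, f.apply_symm_apply]
    rw [e1, hh, hf']
  | zero => rw [zero_smul, zero_smul, map_zero, hh0, map_zero]
  | add x y _ _ hx hy =>
    rw [add_smul, add_smul, map_add, hha, map_add, hx, hy]

/-- The linear equivalence `f'⁻¹ ∘ g ∘ f`. -/
noncomputable def transferEquiv (σ : R → B → S) (f : P ≃+ Q) (f' : P' ≃+ Q')
    (hf : ∀ r b p, f ((r ⊗ₜ[k] b) • p) = σ r b • f p)
    (hf' : ∀ r b p, f' ((r ⊗ₜ[k] b) • p) = σ r b • f' p) (g : Q ≃ₗ[S] Q') :
    P ≃ₗ[R ⊗[k] B] P' where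
  toFun p := f'.symm (g (f p))
  invFun p' := f.symm (g.symm (f' p'))
  map_add' p p' := by rw [map_add, map_add, map_add]
  map_smul' a p := smul_transfer σ f f' hf hf' g (map_zero g) (map_add g) (map_smul g) a p
  left_inv p := by
    change f.symm (g.symm (f' (f'.symm (g (f p))))) = p
    rw [f'.apply_symm_apply, g.symm_apply_apply, f.symm_apply_apply]
  right_inv p' := by
    change f'.symm (g (f (f.symm (g.symm (f' p'))))) = p'
    rw [f.apply_symm_apply, g.apply_symm_apply, f'.symm_apply_apply]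

theorem transferEquiv_apply (σ : R → B → S) (f : P ≃+ Q) (f' : P' ≃+ Q')
    (hf : ∀ r b p, f ((r ⊗ₜ[k] b) • p) = σ r b • f p)
    (hf' : ∀ r b p, f' ((r ⊗ₜ[k] b) • p) = σ r b • f' p) (g : Q ≃ₗ[S] Q') (p : P) :
    transferEquiv σ f f' hf hf' g p = f'.symm (g (f p)) := rfl

/-- The linear equivalence `f' ∘ h ∘ f⁻¹`. -/
noncomputable def transferBack (σ : R → B → S) (f : P ≃+ Q) (f' : P' ≃+ Q')
    (hf : ∀ r b p, f ((r ⊗ₜ[k] b) • p) = σ r b • f p)
    (hf' : ∀ r b p, f' ((r ⊗ₜ[k] b) • p) = σ r b • f' p)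
    (hgen : ∀ s : S, s ∈ AddSubmonoid.closure (Set.range fun rb : R × B => σ rb.1 rb.2))
    (h : P ≃ₗ[R ⊗[k] B] P') : Q ≃ₗ[S] Q' where
  toFun q := f' (h (f.symm q))
  invFun q' := f (h.symm (f'.symm q'))
  map_add' q q' := by rw [map_add, map_add, map_add]
  map_smul' s q :=
    smul_transfer_back σ f f' hf hf' h (map_zero h) (map_add h) (map_smul h) hgen s q
  left_inv q := by
    change f (h.symm (f'.symm (f' (h (f.symm q))))) = q
    rw [f'.symm_apply_apply, h.symm_apply_apply, f.apply_symm_apply]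
  right_inv q' := by
    change f' (h (f.symm (f (h.symm (f'.symm q'))))) = q'
    rw [f.symm_apply_apply, h.apply_symm_apply, f'.apply_symm_apply]

theorem transferBack_apply (σ : R → B → S) (f : P ≃+ Q) (f' : P' ≃+ Q')
    (hf : ∀ r b p, f ((r ⊗ₜ[k] b) • p) = σ r b • f p)
    (hf' : ∀ r b p, f' ((r ⊗ₜ[k] b) • p) = σ r b • f' p)
    (hgen : ∀ s : S, s ∈ AddSubmonoid.closure (Set.range fun rb : R × B => σ rb.1 rb.2))
    (h : P ≃ₗ[R ⊗[k] B] P') (q : Q) :
    transferBack σ f f' hf hf' hgen h q = f' (h (f.symm q)) := rfl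

end Alg

/-! ### Gluing along two opens -/

section Two

variable {X : Scheme.{u}}

theorem res_eq_resM (L : X.Modules) {U V : X.Opens} (h : V ≤ U) (t : Γ(L, U)) :
    res L h t = resM L h t := rfl

/-- The inverse of a compatible family of linear isomorphisms is compatible. -/
theorem symm_compat (L L' : X.Modules) (W : X.Opens)
    (E : ∀ V : X.Opens, V ≤ W → (Γ(L, V) ≃ₗ[Γ(X, V)] Γ(L', V)))
    (c : ∀ (V V' : X.Opens) (hV : V ≤ W) (hV' : V' ≤ V) (p : Γ(L, V)),
      E V' (hV'.trans hV) (res L hV' p) = res L' hV' (E V hV p))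
    (V V' : X.Opens) (hV : V ≤ W) (hV' : V' ≤ V) (q : Γ(L', V)) :
    (E V' (hV'.trans hV)).symm (res L' hV' q) = res L hV' ((E V hV).symm q) := by
  rw [LinearEquiv.symm_apply_eq, c V V' hV hV', LinearEquiv.apply_symm_apply]

/-- The linear equivalence on sections of an isomorphism of sheaves of modules. -/
noncomputable def appEquiv {L L' : X.Modules} (e : L ≅ L') (W : X.Opens) :
    Γ(L, W) ≃ₗ[Γ(X, W)] Γ(L', W) where
  toFun p := e.hom.app W p
  invFun q := e.inv.app W q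
  map_add' p p' := map_add _ p p'
  map_smul' r p := Scheme.Modules.Hom.app_smul e.hom r p
  left_inv p := congrArg (fun ψ : L ⟶ L => (Scheme.Modules.Hom.app ψ W) p) e.hom_inv_id
  right_inv q := congrArg (fun ψ : L' ⟶ L' => (Scheme.Modules.Hom.app ψ W) q) e.inv_hom_id

theorem appEquiv_apply {L L' : X.Modules} (e : L ≅ L') (W : X.Opens) (p : Γ(L, W)) :
    appEquiv e W p = e.hom.app W p := rfl

theorem appEquiv_res {L L' : X.Modules} (e : L ≅ L') {U V : X.Opens} (h : V ≤ U)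
    (p : Γ(L, U)) : appEquiv e V (res L h p) = res L' h (appEquiv e U p) :=
  hom_app_resM e.hom h p

variable (L L' : X.Modules) (W₀ W₁ : X.Opens)

/-- the cover by two opens -/
def twoCover : Bool → X.Opens := fun b => cond b W₀ W₁

theorem twoCover_cover (hcov : ∀ x : X, x ∈ W₀ ∨ x ∈ W₁) :
    ∀ x : X, ∃ i, x ∈ twoCover W₀ W₁ i := by
  intro x
  rcases hcov x with h | h
  · exact ⟨true, h⟩
  · exact ⟨false, h⟩

theorem le_one_of_small {W : X.Opens} (h : ∃ i, W ≤ twoCover W₀ W₁ i) (h0 : ¬ W ≤ W₀) :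
    W ≤ W₁ := by
  obtain ⟨i, hi⟩ := h
  cases i
  · exact hi
  · exact absurd hi h0

open Classical in
/-- A compatible pair of families of linear maps on the opens contained in `W₀`, resp. `W₁`,
which agree on the opens contained in both, comes from a morphism. -/
theorem exists_hom_of_two (hcov : ∀ x : X, x ∈ W₀ ∨ x ∈ W₁)
    (F0 : ∀ V : X.Opens, V ≤ W₀ → (Γ(L, V) →ₗ[Γ(X, V)] Γ(L', V)))
    (F1 : ∀ V : X.Opens, V ≤ W₁ → (Γ(L, V) →ₗ[Γ(X, V)] Γ(L', V)))
    (c0 : ∀ (V V' : X.Opens) (hV : V ≤ W₀) (hV' : V' ≤ V) (p : Γ(L, V)),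
      F0 V' (hV'.trans hV) (res L hV' p) = res L' hV' (F0 V hV p))
    (c1 : ∀ (V V' : X.Opens) (hV : V ≤ W₁) (hV' : V' ≤ V) (p : Γ(L, V)),
      F1 V' (hV'.trans hV) (res L hV' p) = res L' hV' (F1 V hV p))
    (agree : ∀ (V : X.Opens) (h0 : V ≤ W₀) (h1 : V ≤ W₁) (p : Γ(L, V)),
      F0 V h0 p = F1 V h1 p) :
    ∃ φ : L ⟶ L', (∀ (V : X.Opens) (h0 : V ≤ W₀) (p : Γ(L, V)), φ.app V p = F0 V h0 p) ∧
      (∀ (V : X.Opens) (h1 : V ≤ W₁) (p : Γ(L, V)), φ.app V p = F1 V h1 p) := by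
  let f : ∀ W : X.Opens, (∃ i, W ≤ twoCover W₀ W₁ i) → Γ(L, W) → Γ(L', W) := fun W h =>
    if h0 : W ≤ W₀ then F0 W h0 else F1 W (le_one_of_small W₀ W₁ h h0)
  have hf0 : ∀ (W : X.Opens) (h : ∃ i, W ≤ twoCover W₀ W₁ i) (h0 : W ≤ W₀) (p : Γ(L, W)),
      f W h p = F0 W h0 p := by
    intro W h h0 p
    simp only [f, dif_pos h0]
  have hf1 : ∀ (W : X.Opens) (h : ∃ i, W ≤ twoCover W₀ W₁ i) (h1 : W ≤ W₁) (p : Γ(L, W)),
      f W h p = F1 W h1 p := by
    intro W h h1 p
    by_cases h0 : W ≤ W₀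
    · rw [hf0 W h h0, agree W h0 h1]
    · simp only [f, dif_neg h0]
  obtain ⟨φ, hφ, -⟩ := glue_hom L L' (twoCover W₀ W₁) (twoCover_cover W₀ W₁ hcov) f
    (by
      intro W h t t'
      by_cases h0 : W ≤ W₀
      · rw [hf0 W h h0, hf0 W h h0, hf0 W h h0, map_add]
      · have h1 := le_one_of_small W₀ W₁ h h0
        rw [hf1 W h h1, hf1 W h h1, hf1 W h h1, map_add])
    (by
      intro W h r t
      by_cases h0 : W ≤ W₀
      · rw [hf0 W h h0, hf0 W h h0, map_smul]
      · have h1 := le_one_of_small W₀ W₁ h h0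
        rw [hf1 W h h1, hf1 W h h1, map_smul])
    (by
      intro W W' h h' hW t
      by_cases h0 : W ≤ W₀
      · rw [hf0 W h h0, hf0 W' h' (hW.trans h0)]
        exact c0 W W' h0 hW t
      · have h1 := le_one_of_small W₀ W₁ h h0
        rw [hf1 W h h1, hf1 W' h' (hW.trans h1)]
        exact c1 W W' h1 hW t)
  exact ⟨φ, fun V h0 p => (hφ V ⟨true, h0⟩ p).trans (hf0 V ⟨true, h0⟩ h0 p),
    fun V h1 p => (hφ V ⟨false, h1⟩ p).trans (hf1 V ⟨false, h1⟩ h1 p)⟩

/-- Two compatible families of linear isomorphisms on the opens contained in `W₀`, resp. `W₁`,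
which agree on the opens contained in both, come from an isomorphism. -/
theorem nonempty_iso_of_two (hcov : ∀ x : X, x ∈ W₀ ∨ x ∈ W₁)
    (E0 : ∀ V : X.Opens, V ≤ W₀ → (Γ(L, V) ≃ₗ[Γ(X, V)] Γ(L', V)))
    (E1 : ∀ V : X.Opens, V ≤ W₁ → (Γ(L, V) ≃ₗ[Γ(X, V)] Γ(L', V)))
    (c0 : ∀ (V V' : X.Opens) (hV : V ≤ W₀) (hV' : V' ≤ V) (p : Γ(L, V)),
      E0 V' (hV'.trans hV) (res L hV' p) = res L' hV' (E0 V hV p))
    (c1 : ∀ (V V' : X.Opens) (hV : V ≤ W₁) (hV' : V' ≤ V) (p : Γ(L, V)),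
      E1 V' (hV'.trans hV) (res L hV' p) = res L' hV' (E1 V hV p))
    (agree : ∀ (V : X.Opens) (h0 : V ≤ W₀) (h1 : V ≤ W₁) (p : Γ(L, V)),
      E0 V h0 p = E1 V h1 p) :
    Nonempty (L ≅ L') := by
  obtain ⟨φ, hφ0, hφ1⟩ := exists_hom_of_two L L' W₀ W₁ hcov
    (fun V h => (E0 V h).toLinearMap) (fun V h => (E1 V h).toLinearMap) c0 c1 agree
  obtain ⟨ψ, hψ0, hψ1⟩ := exists_hom_of_two L' L W₀ W₁ hcov
    (fun V h => (E0 V h).symm.toLinearMap) (fun V h => (E1 V h).symm.toLinearMap)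
    (symm_compat L L' W₀ E0 c0) (symm_compat L L' W₁ E1 c1)
    (by
      intro V h0 h1 q
      change (E0 V h0).symm q = (E1 V h1).symm q
      rw [LinearEquiv.symm_apply_eq, agree V h0 h1, LinearEquiv.apply_symm_apply])
  have hV := twoCover_cover W₀ W₁ hcov
  refine ⟨⟨φ, ψ, ?_, ?_⟩⟩
  · refine hom_ext_small L L (twoCover W₀ W₁) hV _ _ ?_
    intro W h t
    change ψ.app W (φ.app W t) = t
    by_cases h0 : W ≤ W₀
    · rw [hφ0 W h0, hψ0 W h0]
      exact (E0 W h0).symm_apply_apply t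
    · have h1 := le_one_of_small W₀ W₁ h h0
      rw [hφ1 W h1, hψ1 W h1]
      exact (E1 W h1).symm_apply_apply t
  · refine hom_ext_small L' L' (twoCover W₀ W₁) hV _ _ ?_
    intro W h t
    change φ.app W (ψ.app W t) = t
    by_cases h0 : W ≤ W₀
    · rw [hψ0 W h0, hφ0 W h0]
      exact (E0 W h0).apply_symm_apply t
    · have h1 := le_one_of_small W₀ W₁ h h0
      rw [hψ1 W h1, hφ1 W h1]
      exact (E1 W h1).apply_symm_apply t

end Two

end Fermat.Agent.S25.Bridge.H99
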