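import Fermat.Agent.S25.Bridge.H99_T3Glue
import Fermat.Agent.S25.Bridge.H94_T3Defs2
import Fermat.Agent.S25.Bridge.H24_T3Wire

/-!
# S25, package BRIDGE, leaf T3, assembly in the abstract form (helper99)

`stmt_T3ABS_of : H94.Stmt_ALGABS → H94.Stmt_MG → T3.Stmt_T3ABS` (no chart rings, no `Realizes`), and
`stmt_T3_of_ALGABS : H94.Stmt_ALGABS → H94.Stmt_MG → Stmt_T3` (through `H24.stmt_T3_of_ABS`).
-/

set_option autoImplicit false
set_option linter.unusedSectionVars false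
set_option linter.unusedVariables false
set_option linter.style.haveILetI false

universe u

open CategoryTheory CategoryTheory.Limits AlgebraicGeometry AlgebraicGeometry.RelPicard
  NeronModelInfra TopologicalSpace TensorProduct

namespace Fermat.Agent.S25.Bridge.H99

/-- on a basic open of an affine open every function is a fraction -/
theorem exists_pow_mul_eq_resO {X : Scheme.{u}} (W W' : X.Opens) (hW : IsAffineOpen W)
    (f : Γ(X, W)) (hW' : X.basicOpen f = W') (hle : W' ≤ W) (c : Γ(X, W')) :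
    ∃ (n : ℕ) (a : Γ(X, W)), resO hle f ^ n * c = resO hle a := by
  subst hW'
  haveI hloc : IsLocalization.Away f Γ(X, X.basicOpen f) := hW.isLocalization_basicOpen f
  obtain ⟨⟨a, s⟩, h⟩ := IsLocalization.surj (Submonoid.powers f) c
  obtain ⟨n, hn⟩ := s.2
  refine ⟨n, a, ?_⟩
  have hn' : f ^ n = (s : Γ(X, W)) := hn
  have h' : c * algebraMap Γ(X, W) Γ(X, X.basicOpen f) (f ^ n) =
      algebraMap Γ(X, W) Γ(X, X.basicOpen f) a := by
    rw [hn']
    exact h
  rw [map_pow] at h'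
  rw [mul_comm]
  exact h'

/-- a function is a unit on its basic open -/
theorem isUnit_resO_basicOpen {X : Scheme.{u}} (W W' : X.Opens) (hW : IsAffineOpen W)
    (f : Γ(X, W)) (hW' : X.basicOpen f = W') (hle : W' ≤ W) : IsUnit (resO hle f) := by
  subst hW'
  haveI hloc : IsLocalization.Away f Γ(X, X.basicOpen f) := hW.isLocalization_basicOpen f
  exact IsLocalization.Away.algebraMap_isUnit (S := Γ(X, X.basicOpen f)) f

/-- **T3ABS** from ALGABS and MG. -/
theorem stmt_T3ABS_of (hALG : H94.Stmt_ALGABS.{u}) (hMG : H94.Stmt_MG.{u}) :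
    T3.Stmt_T3ABS.{u} := by
  intro X W0 W1 W01 hW0 hW1 hcov hle0 hle1 hinf f0 f1 hf0 hf1 P0 P1 P01 _ _ _ _ _ _ hP0 hP1
    r0 r1 hr0 hr1 hsurj0 hker0 hsurj1 hker1
  obtain ⟨n0, n1, E0, E1, G, G', hE0, hE1, hG'G, hGG', h0, h1, h01, hs0, hs1, hs01, hc0, hc1⟩ :=
    hALG Γ(X, W0) Γ(X, W1) Γ(X, W01) (resO hle0) (resO hle1) f0 f1
      (exists_pow_mul_eq_resO W0 W01 hW0 f0 hf0 hle0)
      (exists_pow_mul_eq_resO W1 W01 hW1 f1 hf1 hle1)
      (isUnit_resO_basicOpen W0 W01 hW0 f0 hf0 hle0)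
      (isUnit_resO_basicOpen W1 W01 hW1 f1 hf1 hle1)
      P0 P1 P01 hP0 hP1 r0 r1 hr0 hr1 hsurj0 hker0 hsurj1 hker1
  have hcov' : W0 ⊔ W1 = ⊤ := by
    apply le_antisymm le_top
    intro x _
    exact hcov x
  exact glue_abs hMG W0 W1 W01 hcov' (le_antisymm (le_inf hle0 hle1) hinf) hle0 hle1
    (RingEquiv.refl _) (RingEquiv.refl _) (RingEquiv.refl _) (resO hle0) (resO hle1)
    (fun _ => rfl) (fun _ => rfl) (fun p => r0 p) (fun p => r1 p) E0 E1 G G' hE0 hE1 hG'G hGG'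
    h0 h1 h01 hs0 hs1 hs01 hc0 hc1

/-- **BRIDGE-T3** from ALGABS and MG. -/
theorem stmt_T3_of_ALGABS (hALG : H94.Stmt_ALGABS.{u}) (hMG : H94.Stmt_MG.{u}) : Stmt_T3.{u} :=
  H24.stmt_T3_of_ABS (stmt_T3ABS_of hALG hMG)

end Fermat.Agent.S25.Bridge.H99
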