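import Fermat.Agent.S25.Bridge.H94_T3Defs
import Fermat.Agent.S25.Bridge.H24_T1

/-!
# S25, package BRIDGE, leaf T3, assembly GLUE-b (helper99)

`stmt_T3_of_MG : H94.Stmt_ALG → H94.Stmt_MG → Stmt_T3` : every triple is the triple of an invertible
sheaf, from the matrix description of a triple (ALG) and the gluing of rank-one projectors on a
scheme covered by two opens (MG).  The chart rings are those of RING (`H24.nonempty_chartRing`).

* `isProj1_map`  : a ring homomorphism preserves rank-one projectors;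
* `mapFix`       : a ring isomorphism `Ψ : A ≃+* S` induces `fixSub E ≃+ fixSub E'` for `E' = E.map Ψ`;
* `glue_abs`     : the abstract form of the assembly (any scheme, any chart rings);
* `stmt_T3_of`   : the assembly.
-/

set_option autoImplicit false
set_option linter.unusedSectionVars false
set_option linter.unusedVariables false
set_option linter.style.haveILetI false

universe u

open CategoryTheory CategoryTheory.Limits AlgebraicGeometry AlgebraicGeometry.RelPicard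
  NeronModelInfra TopologicalSpace TensorProduct

namespace Fermat.Agent.S25.Bridge.H99

open H94 (IsProj1 fixSub mem_fixSub)

/-- A ring homomorphism preserves rank-one projectors. -/
theorem isProj1_map {A S : Type u} [CommRing A] [CommRing S] {n : ℕ}
    {E : Matrix (Fin n) (Fin n) A} (h : IsProj1 E) (f : A →+* S) : IsProj1 (E.map f) where
  minor i j l m := by
    simp only [Matrix.map_apply]
    rw [← map_mul, ← map_mul, h.minor]
  trace := by
    simp only [Matrix.map_apply]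
    rw [← map_sum, h.trace, map_one]

/-- the image of a fixed vector under a ring homomorphism is fixed by the image matrix -/
theorem map_mem_fixSub {A S : Type u} [CommRing A] [CommRing S] {n : ℕ} (f : A →+* S)
    (E : Matrix (Fin n) (Fin n) A) (E' : Matrix (Fin n) (Fin n) S) (h : E' = E.map f)
    (a : Fin n → A) (ha : a ∈ fixSub E) : (fun i => f (a i)) ∈ fixSub E' := by
  rw [mem_fixSub] at ha ⊢
  subst h
  funext i
  have := RingHom.map_mulVec f E a i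
  rw [ha] at this
  exact this.symm

/-- A ring isomorphism induces an additive isomorphism of the modules of fixed vectors. -/
noncomputable def mapFix {A S : Type u} [CommRing A] [CommRing S] {n : ℕ} (Ψ : A ≃+* S)
    (E : Matrix (Fin n) (Fin n) A) (E' : Matrix (Fin n) (Fin n) S) (h : E' = E.map Ψ) :
    fixSub E ≃+ fixSub E' where
  toFun a := ⟨fun i => Ψ (a.1 i), map_mem_fixSub Ψ.toRingHom E E' h a.1 a.2⟩
  invFun b := ⟨fun i => Ψ.symm (b.1 i), map_mem_fixSub Ψ.symm.toRingHom E' E (by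
    subst h
    ext i j
    simp) b.1 b.2⟩
  left_inv a := by
    apply Subtype.ext
    funext i
    exact Ψ.symm_apply_apply _
  right_inv b := by
    apply Subtype.ext
    funext i
    exact Ψ.apply_symm_apply _
  map_add' a b := by
    apply Subtype.ext
    funext i
    exact map_add Ψ _ _

theorem mapFix_apply {A S : Type u} [CommRing A] [CommRing S] {n : ℕ} (Ψ : A ≃+* S)
    (E : Matrix (Fin n) (Fin n) A) (E' : Matrix (Fin n) (Fin n) S) (h : E' = E.map Ψ)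
    (a : fixSub E) (i : Fin n) : (mapFix Ψ E E' h a).1 i = Ψ (a.1 i) := rfl

theorem mapFix_smul {A S : Type u} [CommRing A] [CommRing S] {n : ℕ} (Ψ : A ≃+* S)
    (E : Matrix (Fin n) (Fin n) A) (E' : Matrix (Fin n) (Fin n) S) (h : E' = E.map Ψ)
    (c : A) (a : fixSub E) : mapFix Ψ E E' h (c • a) = Ψ c • mapFix Ψ E E' h a := by
  apply Subtype.ext
  funext i
  change Ψ (c * a.1 i) = Ψ c * Ψ (a.1 i)
  exact map_mul Ψ _ _

/-- **GLUE-b, abstract form**: the matrix description of a triple of modules over chart rings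
`A0`, `A1`, `A01` of a scheme `X = W0 ∪ W1` glues to an invertible sheaf (from MG). -/
theorem glue_abs (hMG : H94.Stmt_MG.{u}) {X : Scheme.{u}} (W0 W1 W01 : X.Opens)
    (hcov : W0 ⊔ W1 = ⊤) (hW : W01 = W0 ⊓ W1) (hl : W01 ≤ W0) (hr : W01 ≤ W1)
    {A0 A1 A01 : Type u} [CommRing A0] [CommRing A1] [CommRing A01]
    (Θ0 : A0 ≃+* Γ(X, W0)) (Θ1 : A1 ≃+* Γ(X, W1)) (Θ01 : A01 ≃+* Γ(X, W01))
    (ι0 : A0 →+* A01) (ι1 : A1 →+* A01)
    (hΘ0 : ∀ a, resO hl (Θ0 a) = Θ01 (ι0 a)) (hΘ1 : ∀ a, resO hr (Θ1 a) = Θ01 (ι1 a))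
    {P0 P1 P01 : Type u} [AddCommGroup P0] [AddCommGroup P1] [AddCommGroup P01]
    [Module A0 P0] [Module A1 P1] [Module A01 P01]
    (r0 : P0 → P01) (r1 : P1 → P01)
    {n0 n1 : ℕ} (E0 : Matrix (Fin n0) (Fin n0) A0) (E1 : Matrix (Fin n1) (Fin n1) A1)
    (G : Matrix (Fin n1) (Fin n0) A01) (G' : Matrix (Fin n0) (Fin n1) A01)
    (hE0 : IsProj1 E0) (hE1 : IsProj1 E1)
    (hG'G : G' * G = E0.map ι0) (hGG' : G * G' = E1.map ι1)
    (h0 : P0 ≃+ fixSub E0) (h1 : P1 ≃+ fixSub E1) (h01 : P01 ≃+ fixSub (E0.map ι0))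
    (hs0 : ∀ (c : A0) (p : P0), h0 (c • p) = c • h0 p)
    (hs1 : ∀ (c : A1) (p : P1), h1 (c • p) = c • h1 p)
    (hs01 : ∀ (c : A01) (p : P01), h01 (c • p) = c • h01 p)
    (hr0 : ∀ (p : P0) (i : Fin n0), (h01 (r0 p)).1 i = ι0 ((h0 p).1 i))
    (hr1 : ∀ (p : P1) (i : Fin n0),
      (h01 (r1 p)).1 i = ∑ j : Fin n1, G' i j * ι1 ((h1 p).1 j)) :
    ∃ L : X.Modules, Scheme.Modules.IsInvertible L ∧
      ∃ (F0 : P0 ≃+ Γ(L, W0)) (F1 : P1 ≃+ Γ(L, W1)) (F01 : P01 ≃+ Γ(L, W01)),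
        (∀ (c : A0) (p : P0), F0 (c • p) = Θ0 c • F0 p) ∧
        (∀ (c : A1) (p : P1), F1 (c • p) = Θ1 c • F1 p) ∧
        (∀ (c : A01) (p : P01), F01 (c • p) = Θ01 c • F01 p) ∧
        (∀ p : P0, F01 (r0 p) = res L hl (F0 p)) ∧
        (∀ p : P1, F01 (r1 p) = res L hr (F1 p)) := by
  subst hW
  have e0 : (E0.map ι0).map Θ01 = (E0.map Θ0).map (resO (inf_le_left : W0 ⊓ W1 ≤ W0)) := by
    ext i j
    simp only [Matrix.map_apply]
    exact (hΘ0 _).symm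
  have e1 : (E1.map ι1).map Θ01 = (E1.map Θ1).map (resO (inf_le_right : W0 ⊓ W1 ≤ W1)) := by
    ext i j
    simp only [Matrix.map_apply]
    exact (hΘ1 _).symm
  have hm1 : G'.map Θ01 * G.map Θ01 =
      (E0.map Θ0).map (resO (inf_le_left : W0 ⊓ W1 ≤ W0)) := by
    rw [← e0, ← hG'G]
    exact (Matrix.map_mul (f := Θ01.toRingHom)).symm
  have hm2 : G.map Θ01 * G'.map Θ01 =
      (E1.map Θ1).map (resO (inf_le_right : W0 ⊓ W1 ≤ W1)) := by
    rw [← e1, ← hGG']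
    exact (Matrix.map_mul (f := Θ01.toRingHom)).symm
  obtain ⟨L, hL, f0, f1, f01, c0, c1, c01, cr0, cr1⟩ :=
    hMG X W0 W1 hcov n0 n1 (E0.map Θ0) (E1.map Θ1) (G.map Θ01) (G'.map Θ01)
      (isProj1_map hE0 Θ0.toRingHom) (isProj1_map hE1 Θ1.toRingHom) hm1 hm2
  refine ⟨L, hL, h0.trans ((mapFix Θ0 E0 _ rfl).trans f0),
    h1.trans ((mapFix Θ1 E1 _ rfl).trans f1),
    h01.trans ((mapFix Θ01 (E0.map ι0) _ e0.symm).trans f01), ?_, ?_, ?_, ?_, ?_⟩
  · intro c p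
    change f0 (mapFix Θ0 E0 _ rfl (h0 (c • p))) = Θ0 c • f0 (mapFix Θ0 E0 _ rfl (h0 p))
    rw [hs0, mapFix_smul, c0]
  · intro c p
    change f1 (mapFix Θ1 E1 _ rfl (h1 (c • p))) = Θ1 c • f1 (mapFix Θ1 E1 _ rfl (h1 p))
    rw [hs1, mapFix_smul, c1]
  · intro c p
    change f01 (mapFix Θ01 (E0.map ι0) _ e0.symm (h01 (c • p))) =
      Θ01 c • f01 (mapFix Θ01 (E0.map ι0) _ e0.symm (h01 p))
    rw [hs01, mapFix_smul, c01]
  · intro p
    change f01 (mapFix Θ01 (E0.map ι0) _ e0.symm (h01 (r0 p))) =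
      res L _ (f0 (mapFix Θ0 E0 _ rfl (h0 p)))
    apply cr0
    intro i
    rw [mapFix_apply, mapFix_apply, hr0, hΘ0]
  · intro p
    change f01 (mapFix Θ01 (E0.map ι0) _ e0.symm (h01 (r1 p))) =
      res L _ (f1 (mapFix Θ1 E1 _ rfl (h1 p)))
    apply cr1
    intro i
    rw [mapFix_apply, hr1, map_sum]
    refine Finset.sum_congr rfl fun j _ => ?_
    rw [map_mul, mapFix_apply, hΘ1]
    rfl

section Curve

variable {k : Type u} [Field k] {C : Scheme.{u}} {c : C ⟶ Spec (CommRingCat.of k)}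
  {ε : SchemeHomOver (𝟙 (Spec (CommRingCat.of k))) c} {𝒞 : LB.CurveDatum k}

theorem WR_sup_eq_top (ρ : Realizes c ε 𝒞) (R : Type u) [CommRing R] [Algebra k R] :
    WR c R ρ.U₀ ⊔ WR c R ρ.U₁ = ⊤ := by
  apply le_antisymm le_top
  intro x _
  have h : (pullback.fst c (tR k R)) x ∈ ρ.U₀ ⊔ ρ.U₁ := by
    rw [ρ.cover]
    exact Opens.mem_top _
  exact h

theorem WR_inf_eq (ρ : Realizes c ε 𝒞) (R : Type u) [CommRing R] [Algebra k R] :
    WR c R (ρ.U₀ ⊓ ρ.U₁) = WR c R ρ.U₀ ⊓ WR c R ρ.U₁ := rfl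

end Curve

/-- **BRIDGE-T3** from ALG and MG, for given chart rings. -/
theorem stmt_T3_of (hRING : Stmt_RING.{u}) (hALG : H94.Stmt_ALG.{u}) (hMG : H94.Stmt_MG.{u}) :
    Stmt_T3.{u} := by
  intro k _ C c ε 𝒞 hgood ρ R _ _ T
  obtain ⟨Θ⟩ := H24.exists_chartRing hRING ρ R
  obtain ⟨n0, n1, E0, E1, G, G', hE0, hE1, hG'G, hGG', h0, h1, h01, hs0, hs1, hs01, hr0, hr1⟩ :=
    hALG k 𝒞 hgood R T
  obtain ⟨L, hL, F0, F1, F01, c0, c1, c01, cr0, cr1⟩ :=
    glue_abs hMG (WR c R ρ.U₀) (WR c R ρ.U₁) (WR c R (ρ.U₀ ⊓ ρ.U₁)) (WR_sup_eq_top ρ R)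
      (WR_inf_eq ρ R) (fun _ h => h.1) (fun _ h => h.2) Θ.Θ0 Θ.Θ1 Θ.Θ01 (𝒞.ι0 R) (𝒞.ι1 R)
      Θ.resO_Θ0 Θ.resO_Θ1 (fun p => T.r0 p) (fun p => T.r1 p) E0 E1 G G' hE0 hE1 hG'G hGG'
      h0 h1 h01 hs0 hs1 hs01 hr0 hr1
  refine ⟨L, hL, ⟨⟨F0, F1, F01, ?_, ?_, ?_, cr0, cr1⟩⟩⟩
  · intro r b p
    rw [c0, Θ.h0]
  · intro r b p
    rw [c1, Θ.h1]
  · intro r b p
    rw [c01, Θ.h01]

/-- **BRIDGE-T3** from ALG and MG (RING is landed). -/
theorem stmt_T3_of_MG (hALG : H94.Stmt_ALG.{u}) (hMG : H94.Stmt_MG.{u}) : Stmt_T3.{u} :=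
  stmt_T3_of H7.stmt_RING hALG hMG

end Fermat.Agent.S25.Bridge.H99
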